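import Fermat.Agent.GR.D.HauptRam

/-!
# C36-UNIT: generalities on "monic" Laurent series coming from `ℤ⟦X⟧`, level raising in `FF`
-/

set_option autoImplicit false

namespace Fermat.Agent.C36.Unit

open ModularCurve Fermat.Agent.GR Fermat.Agent.GR.D.Haupt

noncomputable section

variable (R : Type*) [CommRing R]

/-- the variable `q` -/
def xL : LaurentSeries R := HahnSeries.single (1 : ℤ) 1
/-- `q⁻¹` -/
def xiL : LaurentSeries R := HahnSeries.single (-1 : ℤ) 1

theorem xL_mul_xiL : xL R * xiL R = 1 := by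
  rw [mul_comm]; exact single_neg_one_mul_single_one R

theorem toL_X' : toL R PowerSeries.X = xL R := toL_X R

theorem poleL_eq (u : PowerSeries ℤ) : poleL R u = xiL R * toL R u := rfl

theorem qExpand_xiL (r : ℕ) [NeZero r] : qExpand R r (xiL R) = xiL R ^ r := by
  rw [xiL, qExpand_single, HahnSeries.single_pow, one_pow]
  congr 1

theorem qExpand_poleL (r : ℕ) [NeZero r] (u : PowerSeries ℤ) :
    qExpand R r (poleL R u) = xiL R ^ r * toL R (PowerSeries.expand r (NeZero.ne r) u) := by
  rw [poleL_eq, map_mul, qExpand_xiL, qExpand_toL]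

/-- the coefficient of `q^(-k)` in `q^(-k) (u₀ + u₁ q + ⋯)` -/
theorem coeff_xiL_pow_mul (k : ℕ) (u : PowerSeries ℤ) (n : ℤ) :
    (xiL R ^ k * toL R u).coeff n = (toL R u).coeff (n + k) := by
  rw [xiL, HahnSeries.single_pow, one_pow, HahnSeries.coeff_single_mul, one_mul]
  congr 1
  simp

theorem xiL_pow_mul_ne_natCast [Nontrivial R] (k : ℕ) {u : PowerSeries ℤ}
    (hu : PowerSeries.constantCoeff u = 1) (c : LaurentSeries R)
    (hc : c.coeff (-(k : ℤ)) = 0) : xiL R ^ k * toL R u ≠ c := by
  intro h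
  have h1 := congrArg (fun f => HahnSeries.coeff f (-(k : ℤ))) h
  simp only [coeff_xiL_pow_mul, neg_add_cancel, hc] at h1
  have h2 := toL_coeff_nat R u 0
  rw [PowerSeries.coeff_zero_eq_constantCoeff_apply, hu] at h2
  simp only [Nat.cast_zero, Int.cast_one] at h2
  rw [h2] at h1
  exact one_ne_zero h1

end

section Field

variable (K : Type*) [Field K]

theorem qExpand_mem_FF (r : ℕ) [NeZero r] {M N : ℕ} [NeZero M] [NeZero N] (h : M * r ∣ N)
    {u : LaurentSeries K} (hu : u ∈ FF K M) : qExpand K r u ∈ FF K N := by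
  have : NeZero (M * r) := ⟨mul_ne_zero (NeZero.ne M) (NeZero.ne r)⟩
  apply full_degeneracyC_le K h
  apply full_degeneracyC_map_le K M r
  exact ⟨u, hu, rfl⟩

end Field

end Fermat.Agent.C36.Unit
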