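import Fermat.Agent.C36.Unit.Base

/-!
# C36-UNIT: the Hauptmodul `y₉ = (η(q)/η(q⁹))³` of `X₀(9)`

`y₉ = q⁻¹ + ⋯ ∈ ℤ((q))`, with `y₉³ = h₃ (y₉² + 9 y₉ + 27)`, `y₉ (y₉² + 9 y₉ + 27) = h₃(q³)`,
`j y₉⁹ (y₉² + 9 y₉ + 27) = (y₉ + 9)³ (y₉³ + 243 y₉² + 2187 y₉ + 6561)³`.
-/

set_option autoImplicit false

namespace Fermat.Agent.C36.Unit

open ModularCurve Fermat.Agent.GR Fermat.Agent.GR.D.Haupt

noncomputable section

/-- `hNum3 (q³)` -/
def hNum3e : PowerSeries ℤ := PowerSeries.expand 3 (by norm_num) hNum3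

theorem constantCoeff_hNum3e : PowerSeries.constantCoeff hNum3e = 1 := by
  rw [hNum3e, PowerSeries.constantCoeff_expand, constantCoeff_hNum3]

/-- `q⁴ (X Y + 9 Y - 243 X + 729)` -/
def den9 : PowerSeries ℤ :=
  hNum3 * hNum3e + 9 * PowerSeries.X * hNum3e - 243 * PowerSeries.X ^ 3 * hNum3
    + 729 * PowerSeries.X ^ 4

theorem constantCoeff_den9 : PowerSeries.constantCoeff den9 = 1 := by
  simp [den9, constantCoeff_hNum3, constantCoeff_hNum3e]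

/-- the inverse of `den9` -/
def den9Inv : PowerSeries ℤ := den9.invOfUnit 1

theorem den9_mul_inv : den9 * den9Inv = 1 :=
  PowerSeries.mul_invOfUnit _ _ (by rw [constantCoeff_den9]; rfl)

theorem constantCoeff_den9Inv : PowerSeries.constantCoeff den9Inv = 1 := by
  have h := congrArg (PowerSeries.constantCoeff (R := ℤ)) den9_mul_inv
  rwa [map_mul, constantCoeff_den9, one_mul, map_one] at h

/-- `q⁵ (X² Y + 18 X Y + 27 Y + 1458 X)` -/
def num9 : PowerSeries ℤ :=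
  hNum3 ^ 2 * hNum3e + 18 * PowerSeries.X * hNum3 * hNum3e + 27 * PowerSeries.X ^ 2 * hNum3e
    + 1458 * PowerSeries.X ^ 4 * hNum3

theorem constantCoeff_num9 : PowerSeries.constantCoeff num9 = 1 := by
  simp [num9, constantCoeff_hNum3, constantCoeff_hNum3e]

/-- `q y₉` -/
def yNum9 : PowerSeries ℤ := num9 * den9Inv

theorem constantCoeff_yNum9 : PowerSeries.constantCoeff yNum9 = 1 := by
  rw [yNum9, map_mul, constantCoeff_num9, constantCoeff_den9Inv, one_mul]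

variable (R : Type*) [CommRing R]

/-- The Hauptmodul `y₉ = q⁻¹ + ⋯` of `X₀(9)`. -/
def y9 : LaurentSeries R := poleL R yNum9

variable {R} in
theorem coeffMap_y9 {S : Type*} [CommRing S] (f : R →+* S) : coeffMap f (y9 R) = y9 S :=
  coeffMap_poleL f _

theorem y9_coeff_neg_one : (y9 R).coeff (-1) = 1 := poleL_coeff_neg_one R constantCoeff_yNum9

theorem y9_coeff_of_lt {k : ℤ} (hk : k < -1) : (y9 R).coeff k = 0 := poleL_coeff_of_lt R _ hk

theorem y9_order [Nontrivial R] : (y9 R).order = -1 := poleL_order R constantCoeff_yNum9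

/-- `h₃(q³)` -/
def h3V : LaurentSeries R := qExpand R 3 (h3 R)

theorem h3V_eq : h3V R = xiL R ^ 3 * toL R hNum3e := qExpand_poleL R 3 hNum3

variable {R} in
theorem coeffMap_h3V {S : Type*} [CommRing S] (f : R →+* S) : coeffMap f (h3V R) = h3V S := by
  rw [h3V, coeffMap_qExpand, coeffMap_h3, h3V]

/-- the denominator of `y₉` -/
def E9 : LaurentSeries R := h3 R * h3V R + 9 * h3V R - 243 * h3 R + 729
/-- the numerator of `y₉` -/
def M9 : LaurentSeries R := h3 R ^ 2 * h3V R + 18 * h3 R * h3V R + 27 * h3V R + 1458 * h3 R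

theorem E9_eq : E9 R = xiL R ^ 4 * toL R den9 := by
  have h1 := xL_mul_xiL R
  rw [E9, h3V_eq, h3, poleL_eq, den9]
  simp only [map_add, map_sub, map_mul, map_pow, map_ofNat, toL_X']
  set x := xL R
  set xi := xiL R
  set U := toL R hNum3
  set E := toL R hNum3e
  linear_combination (-(9 * xi ^ 3 * E) + 243 * xi * U * ((x * xi) ^ 2 + x * xi + 1)
    - 729 * ((x * xi) ^ 3 + (x * xi) ^ 2 + x * xi + 1)) * h1

theorem M9_eq : M9 R = xiL R ^ 5 * toL R num9 := by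
  have h1 := xL_mul_xiL R
  rw [M9, h3V_eq, h3, poleL_eq, num9]
  simp only [map_add, map_mul, map_pow, map_ofNat, toL_X']
  set x := xL R
  set xi := xiL R
  set U := toL R hNum3
  set E := toL R hNum3e
  linear_combination (-(18 * xi ^ 4 * U * E) - 27 * xi ^ 3 * E * (x * xi + 1)
    - 1458 * xi * U * ((x * xi) ^ 3 + (x * xi) ^ 2 + x * xi + 1)) * h1

/-- `y₉ (X Y + 9 Y - 243 X + 729) = X² Y + 18 X Y + 27 Y + 1458 X`. -/
theorem y9_mul : y9 R * E9 R = M9 R := by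
  have h2' : toL R den9 * toL R den9Inv = 1 := by rw [← map_mul, den9_mul_inv, map_one]
  rw [E9_eq, M9_eq, y9, poleL_eq, yNum9, map_mul]
  linear_combination (xiL R ^ 5 * toL R num9) * h2'

/-- the modular equation of `X₀(9)` between `X = h₃` and `Y = h₃(q³)` -/
def G9 : LaurentSeries R :=
  h3 R ^ 3 * h3V R ^ 2 + 36 * h3 R ^ 2 * h3V R ^ 2 + 729 * h3 R ^ 2 * h3V R
    + 270 * h3 R * h3V R ^ 2 + 26244 * h3 R * h3V R + 531441 * h3 R - h3V R ^ 3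

theorem rel9_aux : (h3 R * h3V R - 729) * G9 R = 0 := by
  have e1 := j3_mul_h3 R
  have e2 := congrArg (qExpand R 3) (j_mul_h3_cube R)
  simp only [map_mul, map_pow, map_add, map_ofNat] at e2
  rw [← h3V] at e2
  rw [G9]
  linear_combination -(h3V R ^ 3) * e1 + h3 R * e2

theorem rel9_int : G9 ℤ = 0 := by
  refine (mul_eq_zero.mp (rel9_aux ℤ)).resolve_left ?_
  rw [sub_eq_zero, h3V_eq, h3, poleL_eq]
  have : xiL ℤ * toL ℤ hNum3 * (xiL ℤ ^ 3 * toL ℤ hNum3e)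
      = xiL ℤ ^ 4 * toL ℤ (hNum3 * hNum3e) := by
    rw [map_mul]; ring
  rw [this]
  refine xiL_pow_mul_ne_natCast ℤ 4 ?_ _ ?_
  · rw [map_mul, constantCoeff_hNum3e, constantCoeff_hNum3, one_mul]
  · have : (729 : LaurentSeries ℤ) = HahnSeries.C (729 : ℤ) := (map_ofNat HahnSeries.C 729).symm
    rw [this, HahnSeries.C_apply, HahnSeries.coeff_single_of_ne (by norm_num)]

theorem E9_ne_zero [Nontrivial R] : E9 R ≠ 0 := by
  rw [E9_eq]
  exact xiL_pow_mul_ne_natCast R 4 constantCoeff_den9 0 rfl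

theorem y9_cube_int : y9 ℤ ^ 3 = h3 ℤ * (y9 ℤ ^ 2 + 9 * y9 ℤ + 27) := by
  have hne := pow_ne_zero 3 (E9_ne_zero ℤ)
  apply mul_right_cancel₀ hne
  have h1 := y9_mul ℤ
  have hG := rel9_int
  have hc : M9 ℤ ^ 3 - h3 ℤ * (M9 ℤ ^ 2 * E9 ℤ + 9 * M9 ℤ * E9 ℤ ^ 2 + 27 * E9 ℤ ^ 3)
      = (243 * h3 ℤ ^ 3 + 5103 * h3 ℤ ^ 2 + 6561 * h3 ℤ - 19683) * G9 ℤ := by
    rw [M9, E9, G9]; ring
  rw [hG, mul_zero] at hc
  set W := y9 ℤ * E9 ℤ with hW
  linear_combination ((W ^ 2 + W * M9 ℤ + M9 ℤ ^ 2)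
    - h3 ℤ * ((W + M9 ℤ) * E9 ℤ + 9 * E9 ℤ ^ 2)) * h1 + hc

theorem y9_mul_add_int : y9 ℤ * (y9 ℤ ^ 2 + 9 * y9 ℤ + 27) = h3V ℤ := by
  have hne := pow_ne_zero 3 (E9_ne_zero ℤ)
  apply mul_right_cancel₀ hne
  have h1 := y9_mul ℤ
  have hG := rel9_int
  have hc : M9 ℤ ^ 3 + 9 * M9 ℤ ^ 2 * E9 ℤ + 27 * M9 ℤ * E9 ℤ ^ 2 - h3V ℤ * E9 ℤ ^ 3
      = (h3 ℤ ^ 3 * h3V ℤ + 27 * h3 ℤ ^ 2 * h3V ℤ + 1458 * h3 ℤ ^ 2 + 243 * h3 ℤ * h3V ℤ
          + 729 * h3V ℤ + 39366) * G9 ℤ := by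
    rw [M9, E9, G9]; ring
  rw [hG, mul_zero] at hc
  set W := y9 ℤ * E9 ℤ with hW
  linear_combination ((W ^ 2 + W * M9 ℤ + M9 ℤ ^ 2)
    + 9 * (W + M9 ℤ) * E9 ℤ + 27 * E9 ℤ ^ 2) * h1 + hc

/-- `y₉³ = h₃ (y₉² + 9 y₉ + 27)`. -/
theorem y9_cube : y9 R ^ 3 = h3 R * (y9 R ^ 2 + 9 * y9 R + 27) := by
  have := congrArg (coeffMap (Int.castRingHom R)) y9_cube_int
  simpa only [map_add, map_mul, map_pow, map_ofNat, coeffMap_h3, coeffMap_y9] using this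

/-- `y₉ (y₉² + 9 y₉ + 27) = h₃(q³)`. -/
theorem y9_mul_add : y9 R * (y9 R ^ 2 + 9 * y9 R + 27) = h3V R := by
  have := congrArg (coeffMap (Int.castRingHom R)) y9_mul_add_int
  simpa only [map_add, map_mul, map_pow, map_ofNat, coeffMap_h3V, coeffMap_y9] using this

/-- `j y₉⁹ (y₉² + 9 y₉ + 27) = (y₉ + 9)³ (y₉³ + 243 y₉² + 2187 y₉ + 6561)³`. -/
theorem j_mul_y9 : jqModC R * (y9 R ^ 9 * (y9 R ^ 2 + 9 * y9 R + 27)) =
    (y9 R + 9) ^ 3 * (y9 R ^ 3 + 243 * y9 R ^ 2 + 2187 * y9 R + 6561) ^ 3 := by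
  have h1 := j_mul_h3_cube R
  have h2' := y9_cube R
  set y := y9 R
  set X := h3 R
  set j := jqModC R
  set w := y ^ 2 + 9 * y + 27 with hw
  have e1 : (y + 9) ^ 3 = (X + 27) * w := by linear_combination h2'
  have e2 : y ^ 3 + 243 * y ^ 2 + 2187 * y + 6561 = (X + 243) * w := by linear_combination h2'
  have e3 : y ^ 9 = X ^ 3 * w ^ 3 := by
    linear_combination ((y ^ 3) ^ 2 + y ^ 3 * (X * w) + (X * w) ^ 2) * h2'
  rw [e1, e2, e3]
  linear_combination w ^ 4 * h1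

/-- `(j - 1728) y₉⁹ (y₉² + 9 y₉ + 27)` is a square. -/
theorem j_sub_mul_y9 : (jqModC R - 1728) * (y9 R ^ 9 * (y9 R ^ 2 + 9 * y9 R + 27)) =
    (y9 R ^ 6 - 486 * y9 R ^ 3 * (y9 R ^ 2 + 9 * y9 R + 27)
      - 19683 * (y9 R ^ 2 + 9 * y9 R + 27) ^ 2) ^ 2 := by
  linear_combination j_mul_y9 R

section Field

variable (K : Type*) [Field K]

theorem y9_transcendental : Transcendental K (y9 K) :=
  poleL_transcendental K constantCoeff_yNum9

theorem y9_ne_zero : y9 K ≠ 0 := fun h => by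
  have := y9_coeff_neg_one K
  rw [h] at this
  simp at this

theorem h3V_mem_FF {N : ℕ} [NeZero N] (hN : 9 ∣ N) : h3V K ∈ FF K N :=
  qExpand_mem_FF K 3 (M := 3) (by simpa using hN) (h3_mem_FF K dvd_rfl)

theorem y9_mem_FF {N : ℕ} [NeZero N] (hN : 9 ∣ N) : y9 K ∈ FF K N := by
  have e : y9 K = M9 K / E9 K := by
    rw [eq_div_iff (E9_ne_zero K)]
    exact y9_mul K
  have hm : h3 K ∈ FF K N := h3_mem_FF K (Dvd.dvd.trans (by norm_num) hN)
  have hV := h3V_mem_FF K hN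
  have hn : ∀ n : ℕ, (n : LaurentSeries K) ∈ FF K N := fun n => (FF K N).natCast_mem n
  rw [e, M9, E9]
  refine div_mem (add_mem (add_mem (add_mem (mul_mem (pow_mem hm 2) hV)
    (mul_mem (mul_mem ?_ hm) hV)) (mul_mem ?_ hV)) (mul_mem ?_ hm))
    (add_mem (sub_mem (add_mem (mul_mem hm hV) (mul_mem ?_ hV)) (mul_mem ?_ hm)) ?_)
  · exact_mod_cast hn 18
  · exact_mod_cast hn 27
  · exact_mod_cast hn 1458
  · exact_mod_cast hn 9
  · exact_mod_cast hn 243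
  · exact_mod_cast hn 729

end Field

end

end Fermat.Agent.C36.Unit
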