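import Fermat.Agent.C36.Unit.S4
import Fermat.Agent.C36.Unit.Y9

/-!
# C36-UNIT: the two base cases, uniformly

`two`  : `r = 2`, level `4`, `t = h₂`, `s = s₄`, `w(x) = x + 16`          (used for `q` odd)
`three`: `r = 3`, level `9`, `t = h₃`, `s = y₉`, `w(x) = x² + 9 x + 27`   (used for `q = 2`)

`s ^ r = t * w(s)`, `s * w(s) = t(q^r)`, `j * (s ^ lvl * w(s)) = e4(s) ^ 3`,
`(j - 1728) * (s ^ lvl * w(s)) = e6(s) ^ 2`.
-/

set_option autoImplicit false

namespace Fermat.Agent.C36.Unit

open ModularCurve Fermat.Agent.GR Fermat.Agent.GR.D.Haupt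

/-- the two base cases -/
inductive BaseCase
  | two
  | three
  deriving DecidableEq

namespace BaseCase

/-- the auxiliary prime -/
def r : BaseCase → ℕ
  | two => 2
  | three => 3

/-- the auxiliary level `r²` -/
def lvl : BaseCase → ℕ
  | two => 4
  | three => 9

instance (c : BaseCase) : NeZero c.r := ⟨by cases c <;> simp [r]⟩
instance (c : BaseCase) : NeZero c.lvl := ⟨by cases c <;> simp [lvl]⟩

theorem r_prime (c : BaseCase) : c.r.Prime := by cases c <;> norm_num [r]
theorem lvl_eq (c : BaseCase) : c.lvl = c.r * c.r := by cases c <;> rfl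
theorem r_dvd_lvl (c : BaseCase) : c.r ∣ c.lvl := ⟨c.r, c.lvl_eq⟩

/-- `q t` -/
noncomputable def tNum : BaseCase → PowerSeries ℤ
  | two => hNum2
  | three => hNum3

/-- `q s` -/
noncomputable def sNum : BaseCase → PowerSeries ℤ
  | two => sNum4
  | three => yNum9

theorem constantCoeff_tNum (c : BaseCase) : PowerSeries.constantCoeff c.tNum = 1 := by
  cases c
  · exact constantCoeff_hNum2
  · exact constantCoeff_hNum3

theorem constantCoeff_sNum (c : BaseCase) : PowerSeries.constantCoeff c.sNum = 1 := by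
  cases c
  · exact constantCoeff_sNum4
  · exact constantCoeff_yNum9

/-- `w(x)`: the cusps other than `0, ∞` of the `s`-line are the zeros of `w` -/
def wv (c : BaseCase) {A : Type*} [CommRing A] (x : A) : A :=
  match c with
  | two => x + 16
  | three => x ^ 2 + 9 * x + 27

/-- `r w(x) - x w'(x)` : `dlog t = rho(s) ds`, `rho = rn(s) / (s w(s))` -/
def rn (c : BaseCase) {A : Type*} [CommRing A] (x : A) : A :=
  match c with
  | two => x + 32
  | three => (x + 9) ^ 2

/-- `j s^lvl w(s) = e4(s)³` -/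
def e4 (c : BaseCase) {A : Type*} [CommRing A] (x : A) : A :=
  match c with
  | two => x ^ 2 + 256 * x + 4096
  | three => (x + 9) * (x ^ 3 + 243 * x ^ 2 + 2187 * x + 6561)

/-- `(j - 1728) s^lvl w(s) = e6(s)²` -/
def e6 (c : BaseCase) {A : Type*} [CommRing A] (x : A) : A :=
  match c with
  | two => (x + 32) * (x ^ 2 - 512 * x - 8192)
  | three => x ^ 6 - 486 * x ^ 3 * (x ^ 2 + 9 * x + 27) - 19683 * (x ^ 2 + 9 * x + 27) ^ 2

/-- `j t^r = jt(t)` -/
def jt (c : BaseCase) {A : Type*} [CommRing A] (x : A) : A :=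
  match c with
  | two => (x + 256) ^ 3
  | three => (x + 27) * (x + 243) ^ 3

/-- `j(q^r) t = jt'(t)` -/
def jt' (c : BaseCase) {A : Type*} [CommRing A] (x : A) : A :=
  match c with
  | two => (x + 16) ^ 3
  | three => (x + 27) * (x + 3) ^ 3

theorem map_wv (c : BaseCase) {A B : Type*} [CommRing A] [CommRing B] (f : A →+* B) (x : A) :
    f (c.wv x) = c.wv (f x) := by cases c <;> simp [wv, map_ofNat]
theorem map_rn (c : BaseCase) {A B : Type*} [CommRing A] [CommRing B] (f : A →+* B) (x : A) :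
    f (c.rn x) = c.rn (f x) := by cases c <;> simp [rn, map_ofNat]
theorem map_e4 (c : BaseCase) {A B : Type*} [CommRing A] [CommRing B] (f : A →+* B) (x : A) :
    f (c.e4 x) = c.e4 (f x) := by cases c <;> simp [e4, map_ofNat]
theorem map_e6 (c : BaseCase) {A B : Type*} [CommRing A] [CommRing B] (f : A →+* B) (x : A) :
    f (c.e6 x) = c.e6 (f x) := by cases c <;> simp [e6, map_ofNat]
theorem map_jt (c : BaseCase) {A B : Type*} [CommRing A] [CommRing B] (f : A →+* B) (x : A) :
    f (c.jt x) = c.jt (f x) := by cases c <;> simp [jt, map_ofNat]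
theorem map_jt' (c : BaseCase) {A B : Type*} [CommRing A] [CommRing B] (f : A →+* B) (x : A) :
    f (c.jt' x) = c.jt' (f x) := by cases c <;> simp [jt', map_ofNat]

noncomputable section

variable (c : BaseCase) (R : Type*) [CommRing R]

/-- the base function `t = h_r` -/
def t : LaurentSeries R := poleL R c.tNum
/-- the Hauptmodul `s` of `X₀(r²)` -/
def s : LaurentSeries R := poleL R c.sNum

@[simp] theorem t_two : BaseCase.two.t R = h2 R := rfl
@[simp] theorem t_three : BaseCase.three.t R = h3 R := rfl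
@[simp] theorem s_two : BaseCase.two.s R = s4 R := rfl
@[simp] theorem s_three : BaseCase.three.s R = y9 R := rfl

variable {R} in
theorem coeffMap_t {S : Type*} [CommRing S] (f : R →+* S) : coeffMap f (c.t R) = c.t S :=
  coeffMap_poleL f _
variable {R} in
theorem coeffMap_s {S : Type*} [CommRing S] (f : R →+* S) : coeffMap f (c.s R) = c.s S :=
  coeffMap_poleL f _

theorem t_order [Nontrivial R] : (c.t R).order = -1 := poleL_order R c.constantCoeff_tNum
theorem s_order [Nontrivial R] : (c.s R).order = -1 := poleL_order R c.constantCoeff_sNum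

/-- `s ^ r = t w(s)` -/
theorem s_pow : c.s R ^ c.r = c.t R * c.wv (c.s R) := by
  cases c
  · exact s4_sq R
  · exact y9_cube R

/-- `s w(s) = t(q^r)` -/
theorem s_mul : c.s R * c.wv (c.s R) = qExpand R c.r (c.t R) := by
  cases c
  · exact s4_mul_add R
  · exact y9_mul_add R

theorem j_mul_s : jqModC R * (c.s R ^ c.lvl * c.wv (c.s R)) = c.e4 (c.s R) ^ 3 := by
  cases c
  · exact j_mul_s4 R
  · have := j_mul_y9 R
    simp only [s_three, lvl, wv, e4, mul_pow]
    exact this

theorem j_sub_mul_s : (jqModC R - 1728) * (c.s R ^ c.lvl * c.wv (c.s R)) = c.e6 (c.s R) ^ 2 := by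
  cases c
  · exact j_sub_mul_s4 R
  · exact j_sub_mul_y9 R

theorem j_mul_t : jqModC R * c.t R ^ c.r = c.jt (c.t R) := by
  cases c
  · exact j_mul_h2_sq R
  · exact j_mul_h3_cube R

theorem jr_mul_t : qExpand R c.r (jqModC R) * c.t R = c.jt' (c.t R) := by
  cases c
  · exact j2_mul_h2 R
  · exact j3_mul_h3 R

section Field

variable (K : Type*) [Field K]

theorem t_transcendental : Transcendental K (c.t K) :=
  poleL_transcendental K c.constantCoeff_tNum
theorem s_transcendental : Transcendental K (c.s K) :=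
  poleL_transcendental K c.constantCoeff_sNum

theorem t_mem_FF {N : ℕ} (hN : c.r ∣ N) : c.t K ∈ FF K N := by
  cases c
  · exact h2_mem_FF K hN
  · exact h3_mem_FF K hN

theorem s_mem_FF {N : ℕ} [NeZero N] (hN : c.lvl ∣ N) : c.s K ∈ FF K N := by
  cases c
  · exact s4_mem_FF K hN
  · exact y9_mem_FF K hN

/-- `t` as an element of the function field -/
def tF {N : ℕ} (hN : c.r ∣ N) : FF K N := ⟨c.t K, c.t_mem_FF K hN⟩
/-- `s` as an element of the function field -/
def sF {N : ℕ} [NeZero N] (hN : c.lvl ∣ N) : FF K N := ⟨c.s K, c.s_mem_FF K hN⟩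
/-- `t(q^m)` as an element of the function field -/
def tVF (m : ℕ) [NeZero m] {N : ℕ} [NeZero N] (hN : c.r * m ∣ N) : FF K N :=
  ⟨qExpand K m (c.t K), qExpand_mem_FF K m hN (c.t_mem_FF K dvd_rfl)⟩
/-- `s(q^m)` as an element of the function field -/
def sVF (m : ℕ) [NeZero m] {N : ℕ} [NeZero N] (hN : c.lvl * m ∣ N) : FF K N :=
  ⟨qExpand K m (c.s K), qExpand_mem_FF K m hN (c.s_mem_FF K dvd_rfl)⟩

@[simp] theorem coe_tF {N : ℕ} (hN : c.r ∣ N) : ((c.tF K hN : FF K N) : LaurentSeries K) = c.t K :=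
  rfl
@[simp] theorem coe_sF {N : ℕ} [NeZero N] (hN : c.lvl ∣ N) :
    ((c.sF K hN : FF K N) : LaurentSeries K) = c.s K := rfl
@[simp] theorem coe_tVF (m : ℕ) [NeZero m] {N : ℕ} [NeZero N] (hN : c.r * m ∣ N) :
    ((c.tVF K m hN : FF K N) : LaurentSeries K) = qExpand K m (c.t K) := rfl
@[simp] theorem coe_sVF (m : ℕ) [NeZero m] {N : ℕ} [NeZero N] (hN : c.lvl * m ∣ N) :
    ((c.sVF K m hN : FF K N) : LaurentSeries K) = qExpand K m (c.s K) := rfl

theorem transcendental_coe {N : ℕ} {x : FF K N} (hx : Transcendental K (x : LaurentSeries K)) :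
    Transcendental K x := fun h => hx (h.algHom (FF K N).val)

theorem tF_transcendental {N : ℕ} (hN : c.r ∣ N) : Transcendental K (c.tF K hN) :=
  transcendental_coe K (c.t_transcendental K)
theorem sF_transcendental {N : ℕ} [NeZero N] (hN : c.lvl ∣ N) : Transcendental K (c.sF K hN) :=
  transcendental_coe K (c.s_transcendental K)

end Field

end

end BaseCase

end Fermat.Agent.C36.Unit
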