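import Fermat.Agent.C36.Unit.Case
import Fermat.Agent.GT.EMB.Level
import Fermat.Agent.GR.E.BR10

/-!
# C36-UNIT: Atkin–Lehner involutions `w_p`, `w_r` at level `r p` on `t` and `V t`
-/

set_option autoImplicit false

namespace Fermat.Agent.C36.Unit

open AlgebraicCurve ModularCurve IntermediateField Fermat.Agent.GR Fermat.Agent.GR.D
  Fermat.Agent.GR.D.Haupt Fermat.Agent.GT.EMB

/-- an embedding `ℚ̄ → ℂ` -/
noncomputable def cuspal_iota : Qb →+* ℂ :=
  haveI : Algebra.IsAlgebraic ℚ Qb := AlgebraicClosure.isAlgebraic ℚ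
  (IsAlgClosed.lift (R := ℚ) (S := Qb) (M := ℂ)).toRingHom

/-- abstract computation, case `r = 2` -/
theorem cuspal_two {F : Type*} [Field F] {t j j2 T : F} (ht : t ≠ 0)
    (h1 : j * t ^ 2 = (t + 256) ^ 3) (h2 : j2 * t = (t + 16) ^ 3)
    (hA : j * j2 - 720 * j - 720 * j2 - 16250625 ≠ 0)
    (hT : T * (j2 * j - 720 * j2 - 720 * j - 16250625)
      = j ^ 2 + 195120 * j + 4095 * j2 + 660960000) : T * t = 4096 := by
  have e1 : j = (t + 256) ^ 3 / t ^ 2 := by
    rw [eq_div_iff (pow_ne_zero _ ht)]; exact h1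
  have e2 : j2 = (t + 16) ^ 3 / t := by
    rw [eq_div_iff ht]; exact h2
  have key : t * (j ^ 2 + 195120 * j + 4095 * j2 + 660960000)
      = 4096 * (j * j2 - 720 * j - 720 * j2 - 16250625) := by
    rw [e1, e2]
    field_simp
    ring
  apply mul_right_cancel₀ hA
  linear_combination t * hT + key

/-- abstract computation, case `r = 3` -/
theorem cuspal_three {F : Type*} [Field F] {t a b T : F} (ht : t ≠ 0)
    (h1 : a * t ^ 3 = (t + 27) * (t + 243) ^ 3) (h2 : b * t = (t + 27) * (t + 3) ^ 3)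
    (hA : denA3 a b ≠ 0) (hT : T * denA3 b a = numB3 b a) : T * t = 729 := by
  have e1 : a = (t + 27) * (t + 243) ^ 3 / t ^ 3 := by
    rw [eq_div_iff (pow_ne_zero _ ht)]; exact h1
  have e2 : b = (t + 27) * (t + 3) ^ 3 / t := by
    rw [eq_div_iff ht]; exact h2
  have key : t * numB3 b a = 729 * denA3 a b := by
    rw [e1, e2, numB3, denA3]
    field_simp
    ring
  have hsymm : denA3 b a = denA3 a b := by
    rw [denA3, denA3]; ring
  rw [hsymm] at hT
  apply mul_right_cancel₀ hA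
  linear_combination t * hT + key

/-- `w_p` at a level `N = p * r` -/
theorem cuspal_exists_wp (p r N : ℕ) [NeZero p] [NeZero N] (hN : N = p * r) (hcop : p.Coprime r) :
    ∃ w : FF Qb N ≃ₐ[Qb] FF Qb N, (∀ u, w (w u) = u) ∧
      ∀ u : FF Qb N, (u : LaurentSeries Qb) ∈ FF Qb r →
        (w u : LaurentSeries Qb) = qExpand Qb p (u : LaurentSeries Qb) := by
  subst hN
  exact ⟨wQ Qb p r, wQ_wQ cuspal_iota p r hcop, wQ_of_mem cuspal_iota p r hcop⟩

theorem cuspal_gen_congr (N : ℕ) [NeZero N] {d d' : ℕ} (h : d = d') (hd : d ∣ N) (hd' : d' ∣ N) :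
    gen Qb N d hd = gen Qb N d' hd' := by
  subst h; rfl

/-- `w_r` exchanges `j(q^m)` and `j(q^(r m))`, `m ∣ p`. -/
theorem cuspal_wQ_gen (r p m : ℕ) [NeZero (r * p)] (hr : r ≠ 0) (hcop : r.Coprime p) (hm : m ∣ p) :
    wQ Qb r p (gen Qb (r * p) m (hm.mul_left r)) = gen Qb (r * p) (r * m) (Nat.mul_dvd_mul_left r hm)
    ∧ wQ Qb r p (gen Qb (r * p) (r * m) (Nat.mul_dvd_mul_left r hm))
      = gen Qb (r * p) m (hm.mul_left r) := by
  constructor
  · rw [AtkinLehner_wQ_gen' cuspal_iota r p hcop]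
    apply cuspal_gen_congr
    have := alIdx_mul hcop (one_dvd r) hm
    rwa [one_mul, Nat.div_one] at this
  · rw [AtkinLehner_wQ_gen' cuspal_iota r p hcop]
    apply cuspal_gen_congr
    have := alIdx_mul hcop (dvd_refl r) hm
    rwa [Nat.div_self (Nat.pos_of_ne_zero hr), one_mul] at this

theorem cuspal_coe_gen_mul (N r m : ℕ) [NeZero N] [NeZero r] [NeZero m] (h : r * m ∣ N) :
    ((gen Qb N (r * m) h : FF Qb N) : LaurentSeries Qb)
      = qExpand Qb m (qExpand Qb r (jqModC Qb)) := by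
  rw [coe_gen, mul_comm r m, ← qExpand_jd, jd_eq]

theorem cuspal_coe_gen (N m : ℕ) [NeZero N] [NeZero m] (h : m ∣ N) :
    ((gen Qb N m h : FF Qb N) : LaurentSeries Qb) = qExpand Qb m (jqModC Qb) := by
  rw [coe_gen, jd_eq]

theorem cuspal_wr_two (p m : ℕ) [NeZero (2 * p)] [NeZero m] (hcop : Nat.Coprime 2 p) (hm : m ∣ p)
    (x : FF Qb (2 * p)) (hx : (x : LaurentSeries Qb) = qExpand Qb m (h2 Qb)) :
    wQ Qb 2 p x * x = 4096 := by
  obtain ⟨hw1, hw2⟩ := cuspal_wQ_gen 2 p m two_ne_zero hcop hm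
  set J1 := gen Qb (2 * p) m (hm.mul_left 2) with hJ1
  set J2 := gen Qb (2 * p) (2 * m) (Nat.mul_dvd_mul_left 2 hm) with hJ2
  have c1 : (J1 : LaurentSeries Qb) = qExpand Qb m (jqModC Qb) := cuspal_coe_gen _ _ _
  have c2 : (J2 : LaurentSeries Qb) = qExpand Qb m (qExpand Qb 2 (jqModC Qb)) :=
    cuspal_coe_gen_mul _ _ _ _
  have hx0 : x ≠ 0 := by
    intro h0
    rw [h0] at hx
    exact h2_ne_zero Qb (qExpand_injective m (by rw [← hx, map_zero]; rfl))
  have R1 : J1 * x ^ 2 = (x + 256) ^ 3 := by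
    apply Subtype.ext
    have := congrArg (qExpand Qb m) (j_mul_h2_sq Qb)
    simp only [map_mul, map_pow, map_add, map_ofNat] at this
    push_cast
    rw [c1, hx]
    exact this
  have R2 : J2 * x = (x + 16) ^ 3 := by
    apply Subtype.ext
    have := congrArg (qExpand Qb m) (j2_mul_h2 Qb)
    simp only [map_mul, map_pow, map_add, map_ofNat] at this
    push_cast
    rw [c2, hx]
    exact this
  have R3 : x * (J1 * J2 - 720 * J1 - 720 * J2 - 16250625)
      = J2 ^ 2 + 195120 * J2 + 4095 * J1 + 660960000 := by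
    apply Subtype.ext
    have := congrArg (qExpand Qb m) (h2_mul_denA2 Qb)
    simp only [denA2, numB2, map_mul, map_pow, map_add, map_sub, map_ofNat] at this
    push_cast
    rw [c1, c2, hx]
    exact this
  have hA : J1 * J2 - 720 * J1 - 720 * J2 - 16250625 ≠ 0 := by
    intro h0
    apply denA2_ne_zero Qb
    apply qExpand_injective m
    have := congrArg (fun y : FF Qb (2 * p) => (y : LaurentSeries Qb)) h0
    push_cast at this
    rw [c1, c2] at this
    simp only [denA2, map_mul, map_sub, map_ofNat, map_zero]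
    exact this
  have R4 := congrArg (wQ Qb 2 p) R3
  simp only [map_mul, map_pow, map_add, map_sub, map_ofNat, hw1, hw2] at R4
  exact cuspal_two hx0 R1 R2 hA R4

theorem cuspal_map_denA3 {A B : Type*} [CommRing A] [CommRing B] (f : A →+* B) (a b : A) :
    f (denA3 a b) = denA3 (f a) (f b) := by
  simp only [denA3, map_mul, map_pow, map_add, map_sub, map_ofNat]

theorem cuspal_map_numB3 {A B : Type*} [CommRing A] [CommRing B] (f : A →+* B) (a b : A) :
    f (numB3 a b) = numB3 (f a) (f b) := by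
  simp only [numB3, map_mul, map_pow, map_add, map_sub, map_ofNat]

theorem cuspal_wr_three (p m : ℕ) [NeZero (3 * p)] [NeZero m] (hcop : Nat.Coprime 3 p) (hm : m ∣ p)
    (x : FF Qb (3 * p)) (hx : (x : LaurentSeries Qb) = qExpand Qb m (h3 Qb)) :
    wQ Qb 3 p x * x = 729 := by
  obtain ⟨hw1, hw2⟩ := cuspal_wQ_gen 3 p m three_ne_zero hcop hm
  set J1 := gen Qb (3 * p) m (hm.mul_left 3) with hJ1
  set J2 := gen Qb (3 * p) (3 * m) (Nat.mul_dvd_mul_left 3 hm) with hJ2
  have c1 : (J1 : LaurentSeries Qb) = qExpand Qb m (jqModC Qb) := cuspal_coe_gen _ _ _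
  have c2 : (J2 : LaurentSeries Qb) = qExpand Qb m (qExpand Qb 3 (jqModC Qb)) :=
    cuspal_coe_gen_mul _ _ _ _
  have hx0 : x ≠ 0 := by
    intro h0
    rw [h0] at hx
    exact h3_ne_zero Qb (qExpand_injective m (by rw [← hx, map_zero]; rfl))
  have R1 : J1 * x ^ 3 = (x + 27) * (x + 243) ^ 3 := by
    apply Subtype.ext
    have := congrArg (qExpand Qb m) (j_mul_h3_cube Qb)
    simp only [map_mul, map_pow, map_add, map_ofNat] at this
    push_cast
    rw [c1, hx]
    exact this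
  have R2 : J2 * x = (x + 27) * (x + 3) ^ 3 := by
    apply Subtype.ext
    have := congrArg (qExpand Qb m) (j3_mul_h3 Qb)
    simp only [map_mul, map_pow, map_add, map_ofNat] at this
    push_cast
    rw [c2, hx]
    exact this
  have cA : ((denA3 J1 J2 : FF Qb (3 * p)) : LaurentSeries Qb)
      = qExpand Qb m (denA3 (jqModC Qb) (qExpand Qb 3 (jqModC Qb))) := by
    rw [cuspal_map_denA3, ← c1, ← c2]
    exact cuspal_map_denA3 (FF Qb (3 * p)).val.toRingHom J1 J2
  have cB : ((numB3 J1 J2 : FF Qb (3 * p)) : LaurentSeries Qb)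
      = qExpand Qb m (numB3 (jqModC Qb) (qExpand Qb 3 (jqModC Qb))) := by
    rw [cuspal_map_numB3, ← c1, ← c2]
    exact cuspal_map_numB3 (FF Qb (3 * p)).val.toRingHom J1 J2
  have R3 : x * denA3 J1 J2 = numB3 J1 J2 := by
    apply Subtype.ext
    rw [MulMemClass.coe_mul, cA, cB, hx, ← map_mul, h3_mul_denA3]
  have hA : denA3 J1 J2 ≠ 0 := by
    intro h0
    apply denA3_ne_zero Qb
    apply qExpand_injective m
    rw [← cA, h0, map_zero]
    rfl
  have R4 := congrArg (wQ Qb 3 p) R3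
  rw [map_mul] at R4
  have e1 : wQ Qb 3 p (denA3 J1 J2) = denA3 J2 J1 := by
    have := cuspal_map_denA3 (wQ Qb 3 p : FF Qb (3 * p) →+* FF Qb (3 * p)) J1 J2
    simp only [RingHom.coe_coe, hw1, hw2] at this
    exact this
  have e2 : wQ Qb 3 p (numB3 J1 J2) = numB3 J2 J1 := by
    have := cuspal_map_numB3 (wQ Qb 3 p : FF Qb (3 * p) →+* FF Qb (3 * p)) J1 J2
    simp only [RingHom.coe_coe, hw1, hw2] at this
    exact this
  rw [e1, e2] at R4
  exact cuspal_three hx0 R1 R2 hA R4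

namespace BaseCase

variable (c : BaseCase) (p : ℕ) [NeZero p]

theorem cuspal_coprime {p : ℕ} (hp : p.Prime) (hpr : p ≠ c.r) : p.Coprime c.r :=
  (Nat.coprime_primes hp c.r_prime).2 hpr

/-- the Atkin–Lehner involution `w_p` at level `r p` -/
theorem cuspal_wp (hp : p.Prime) (hpr : p ≠ c.r) :
    ∃ w : FF Qb (c.r * p) ≃ₐ[Qb] FF Qb (c.r * p),
      w (c.tF Qb (Dvd.intro p rfl)) = c.tVF Qb p dvd_rfl ∧
      w (c.tVF Qb p dvd_rfl) = c.tF Qb (Dvd.intro p rfl) := by
  obtain ⟨w, hww, hw⟩ := cuspal_exists_wp p c.r (c.r * p) (mul_comm _ _) (c.cuspal_coprime hp hpr)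
  have h1 : w (c.tF Qb (Dvd.intro p rfl)) = c.tVF Qb p dvd_rfl := by
    apply Subtype.ext
    rw [hw _ (by rw [coe_tF]; exact c.t_mem_FF Qb dvd_rfl), coe_tF, coe_tVF]
  exact ⟨w, h1, by rw [← h1, hww]⟩

/-- `w_r t = κ / t` -/
def cuspal_kap : BaseCase → ℕ
  | two => 4096
  | three => 729

/-- `w_r (V_m t) * V_m t = κ` for `m ∣ p`. -/
theorem cuspal_wr_aux (hp : p.Prime) (hpr : p ≠ c.r) (m : ℕ) [NeZero m] (hm : m ∣ p)
    (x : FF Qb (c.r * p)) (hx : (x : LaurentSeries Qb) = qExpand Qb m (c.t Qb)) :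
    wQ Qb c.r p x * x = algebraMap Qb (FF Qb (c.r * p)) (c.cuspal_kap : Qb) := by
  have hcop := (c.cuspal_coprime hp hpr).symm
  rw [map_natCast]
  cases c
  · exact cuspal_wr_two p m hcop hm x hx
  · exact cuspal_wr_three p m hcop hm x hx

/-- the Atkin–Lehner involution `w_r` at level `r p` -/
theorem cuspal_wr (hp : p.Prime) (hpr : p ≠ c.r) :
    ∃ w : FF Qb (c.r * p) ≃ₐ[Qb] FF Qb (c.r * p),
      w (c.tF Qb (Dvd.intro p rfl)) * c.tF Qb (Dvd.intro p rfl) =
        algebraMap Qb (FF Qb (c.r * p)) (c.cuspal_kap : Qb) ∧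
      w (c.tVF Qb p dvd_rfl) * c.tVF Qb p dvd_rfl =
        algebraMap Qb (FF Qb (c.r * p)) (c.cuspal_kap : Qb) := by
  refine ⟨wQ Qb c.r p, ?_, ?_⟩
  · exact c.cuspal_wr_aux p hp hpr 1 (one_dvd p) _ (by rw [coe_tF, qExpand_one_apply])
  · exact c.cuspal_wr_aux p hp hpr p dvd_rfl _ (by rw [coe_tVF])

end BaseCase

end Fermat.Agent.C36.Unit
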