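import Fermat.Agent.C36.Unit.PlaceAut

/-!
# C36-UNIT (CuspT), abstract core: pole count

`F/K` a function field, `t, t' ∈ F`, `[F : K(t)] = p + 1`, an automorphism `wp` exchanging `t, t'`, an
automorphism `wr` with `wr t = κ / t`, `wr t' = κ / t'`, and ONE place `v₁` with
`(ord t, ord t') = (-1, -p)`.  Then `t` has exactly two poles `v₁`, `v₁ ∘ wp` (orders `1`, `p`), two
zeros (their images under `wr`), and the same for `t'`.
-/

set_option autoImplicit false

namespace Fermat.Agent.C36.Unit

open AlgebraicCurve IntermediateField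

/-- the possible pairs `(ord_v t, ord_v t(q^p))` -/
def CuspPair (p : ℕ) (a b : ℤ) : Prop :=
  (a = 0 ∧ b = 0) ∨ (a ≠ 0 ∧ (b = p * a ∨ a = p * b))

theorem CuspPair.mul {p : ℕ} {a b : ℤ} (h : CuspPair p a b) (e : ℤ) :
    CuspPair p (e * a) (e * b) := by
  rcases h with ⟨rfl, rfl⟩ | ⟨ha, h⟩
  · left; simp
  · by_cases he : e = 0
    · left; simp [he]
    · right
      refine ⟨mul_ne_zero he ha, ?_⟩
      rcases h with rfl | h
      · left; ring
      · right
        calc e * a = e * (p * b) := by rw [← h]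
          _ = p * (e * b) := by ring

theorem CuspPair.neg {p : ℕ} {a b : ℤ} (h : CuspPair p a b) : CuspPair p (-a) (-b) := by
  have := h.mul (-1)
  simpa using this

theorem CuspPair.symm {p : ℕ} {a b : ℤ} (hp : p ≠ 0) (h : CuspPair p a b) : CuspPair p b a := by
  have hp' : (p : ℤ) ≠ 0 := by exact_mod_cast hp
  rcases h with ⟨rfl, rfl⟩ | ⟨ha, h⟩
  · left; simp
  · right
    rcases h with rfl | h
    · exact ⟨mul_ne_zero hp' ha, Or.inr rfl⟩
    · refine ⟨?_, Or.inl h⟩
      rintro rfl
      apply ha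
      rw [h, mul_zero]

variable {K F : Type*} [Field K] [IsAlgClosed K] [CharZero K] [Field F] [Algebra K F]

theorem cusp_core (p : ℕ) (hp : 1 < p) (t t' : F) (ht : Transcendental K t)
    [FiniteDimensional K⟮t⟯ F] (hdeg : Module.finrank K⟮t⟯ F = p + 1)
    (wp : F ≃ₐ[K] F) (h1 : wp t = t') (h2 : wp t' = t)
    (wr : F ≃ₐ[K] F) (κ : K) (hκ : κ ≠ 0) (h3 : wr t * t = algebraMap K F κ)
    (h4 : wr t' * t' = algebraMap K F κ)
    (v₁ : Place K F) (hv1 : v₁.ord t = -1) (hv1' : v₁.ord t' = -(p : ℤ))
    (v : Place K F) : CuspPair p (v.ord t) (v.ord t') := by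
  classical
  have hp0 : p ≠ 0 := by omega
  have hpZ : (1 : ℤ) < p := by exact_mod_cast hp
  have ht0 : t ≠ 0 := by
    rintro rfl
    exact ht isAlgebraic_zero
  have ht'0 : t' ≠ 0 := by
    rw [← h1]
    exact (map_ne_zero wp).2 ht0
  obtain ⟨v₂, hv₂⟩ := exists_place_comap wp v₁
  have hv2 : v₂.ord t = -(p : ℤ) := by rw [hv₂, h1, hv1']
  have hv2' : v₂.ord t' = -1 := by rw [hv₂, h2, hv1]
  have h12 : v₁ ≠ v₂ := by
    rintro rfl
    rw [hv1] at hv2
    omega
  have hfin : FiniteDimensional K⟮t⟯ F := inferInstance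
  have hpoles := S24.Zeros.finite_poles ht hfin
  have hsum := S24.Zeros.sum_ord_poles ht hfin
  rw [finsum_mem_eq_finite_toFinset_sum _ hpoles, hdeg] at hsum
  -- (A0) only two poles
  have hA0 : ∀ w : Place K F, w.ord t < 0 → w = v₁ ∨ w = v₂ := by
    intro w hw
    by_contra hcon
    rw [not_or] at hcon
    obtain ⟨hw1, hw2⟩ := hcon
    have hsub : ({v₁, v₂, w} : Finset (Place K F)) ⊆ hpoles.toFinset := by
      intro x hx
      simp only [Finset.mem_insert, Finset.mem_singleton] at hx
      rw [Set.Finite.mem_toFinset]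
      rcases hx with rfl | rfl | rfl
      · show x.ord t < 0
        rw [hv1]; omega
      · show x.ord t < 0
        rw [hv2]; omega
      · exact hw
    have hle := Finset.sum_le_sum_of_subset_of_nonneg (f := fun x : Place K F => -x.ord t) hsub
      (by
        intro x hx _
        rw [Set.Finite.mem_toFinset] at hx
        have : x.ord t < 0 := hx
        show 0 ≤ -x.ord t
        omega)
    rw [Finset.sum_neg_distrib, Finset.sum_neg_distrib, hsum,
      Finset.sum_insert (by
        simp only [Finset.mem_insert, Finset.mem_singleton, not_or]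
        exact ⟨h12, fun h => hw1 h.symm⟩),
      Finset.sum_insert (by
        simp only [Finset.mem_singleton]
        exact fun h => hw2 h.symm), Finset.sum_singleton, hv1, hv2] at hle
    push_cast at hle
    omega
  -- (A)
  have hA : ∀ w : Place K F, w.ord t < 0 → CuspPair p (w.ord t) (w.ord t') := by
    intro w hw
    rcases hA0 w hw with rfl | rfl
    · rw [hv1, hv1']
      exact Or.inr ⟨by omega, Or.inl (by ring)⟩
    · rw [hv2, hv2']
      exact Or.inr ⟨by omega, Or.inr (by ring)⟩
  -- (B)
  have hwr : ∀ (w : Place K F) (x : F), x ≠ 0 → wr x * x = algebraMap K F κ →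
      w.ord (wr x) = -w.ord x := by
    intro w x hx h
    have h5 := congrArg w.ord h
    rw [w.ord_mul ((map_ne_zero wr).2 hx) hx, S24.Zeros.ord_algebraMap] at h5
    omega
  have hB : ∀ w : Place K F, 0 < w.ord t → CuspPair p (w.ord t) (w.ord t') := by
    intro w hw
    obtain ⟨w', hw'⟩ := exists_place_comap wr w
    have e1 : w'.ord t = -w.ord t := by rw [hw', hwr w t ht0 h3]
    have e2 : w'.ord t' = -w.ord t' := by rw [hw', hwr w t' ht'0 h4]
    have := (hA w' (by rw [e1]; omega)).neg
    rwa [e1, e2, neg_neg, neg_neg] at this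
  have hAB : ∀ w : Place K F, w.ord t ≠ 0 → CuspPair p (w.ord t) (w.ord t') := by
    intro w hw
    rcases lt_or_gt_of_ne hw with h | h
    · exact hA w h
    · exact hB w h
  by_cases h0 : v.ord t = 0
  · by_cases h0' : v.ord t' = 0
    · exact Or.inl ⟨h0, h0'⟩
    · exfalso
      obtain ⟨w, hw⟩ := exists_place_comap wp v
      have e1 : w.ord t = v.ord t' := by rw [hw, h1]
      have e2 : w.ord t' = v.ord t := by rw [hw, h2]
      have := hAB w (by rw [e1]; exact h0')
      rw [e1, e2, h0] at this
      rcases this with ⟨h, _⟩ | ⟨_, h | h⟩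
      · exact h0' h
      · have hp' : (p : ℤ) ≠ 0 := by exact_mod_cast hp0
        exact h0' ((mul_eq_zero.mp h.symm).resolve_left hp')
      · rw [mul_zero] at h
        exact h0' h
  · exact hAB v h0

end Fermat.Agent.C36.Unit
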