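import Fermat.Agent.C36.Unit.CuspCore
import Fermat.Agent.C36.Unit.Case
import Fermat.Agent.C36.Unit.CuspAL
import Fermat.Agent.GT.EMB.Level
import Fermat.Agent.GR.E.BR10
import Fermat.Agent.GR.C.QPlace

/-!
# C36-UNIT (CuspT): orders of `t = h_r` and `t(q^p)` at all places of `FF ℚ̄ N`
-/

set_option autoImplicit false

namespace Fermat.Agent.C36.Unit

open AlgebraicCurve ModularCurve IntermediateField Fermat.Agent.GR Fermat.Agent.GR.D
  Fermat.Agent.GR.D.Haupt

namespace BaseCase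

variable (c : BaseCase) (p : ℕ) [NeZero p]

/-- `w_r t = κ / t` -/
def kap : BaseCase → ℕ
  | two => 4096
  | three => 729

private theorem cuspinst_t_ne_zero (K : Type*) [Field K] : c.t K ≠ 0 := by
  intro h
  have := c.t_order K
  rw [h, HahnSeries.order_zero] at this
  omega

private theorem cuspinst_jt_mem (K : Type*) [Field K] (E : IntermediateField K (LaurentSeries K))
    {x : LaurentSeries K} (hx : x ∈ E) : c.jt x ∈ E ∧ c.jt' x ∈ E := by
  cases c
  · exact ⟨pow_mem (add_mem hx (by exact_mod_cast _root_.natCast_mem E 256)) 3,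
      pow_mem (add_mem hx (by exact_mod_cast _root_.natCast_mem E 16)) 3⟩
  · exact ⟨mul_mem (add_mem hx (by exact_mod_cast _root_.natCast_mem E 27))
        (pow_mem (add_mem hx (by exact_mod_cast _root_.natCast_mem E 243)) 3),
      mul_mem (add_mem hx (by exact_mod_cast _root_.natCast_mem E 27))
        (pow_mem (add_mem hx (by exact_mod_cast _root_.natCast_mem E 3)) 3)⟩

/-- `FF K r = K(t)` -/
theorem FF_r_eq (K : Type*) [Field K] : FF K c.r = K⟮c.t K⟯ := by
  apply le_antisymm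
  · apply IntermediateField.adjoin_le_iff.mpr
    rintro x ⟨d, hne, hd, rfl⟩
    have ht : c.t K ∈ K⟮c.t K⟯ := mem_adjoin_simple_self K _
    have ht0 := cuspinst_t_ne_zero c K
    rcases (Nat.dvd_prime c.r_prime).mp hd with rfl | rfl
    · rw [qExpand_one_apply]
      have h1 : jqModC K = c.jt (c.t K) / c.t K ^ c.r := by
        rw [eq_div_iff (pow_ne_zero _ ht0)]
        exact c.j_mul_t K
      show jqModC K ∈ K⟮c.t K⟯
      rw [h1]
      exact div_mem (cuspinst_jt_mem c K _ ht).1 (pow_mem ht _)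
    · have h1 : qExpand K c.r (jqModC K) = c.jt' (c.t K) / c.t K := by
        rw [eq_div_iff ht0]
        exact c.jr_mul_t K
      show qExpand K c.r (jqModC K) ∈ K⟮c.t K⟯
      rw [h1]
      exact div_mem (cuspinst_jt_mem c K _ ht).2 ht
  · rw [adjoin_simple_le_iff]
    exact c.t_mem_FF K dvd_rfl

theorem finrank_tF (hp : p.Prime) (hpr : p ≠ c.r) :
    Module.finrank Qb⟮c.tF Qb (Dvd.intro p rfl : c.r ∣ c.r * p)⟯ (FF Qb (c.r * p)) = p + 1 := by
  have hpr' : ¬ p ∣ c.r := fun h => hpr ((Nat.prime_dvd_prime_iff_eq hp c.r_prime).mp h)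
  have h1 := GR.E.relfinrank_FF_mul_prime c.r p hp hpr'
  rw [FF_r_eq] at h1
  rw [← h1, ← relfinrank_top_right, ← relfinrank_map_map _ _ (FF Qb (c.r * p)).val]
  congr 1
  · rw [adjoin_map, Set.image_singleton]
    rfl
  · rw [← AlgHom.fieldRange_eq_map, fieldRange_val]

/-- the Atkin–Lehner involution `w_p` at level `r p` -/
theorem exists_wp (hp : p.Prime) (hpr : p ≠ c.r) :
    ∃ w : FF Qb (c.r * p) ≃ₐ[Qb] FF Qb (c.r * p),
      w (c.tF Qb (Dvd.intro p rfl)) = c.tVF Qb p dvd_rfl ∧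
      w (c.tVF Qb p dvd_rfl) = c.tF Qb (Dvd.intro p rfl) := c.cuspal_wp p hp hpr

/-- the Atkin–Lehner involution `w_r` at level `r p` -/
theorem exists_wr (hp : p.Prime) (hpr : p ≠ c.r) :
    ∃ w : FF Qb (c.r * p) ≃ₐ[Qb] FF Qb (c.r * p),
      w (c.tF Qb (Dvd.intro p rfl)) * c.tF Qb (Dvd.intro p rfl) =
        algebraMap Qb (FF Qb (c.r * p)) (c.kap : Qb) ∧
      w (c.tVF Qb p dvd_rfl) * c.tVF Qb p dvd_rfl =
        algebraMap Qb (FF Qb (c.r * p)) (c.kap : Qb) := by
  have hk : c.kap = c.cuspal_kap := by cases c <;> rfl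
  rw [hk]
  exact c.cuspal_wr p hp hpr

/-- order of `f(q^m)` -/
theorem cuspinst_order_qExpand {k : Type*} [Field k] (m : ℕ) [NeZero m] (x : LaurentSeries k) :
    (qExpand k m x).order = (m : ℤ) * x.order := by
  by_cases hx : x = 0
  · simp [hx]
  have hq : (0 : ℤ) < m := by exact_mod_cast Nat.pos_of_ne_zero (NeZero.ne m)
  have hx' : qExpand k m x ≠ 0 := fun h => hx (qExpand_injective m (by rw [h, map_zero]))
  apply le_antisymm
  · apply HahnSeries.order_le_of_coeff_ne_zero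
    rw [qExpand_coeff_mul]
    exact fun h => hx (HahnSeries.coeff_order_eq_zero.mp h)
  · have h1 : (qExpand k m x).coeff (qExpand k m x).order ≠ 0 :=
      fun h => hx' (HahnSeries.coeff_order_eq_zero.mp h)
    by_cases hd : (m : ℤ) ∣ (qExpand k m x).order
    · obtain ⟨c, hc⟩ := hd
      rw [hc] at h1 ⊢
      rw [qExpand_coeff_mul] at h1
      exact mul_le_mul_of_nonneg_left (HahnSeries.order_le_of_coeff_ne_zero h1) hq.le
    · exact absurd (qExpand_coeff_of_not_dvd m x hd) h1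

/-- (CuspT) at level `r p` -/
theorem cuspT_level (hp : p.Prime) (hpr : p ≠ c.r) (v : Place Qb (FF Qb (c.r * p))) :
    CuspPair p (v.ord (c.tF Qb (Dvd.intro p rfl))) (v.ord (c.tVF Qb p dvd_rfl)) := by
  obtain ⟨wp, h1, h2⟩ := c.exists_wp p hp hpr
  obtain ⟨wr, h3, h4⟩ := c.exists_wr p hp hpr
  have ht := c.tF_transcendental Qb (Dvd.intro p rfl : c.r ∣ c.r * p)
  have := finiteDimensional_FF_of_transcendental Qb (c.r * p) ht
  have hκ : (c.kap : Qb) ≠ 0 := by cases c <;> norm_num [kap]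
  refine cusp_core p hp.one_lt _ _ ht (c.finrank_tF p hp hpr) wp h1 h2 wr (c.kap : Qb) hκ h3 h4
    (C.qPlace Qb (c.r * p)) ?_ ?_ v
  · rw [C.qPlace_ord, coe_tF, t_order]
  · rw [C.qPlace_ord, coe_tVF, cuspinst_order_qExpand, t_order]
    ring

/-- (CuspT) along any embedding of `FF ℚ̄ (r p)` -/
theorem cuspT_map (hp : p.Prime) (hpr : p ≠ c.r) {F' : Type*} [Field F'] [Algebra Qb F']
    (φ : FF Qb (c.r * p) →ₐ[Qb] F') (v : Place Qb F') :
    CuspPair p (v.ord (φ (c.tF Qb (Dvd.intro p rfl)))) (v.ord (φ (c.tVF Qb p dvd_rfl))) := by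
  rcases C.exists_place_restrict φ.toRingHom (fun a => ⟨a, φ.commutes a⟩) v with h | ⟨v', e, h⟩
  · exact Or.inl ⟨h _, h _⟩
  · have h1 := (c.cuspT_level p hp hpr v').mul e
    rw [← h, ← h] at h1
    exact h1

/-- (CuspT) for `(t, V t)` at any level divisible by `r p` -/
theorem cuspT (hp : p.Prime) (hpr : p ≠ c.r) {N : ℕ} [NeZero N] (hN : c.r * p ∣ N)
    (v : Place Qb (FF Qb N)) :
    CuspPair p (v.ord (c.tF Qb ((Dvd.intro p rfl).trans hN))) (v.ord (c.tVF Qb p hN)) :=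
  c.cuspT_map p hp hpr (IntermediateField.inclusion (E.BR10_FF_mono hN)) v

/-- (CuspT) for `(V^m t, V^(m p) t)` at any level divisible by `r m p` -/
theorem cuspT_V (hp : p.Prime) (hpr : p ≠ c.r) (m : ℕ) [NeZero m] {N : ℕ} [NeZero N]
    (hN : c.r * (m * p) ∣ N) (v : Place Qb (FF Qb N)) :
    CuspPair p (v.ord (c.tVF Qb m ((Dvd.intro p (by ring)).trans hN)))
      (v.ord (c.tVF Qb (m * p) hN)) := by
  have hN' : c.r * p * m ∣ N := by
    have : c.r * p * m = c.r * (m * p) := by ring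
    rw [this]
    exact hN
  let φ : FF Qb (c.r * p) →ₐ[Qb] FF Qb N :=
    ((qExpandAlgHomC Qb m).comp (FF Qb (c.r * p)).val).codRestrict (FF Qb N).toSubalgebra
      (fun f => qExpand_mem_FF Qb m hN' f.2)
  have h := c.cuspT_map p hp hpr φ v
  have e1 : φ (c.tF Qb (Dvd.intro p rfl)) = c.tVF Qb m ((Dvd.intro p (by ring)).trans hN) :=
    Subtype.ext rfl
  have e2 : φ (c.tVF Qb p dvd_rfl) = c.tVF Qb (m * p) hN :=
    Subtype.ext (qExpand_qExpand p m (c.t Qb))
  rw [e1, e2] at h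
  exact h

end BaseCase

end Fermat.Agent.C36.Unit
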