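import Fermat.Agent.C36.Unit.GammaOrd

/-!
# C36-UNIT (6): integrality over `L[τ]`, `τ = t^{±1}`, of monomials in `τ, V τ, V² τ`
-/

set_option autoImplicit false
set_option synthInstance.maxHeartbeats 400000

namespace Fermat.Agent.C36.Unit

open AlgebraicCurve ModularCurve IntermediateField Fermat.Agent.GR Fermat.Agent.GR.D
  Fermat.Agent.GR.D.Haupt

/-! ### helpers -/

private theorem cuspInt_ord_zpow_zpow {K F : Type*} [Field K] [Field F] [Algebra K F]
    (v : Place K F) (x : F) (ε i : ℤ) : v.ord ((x ^ ε) ^ i) = i * (ε * v.ord x) := by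
  rw [v.ord_zpow, v.ord_zpow]

private theorem cuspInt_transcendental_zpow {K F : Type*} [Field K] [Field F] [Algebra K F]
    {x : F} (hx : Transcendental K x) {ε : ℤ} (hε : ε = 1 ∨ ε = -1) :
    Transcendental K (x ^ ε) := by
  rcases hε with rfl | rfl
  · rwa [zpow_one]
  · rw [zpow_neg_one]
    exact S24.Zeros.transcendental_inv hx

private theorem cuspInt_pair_pos {p : ℕ} (hp : p ≠ 0) {a b : ℤ} (h : CuspPair p a b)
    (ha : 0 ≤ a) : (a = 0 ∧ b = 0) ∨ (0 < a ∧ 0 < b ∧ (b = p * a ∨ a = p * b)) := by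
  have hp' : (0 : ℤ) < p := by exact_mod_cast Nat.pos_of_ne_zero hp
  rcases h with h | ⟨ha0, h⟩
  · exact Or.inl h
  · right
    have ha' : 0 < a := lt_of_le_of_ne ha (Ne.symm ha0)
    refine ⟨ha', ?_, h⟩
    rcases h with rfl | h
    · exact mul_pos hp' ha'
    · rw [h] at ha'
      exact (pos_iff_pos_of_mul_pos ha').1 hp'

private theorem cuspInt_isIntegral_quad {A B : Type*} [CommRing A] [CommRing B] [Algebra A B]
    (y : B) (a0 a1 : A) (h : y ^ 2 + algebraMap A B a1 * y + algebraMap A B a0 = 0) :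
    IsIntegral A y := by
  nontriviality A
  refine ⟨Polynomial.X ^ 2 + Polynomial.C a1 * Polynomial.X + Polynomial.C a0, ?_, ?_⟩
  · monicity!
  · simpa using h

private theorem cuspInt_isIntegral_cubic {A B : Type*} [CommRing A] [CommRing B] [Algebra A B]
    (y : B) (a0 a1 a2 : A)
    (h : y ^ 3 + algebraMap A B a2 * y ^ 2 + algebraMap A B a1 * y + algebraMap A B a0 = 0) :
    IsIntegral A y := by
  nontriviality A
  refine ⟨Polynomial.X ^ 3 + Polynomial.C a2 * Polynomial.X ^ 2 + Polynomial.C a1 * Polynomial.X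
    + Polynomial.C a0, ?_, ?_⟩
  · monicity!
  · simpa using h

private theorem cuspInt_quad' {L B : Type*} [Field L] [Field B] [Algebra L B] (τ y : B)
    (u0 u1 v1 : L)
    (h : y ^ 2 + (algebraMap L B u1 * τ + algebraMap L B v1) * y + algebraMap L B u0 * τ = 0) :
    IsIntegral (Algebra.adjoin L ({τ} : Set B)) y := by
  let τ' : Algebra.adjoin L ({τ} : Set B) := ⟨τ, Algebra.subset_adjoin rfl⟩
  exact cuspInt_isIntegral_quad y (algebraMap L _ u0 * τ')
    (algebraMap L _ u1 * τ' + algebraMap L _ v1) h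

private theorem cuspInt_cubic' {L B : Type*} [Field L] [Field B] [Algebra L B] (τ y : B)
    (u0 u1 v1 u2 v2 : L)
    (h : y ^ 3 + (algebraMap L B u2 * τ + algebraMap L B v2) * y ^ 2
      + (algebraMap L B u1 * τ + algebraMap L B v1) * y + algebraMap L B u0 * τ = 0) :
    IsIntegral (Algebra.adjoin L ({τ} : Set B)) y := by
  let τ' : Algebra.adjoin L ({τ} : Set B) := ⟨τ, Algebra.subset_adjoin rfl⟩
  exact cuspInt_isIntegral_cubic y (algebraMap L _ u0 * τ')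
    (algebraMap L _ u1 * τ' + algebraMap L _ v1) (algebraMap L _ u2 * τ' + algebraMap L _ v2) h

private theorem cuspInt_sF_abs (c : BaseCase) {L B : Type*} [Field L] [CharZero L] [Field B]
    [Algebra L B] (t s : B) (e1 : s ^ c.r = t * c.wv s) (ht0 : t ≠ 0) (hs0 : s ≠ 0) (ε : ℤ)
    (hε : ε = 1 ∨ ε = -1) : IsIntegral (Algebra.adjoin L ({t ^ ε} : Set B)) (s ^ ε) := by
  have : CharZero B := charZero_of_injective_algebraMap (algebraMap L B).injective
  cases c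
  · simp only [BaseCase.r, BaseCase.wv] at e1
    rcases hε with rfl | rfl
    · rw [zpow_one, zpow_one]
      refine cuspInt_quad' t s (-16) (-1) 0 ?_
      simp only [map_neg, map_one, map_zero, map_ofNat]
      linear_combination e1
    · rw [zpow_neg_one, zpow_neg_one]
      refine cuspInt_quad' t⁻¹ s⁻¹ (-(1 / 16)) 0 (1 / 16) ?_
      simp only [map_neg, map_one, map_zero, map_ofNat, map_div₀]
      field_simp
      linear_combination (-1 : B) * e1
  · simp only [BaseCase.r, BaseCase.wv] at e1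
    rcases hε with rfl | rfl
    · rw [zpow_one, zpow_one]
      refine cuspInt_cubic' t s (-27) (-9) 0 (-1) 0 ?_
      simp only [map_neg, map_one, map_zero, map_ofNat]
      linear_combination e1
    · rw [zpow_neg_one, zpow_neg_one]
      refine cuspInt_cubic' t⁻¹ s⁻¹ (-(1 / 27)) 0 (1 / 27) 0 (1 / 3) ?_
      simp only [map_neg, map_one, map_zero, map_ofNat, map_div₀]
      field_simp
      linear_combination (-3 : B) * e1

namespace BaseCase

variable (c : BaseCase) (p : ℕ) [NeZero p]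

private theorem cuspInt_tF_ne_zero (K : Type*) [Field K] {N : ℕ} (hr : c.r ∣ N) :
    c.tF K hr ≠ 0 := by
  intro h
  exact c.tF_transcendental K hr (h ▸ isAlgebraic_zero)

private theorem cuspInt_tVF_transcendental (K : Type*) [Field K] (m : ℕ) [NeZero m] {N : ℕ}
    [NeZero N] (h : c.r * m ∣ N) : Transcendental K (c.tVF K m h) := by
  apply transcendental_coe K
  intro h'
  exact c.t_transcendental K
    ((isAlgebraic_algHom_iff (qExpandAlgHomC K m) (qExpand_injective m)).mp h')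

private theorem cuspInt_tVF_ne_zero (K : Type*) [Field K] (m : ℕ) [NeZero m] {N : ℕ}
    [NeZero N] (h : c.r * m ∣ N) : c.tVF K m h ≠ 0 := by
  intro h'
  exact c.cuspInt_tVF_transcendental K m h (h' ▸ isAlgebraic_zero)

/-- monomials in `τ, V τ`, over `ℚ̄` -/
private theorem cuspInt_qb₂ (hp : p.Prime) (hpr : p ≠ c.r) {N : ℕ}
    [NeZero N] (hr : c.r ∣ N) (hrp : c.r * p ∣ N) (ε : ℤ) (hε : ε = 1 ∨ ε = -1) (i j : ℤ)
    (h : ∀ a b : ℤ, 0 < a → (b = p * a ∨ a = p * b) → 0 ≤ i * a + j * b) :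
    IsIntegral (Algebra.adjoin Qb ({c.tF Qb hr ^ ε} : Set (FF Qb N)))
      ((c.tF Qb hr ^ ε) ^ i * (c.tVF Qb p hrp ^ ε) ^ j) := by
  have hx : Transcendental Qb (c.tF Qb hr ^ ε) :=
    cuspInt_transcendental_zpow (c.tF_transcendental Qb hr) hε
  have hfin := finiteDimensional_FF_of_transcendental Qb N hx
  refine isIntegral_of_forall_place _ hx _ (fun v hv => ?_)
  have h1 : c.tF Qb hr ≠ 0 := c.cuspInt_tF_ne_zero Qb hr
  have h2 : c.tVF Qb p hrp ≠ 0 := c.cuspInt_tVF_ne_zero Qb p hrp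
  rw [v.ord_mul (zpow_ne_zero _ (zpow_ne_zero _ h1)) (zpow_ne_zero _ (zpow_ne_zero _ h2)),
    cuspInt_ord_zpow_zpow, cuspInt_ord_zpow_zpow]
  rw [v.ord_zpow] at hv
  have hc : CuspPair p (v.ord (c.tF Qb hr)) (v.ord (c.tVF Qb p hrp)) := c.cuspT p hp hpr hrp v
  rcases cuspInt_pair_pos hp.ne_zero (hc.mul ε) hv with ⟨ha, hb⟩ | ⟨ha, _, hab⟩
  · rw [ha, hb]; simp
  · exact h _ _ ha hab

/-- monomials in `τ, V τ, V² τ`, over `ℚ̄` -/
private theorem cuspInt_qb₃ (hp : p.Prime) (hpr : p ≠ c.r) {N : ℕ}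
    [NeZero N] (hr : c.r ∣ N) (hrp : c.r * p ∣ N) (hrpp : c.r * (p * p) ∣ N) (ε : ℤ)
    (hε : ε = 1 ∨ ε = -1) (i j k : ℤ)
    (h : ∀ a b d : ℤ, 0 < a → (b = p * a ∨ a = p * b) → (d = p * b ∨ b = p * d) →
      0 ≤ i * a + j * b + k * d) :
    IsIntegral (Algebra.adjoin Qb ({c.tF Qb hr ^ ε} : Set (FF Qb N)))
      ((c.tF Qb hr ^ ε) ^ i * (c.tVF Qb p hrp ^ ε) ^ j * (c.tVF Qb (p * p) hrpp ^ ε) ^ k) := by
  have hx : Transcendental Qb (c.tF Qb hr ^ ε) :=
    cuspInt_transcendental_zpow (c.tF_transcendental Qb hr) hε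
  have hfin := finiteDimensional_FF_of_transcendental Qb N hx
  refine isIntegral_of_forall_place _ hx _ (fun v hv => ?_)
  have h1 : c.tF Qb hr ≠ 0 := c.cuspInt_tF_ne_zero Qb hr
  have h2 : c.tVF Qb p hrp ≠ 0 := c.cuspInt_tVF_ne_zero Qb p hrp
  have h3 : c.tVF Qb (p * p) hrpp ≠ 0 := c.cuspInt_tVF_ne_zero Qb (p * p) hrpp
  rw [v.ord_mul (mul_ne_zero (zpow_ne_zero _ (zpow_ne_zero _ h1))
      (zpow_ne_zero _ (zpow_ne_zero _ h2))) (zpow_ne_zero _ (zpow_ne_zero _ h3)),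
    v.ord_mul (zpow_ne_zero _ (zpow_ne_zero _ h1)) (zpow_ne_zero _ (zpow_ne_zero _ h2)),
    cuspInt_ord_zpow_zpow, cuspInt_ord_zpow_zpow, cuspInt_ord_zpow_zpow]
  rw [v.ord_zpow] at hv
  have hc : CuspPair p (v.ord (c.tF Qb hr)) (v.ord (c.tVF Qb p hrp)) := c.cuspT p hp hpr hrp v
  have hc' : CuspPair p (v.ord (c.tVF Qb p hrp)) (v.ord (c.tVF Qb (p * p) hrpp)) :=
    c.cuspT_V p hp hpr p hrpp v
  rcases cuspInt_pair_pos hp.ne_zero (hc.mul ε) hv with ⟨ha, hb⟩ | ⟨ha, hb, hab⟩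
  · rcases cuspInt_pair_pos hp.ne_zero (hc'.mul ε) hb.ge with ⟨_, hd⟩ | ⟨hb', _, _⟩
    · rw [ha, hb, hd]; simp
    · rw [hb] at hb'
      exact absurd hb' (lt_irrefl _)
  · rcases cuspInt_pair_pos hp.ne_zero (hc'.mul ε) hb.le with ⟨hb', _⟩ | ⟨_, _, hbd⟩
    · rw [hb'] at hb
      exact absurd hb (lt_irrefl _)
    · exact h _ _ _ ha hab hbd

/-- monomials in `τ, V τ` -/
theorem isIntegral_zpow₂ (hp : p.Prime) (hpr : p ≠ c.r) (L : IntermediateField ℚ Qb) {N : ℕ}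
    [NeZero N] (hr : c.r ∣ N) (hrp : c.r * p ∣ N) (ε : ℤ) (hε : ε = 1 ∨ ε = -1) (i j : ℤ)
    (h : ∀ a b : ℤ, 0 < a → (b = p * a ∨ a = p * b) → 0 ≤ i * a + j * b) :
    IsIntegral (Algebra.adjoin L ({c.tF L hr ^ ε} : Set (FF L N)))
      ((c.tF L hr ^ ε) ^ i * (c.tVF L p hrp ^ ε) ^ j) := by
  apply E.isIntegral_descent
  have hmap : E.mapFF (algebraMap L Qb) N (c.tF L hr ^ ε) = c.tF Qb hr ^ ε := by
    rw [map_zpow₀, c.mapFF_tF]
  rw [hmap]
  simp only [map_mul, map_zpow₀, c.mapFF_tF, c.mapFF_tVF]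
  exact c.cuspInt_qb₂ p hp hpr hr hrp ε hε i j h

/-- monomials in `τ, V τ, V² τ` -/
theorem isIntegral_zpow₃ (hp : p.Prime) (hpr : p ≠ c.r) (L : IntermediateField ℚ Qb) {N : ℕ}
    [NeZero N] (hr : c.r ∣ N) (hrp : c.r * p ∣ N) (hrpp : c.r * (p * p) ∣ N) (ε : ℤ)
    (hε : ε = 1 ∨ ε = -1) (i j k : ℤ)
    (h : ∀ a b d : ℤ, 0 < a → (b = p * a ∨ a = p * b) → (d = p * b ∨ b = p * d) →
      0 ≤ i * a + j * b + k * d) :
    IsIntegral (Algebra.adjoin L ({c.tF L hr ^ ε} : Set (FF L N)))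
      ((c.tF L hr ^ ε) ^ i * (c.tVF L p hrp ^ ε) ^ j * (c.tVF L (p * p) hrpp ^ ε) ^ k) := by
  apply E.isIntegral_descent
  have hmap : E.mapFF (algebraMap L Qb) N (c.tF L hr ^ ε) = c.tF Qb hr ^ ε := by
    rw [map_zpow₀, c.mapFF_tF]
  rw [hmap]
  simp only [map_mul, map_zpow₀, c.mapFF_tF, c.mapFF_tVF]
  exact c.cuspInt_qb₃ p hp hpr hr hrp hrpp ε hε i j k h

/-- `V τ` is integral over `L[τ]` -/
theorem isIntegral_tVF (hp : p.Prime) (hpr : p ≠ c.r) (L : IntermediateField ℚ Qb) {N : ℕ}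
    [NeZero N] (hr : c.r ∣ N) (hrp : c.r * p ∣ N) (ε : ℤ) (hε : ε = 1 ∨ ε = -1) :
    IsIntegral (Algebra.adjoin L ({c.tF L hr ^ ε} : Set (FF L N))) (c.tVF L p hrp ^ ε) := by
  have hp' : (0 : ℤ) < p := by exact_mod_cast hp.pos
  have := c.isIntegral_zpow₂ p hp hpr L hr hrp ε hε 0 1 (by
    intro a b ha hab
    rcases hab with rfl | hab
    · have := mul_pos hp' ha
      omega
    · rw [hab] at ha
      have := (pos_iff_pos_of_mul_pos ha).1 hp'
      omega)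
  rwa [zpow_zero, one_mul, zpow_one] at this

/-- `τ` is integral over `L[V τ]` -/
theorem isIntegral_tF (hp : p.Prime) (hpr : p ≠ c.r) (L : IntermediateField ℚ Qb) {N : ℕ}
    [NeZero N] (hr : c.r ∣ N) (hrp : c.r * p ∣ N) (ε : ℤ) (hε : ε = 1 ∨ ε = -1) :
    IsIntegral (Algebra.adjoin L ({c.tVF L p hrp ^ ε} : Set (FF L N))) (c.tF L hr ^ ε) := by
  apply E.isIntegral_descent
  rw [map_zpow₀, map_zpow₀, c.mapFF_tF, c.mapFF_tVF]
  have hx : Transcendental Qb (c.tVF Qb p hrp ^ ε) :=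
    cuspInt_transcendental_zpow (c.cuspInt_tVF_transcendental Qb p hrp) hε
  have hfin := finiteDimensional_FF_of_transcendental Qb N hx
  refine isIntegral_of_forall_place _ hx _ (fun v hv => ?_)
  rw [v.ord_zpow] at hv ⊢
  have hc : CuspPair p (v.ord (c.tF Qb hr)) (v.ord (c.tVF Qb p hrp)) := c.cuspT p hp hpr hrp v
  rcases cuspInt_pair_pos hp.ne_zero ((hc.mul ε).symm hp.ne_zero) hv with ⟨_, ha⟩ | ⟨_, ha, _⟩
  · exact ha.ge
  · exact ha.le

/-- `e_a = τ^p / V τ` is integral over `L[τ]` -/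
theorem isIntegral_ea (hp : p.Prime) (hpr : p ≠ c.r) (L : IntermediateField ℚ Qb) {N : ℕ}
    [NeZero N] (hr : c.r ∣ N) (hrp : c.r * p ∣ N) (ε : ℤ) (hε : ε = 1 ∨ ε = -1) :
    IsIntegral (Algebra.adjoin L ({c.tF L hr ^ ε} : Set (FF L N)))
      ((c.tF L hr ^ ε) ^ p / c.tVF L p hrp ^ ε) := by
  have hp' : (1 : ℤ) ≤ p := by exact_mod_cast hp.pos
  have := c.isIntegral_zpow₂ p hp hpr L hr hrp ε hε p (-1) (by
    intro a b ha hab
    rcases hab with rfl | hab
    · simp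
    · have hb : 0 < b := by
        rw [hab] at ha
        exact (pos_iff_pos_of_mul_pos ha).1 (by omega)
      rw [hab]
      nlinarith [mul_pos hb hb, mul_le_mul hp' hp' (by norm_num) (by omega)])
  rwa [zpow_natCast, zpow_neg_one, ← div_eq_mul_inv] at this

/-- `(V τ)^p / τ` is integral over `L[τ]` -/
theorem isIntegral_ea' (hp : p.Prime) (hpr : p ≠ c.r) (L : IntermediateField ℚ Qb) {N : ℕ}
    [NeZero N] (hr : c.r ∣ N) (hrp : c.r * p ∣ N) (ε : ℤ) (hε : ε = 1 ∨ ε = -1) :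
    IsIntegral (Algebra.adjoin L ({c.tF L hr ^ ε} : Set (FF L N)))
      ((c.tVF L p hrp ^ ε) ^ p / c.tF L hr ^ ε) := by
  have hp' : (1 : ℤ) ≤ p := by exact_mod_cast hp.pos
  have := c.isIntegral_zpow₂ p hp hpr L hr hrp ε hε (-1) p (by
    intro a b ha hab
    rcases hab with rfl | hab
    · nlinarith [mul_le_mul hp' hp' (by norm_num) (by omega)]
    · rw [hab]; simp)
  rwa [zpow_natCast, zpow_neg_one, mul_comm, ← div_eq_mul_inv] at this

/-- `s` is integral over `L[t]`, `s⁻¹` is integral over `L[t⁻¹]` -/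
theorem isIntegral_sF (L : IntermediateField ℚ Qb) {N : ℕ} [NeZero N] (hr : c.r ∣ N)
    (hl : c.lvl ∣ N) (ε : ℤ) (hε : ε = 1 ∨ ε = -1) :
    IsIntegral (Algebra.adjoin L ({c.tF L hr ^ ε} : Set (FF L N))) (c.sF L hl ^ ε) := by
  have e1 : c.sF L hl ^ c.r = c.tF L hr * c.wv (c.sF L hl) := by
    apply Subtype.ext
    have := c.map_wv ((FF L N).val : FF L N →+* LaurentSeries L) (c.sF L hl)
    show c.s L ^ c.r = c.t L * ((FF L N).val (c.wv (c.sF L hl)))
    rw [show (FF L N).val (c.wv (c.sF L hl)) = c.wv (c.s L) from this]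
    exact c.s_pow L
  have ht0 : c.tF L hr ≠ 0 := c.cuspInt_tF_ne_zero L hr
  have hs0 : c.sF L hl ≠ 0 := by
    intro h
    exact c.sF_transcendental L hl (h ▸ isAlgebraic_zero)
  exact cuspInt_sF_abs c (c.tF L hr) (c.sF L hl) e1 ht0 hs0 ε hε

end BaseCase

end Fermat.Agent.C36.Unit
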