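import Fermat.Agent.C36.Unit.Theta
import Fermat.Agent.S24.Differential
import Fermat.Agent.GR.E.M1

/-!
# C36-UNIT: the derivation `D = θ / θ s` (`D s = 1`)

`θ s = q⁻¹ (-1 + ⋯)` is a unit of `ℤ((q))`, so `D f := θ f * (θ s)⁻¹` makes sense on `R((q))` for every
commutative ring `R`, commutes with `coeffMap` (so: with reduction, this is (D1)), and preserves the
function fields `FF K N` (`K` of characteristic zero, `lvl ∣ N`).
-/

set_option autoImplicit false

namespace Fermat.Agent.C36.Unit

open ModularCurve AlgebraicCurve Fermat.Agent.GR Fermat.Agent.GR.D.Haupt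

noncomputable section

namespace BaseCase

variable (c : BaseCase)

/-- `q θ s = -1 + ⋯` -/
def thNum : PowerSeries ℤ := PowerSeries.X * PowerSeries.derivative ℤ c.sNum - c.sNum

theorem constantCoeff_thNum : PowerSeries.constantCoeff c.thNum = -1 := by
  simp [thNum, constantCoeff_sNum]

/-- the inverse of `thNum` -/
def thNumInv : PowerSeries ℤ := c.thNum.invOfUnit (-1)

theorem thNum_mul_inv : c.thNum * c.thNumInv = 1 :=
  PowerSeries.mul_invOfUnit _ _ (by rw [constantCoeff_thNum]; rfl)

variable (R : Type*) [CommRing R]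

/-- `θ s` -/
def thS : LaurentSeries R := theta R (c.s R)

/-- `(θ s)⁻¹` -/
def thSInv : LaurentSeries R := xL R * toL R c.thNumInv

theorem thS_eq : c.thS R = poleL R c.thNum := theta_poleL _

theorem thS_mul_thSInv : c.thS R * c.thSInv R = 1 := by
  have h1 : toL R c.thNum * toL R c.thNumInv = 1 := by
    rw [← map_mul, thNum_mul_inv, map_one]
  have h2 := xL_mul_xiL R
  rw [thS_eq, poleL_eq, thSInv]
  linear_combination h1 + toL R c.thNum * toL R c.thNumInv * h2

variable {R} in
theorem coeffMap_thS {S : Type*} [CommRing S] (φ : R →+* S) : coeffMap φ (c.thS R) = c.thS S := by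
  rw [thS, coeffMap_theta, coeffMap_s, thS]
variable {R} in
theorem coeffMap_thSInv {S : Type*} [CommRing S] (φ : R →+* S) :
    coeffMap φ (c.thSInv R) = c.thSInv S := by
  rw [thSInv, map_mul, coeffMap_toL, xL, coeffMap_single, map_one, thSInv, xL]

/-- `D f = θ f / θ s` -/
def Dd (f : LaurentSeries R) : LaurentSeries R := theta R f * c.thSInv R

variable {R}

theorem theta_eq_Dd (f : LaurentSeries R) : theta R f = c.Dd R f * c.thS R := by
  rw [Dd, mul_assoc, mul_comm (c.thSInv R), thS_mul_thSInv, mul_one]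

theorem Dd_add (f g : LaurentSeries R) : c.Dd R (f + g) = c.Dd R f + c.Dd R g := by
  rw [Dd, map_add, add_mul, Dd, Dd]
theorem Dd_sub (f g : LaurentSeries R) : c.Dd R (f - g) = c.Dd R f - c.Dd R g := by
  rw [Dd, map_sub, sub_mul, Dd, Dd]
theorem Dd_mul (f g : LaurentSeries R) : c.Dd R (f * g) = f * c.Dd R g + g * c.Dd R f := by
  rw [Dd, theta_mul, Dd, Dd]
  ring
theorem Dd_C (a : R) : c.Dd R (HahnSeries.C a) = 0 := by
  rw [Dd, theta_C, zero_mul]
theorem Dd_s : c.Dd R (c.s R) = 1 := c.thS_mul_thSInv R
theorem coeffMap_Dd {S : Type*} [CommRing S] (φ : R →+* S) (f : LaurentSeries R) :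
    coeffMap φ (c.Dd R f) = c.Dd S (coeffMap φ f) := by
  rw [Dd, map_mul, coeffMap_theta, coeffMap_thSInv, Dd]

/-- (D1), integrality -/
theorem isInt_Dd {Ω : Type*} [Field Ω] (A : ValuationSubring Ω) {f : LaurentSeries Ω}
    (hf : IsInt A f) : IsInt A (c.Dd Ω f) := by
  refine Fermat.Agent.GR.E.M1_isInt_mul A ?_ ?_
  · intro n
    rw [theta_coeff]
    exact A.mul_mem _ _ (intCast_mem A n) (hf n)
  · intro n
    rw [← c.coeffMap_thSInv (Int.castRingHom Ω), coeffMap_coeff]
    exact intCast_mem A _

section Field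

variable (K : Type*) [Field K] [CharZero K] {N : ℕ} [NeZero N]

/-- two `K`-derivations of a function field into a vector space over it which agree at one
non-constant element are equal. -/
theorem derivation_ext {F M : Type*} [Field F] [Algebra K F] [AddCommGroup M] [Module K M]
    [Module F M] [IsScalarTower K F M] (x : F) [Algebra.IsAlgebraic (IntermediateField.adjoin K {x}) F]
    (D₁ D₂ : Derivation K F M) (h : D₁ x = D₂ x) : D₁ = D₂ := by
  have hspan := Fermat.Agent.S24.span_D_eq_top_of_isAlgebraic (K := K) x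
  ext f
  have hf : KaehlerDifferential.D K F f ∈ Submodule.span F {KaehlerDifferential.D K F x} :=
    hspan ▸ Submodule.mem_top
  obtain ⟨b, hb⟩ := Submodule.mem_span_singleton.mp hf
  rw [← D₁.liftKaehlerDifferential_comp_D f, ← D₂.liftKaehlerDifferential_comp_D f, ← hb,
    map_smul, map_smul, Derivation.liftKaehlerDifferential_comp_D,
    Derivation.liftKaehlerDifferential_comp_D, h]

/-- `θ` as a derivation of the function field with values in the Laurent series. -/
private def der_thetaOf (N : ℕ) : Derivation K (FF K N)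
    (Fermat.Agent.S24.LMod ((FF K N).val.toRingHom : FF K N →+* LaurentSeries K)) where
  toFun f := (theta K (f : LaurentSeries K) : LaurentSeries K)
  map_add' f g := by
    show theta K (((f + g : FF K N)) : LaurentSeries K) = _
    rw [AddMemClass.coe_add, map_add]
    rfl
  map_smul' a f := by
    change (theta K ((a • f : FF K N) : LaurentSeries K) : LaurentSeries K) =
      (((algebraMap K (FF K N) a : FF K N)) : LaurentSeries K) * theta K (f : LaurentSeries K)
    have h1 : (((algebraMap K (FF K N)) a : FF K N) : LaurentSeries K) = HahnSeries.C a :=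
      algebraMap_laurentSeries_eq_single K a
    rw [Algebra.smul_def, MulMemClass.coe_mul, theta_mul, h1, theta_C, mul_zero, add_zero]
  map_one_eq_zero' := by
    show theta K (1 : LaurentSeries K) = 0
    exact theta_one
  leibniz' f g := by
    show theta K ((f * g : FF K N) : LaurentSeries K) = _
    rw [MulMemClass.coe_mul, theta_mul]
    rfl

/-- implicit differentiation -/
theorem Dd_mem_FF (hN : c.lvl ∣ N) {f : LaurentSeries K} (hf : f ∈ FF K N) :
    c.Dd K f ∈ FF K N := by
  have hfd := Fermat.Agent.GR.D.finiteDimensional_FF_of_transcendental K N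
    (c.sF_transcendental K hN)
  have halg : Algebra.IsAlgebraic (IntermediateField.adjoin K {c.sF K hN}) (FF K N) :=
    Algebra.IsAlgebraic.of_finite _ _
  have hspan := Fermat.Agent.S24.span_D_eq_top_of_isAlgebraic (K := K) (c.sF K hN)
  have hf' : KaehlerDifferential.D K (FF K N) ⟨f, hf⟩ ∈
      Submodule.span (FF K N) {KaehlerDifferential.D K (FF K N) (c.sF K hN)} :=
    hspan ▸ Submodule.mem_top
  obtain ⟨b, hb⟩ := Submodule.mem_span_singleton.mp hf'
  have h1 := congrArg (der_thetaOf K N).liftKaehlerDifferential hb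
  rw [map_smul, Derivation.liftKaehlerDifferential_comp_D,
    Derivation.liftKaehlerDifferential_comp_D] at h1
  have h2 : (b : LaurentSeries K) * theta K (c.s K) = theta K f := h1
  have h3 : c.Dd K f = b := by
    unfold Dd
    rw [← h2, mul_assoc]
    have := c.thS_mul_thSInv K
    unfold thS at this
    rw [this, mul_one]
  rw [h3]
  exact b.2

/-- `D` as a derivation of the function field -/
def DdF (hN : c.lvl ∣ N) : Derivation K (FF K N) (FF K N) where
  toFun f := ⟨c.Dd K f, c.Dd_mem_FF K hN f.2⟩
  map_add' f g := Subtype.ext (c.Dd_add _ _)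
  map_smul' a f := Subtype.ext (by
    show c.Dd K ((a • f : FF K N) : LaurentSeries K) = ((a • _ : FF K N) : LaurentSeries K)
    rw [Algebra.smul_def, Algebra.smul_def, MulMemClass.coe_mul, MulMemClass.coe_mul, Dd_mul]
    have : (((algebraMap K (FF K N)) a : FF K N) : LaurentSeries K) = HahnSeries.C a :=
      algebraMap_laurentSeries_eq_single K a
    rw [this, Dd_C, mul_zero, add_zero])
  map_one_eq_zero' := Subtype.ext (by
    show c.Dd K (1 : LaurentSeries K) = 0
    rw [← map_one (HahnSeries.C : K →+* LaurentSeries K), Dd_C])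
  leibniz' f g := Subtype.ext (c.Dd_mul _ _)

@[simp] theorem coe_DdF (hN : c.lvl ∣ N) (f : FF K N) :
    ((c.DdF K hN f : FF K N) : LaurentSeries K) = c.Dd K f := rfl

theorem DdF_sF (hN : c.lvl ∣ N) : c.DdF K hN (c.sF K hN) = 1 := Subtype.ext c.Dd_s

/-- chain rule along a formal embedding: `d/dT (φ f) = φ (D f) * d/dT (φ s)` -/
theorem ld_map_eq (hN : c.lvl ∣ N) {L : Type*} [Field L] (φ : FF K N →+* LaurentSeries L)
    (hφ : ∀ a : K, ∃ b : L, φ (algebraMap K (FF K N) a) = HahnSeries.C b) (f : FF K N) :
    Fermat.Agent.S24.ld (φ f) = φ (c.DdF K hN f) * Fermat.Agent.S24.ld (φ (c.sF K hN)) := by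
  have hfd := Fermat.Agent.GR.D.finiteDimensional_FF_of_transcendental K N
    (c.sF_transcendental K hN)
  have halg : Algebra.IsAlgebraic (IntermediateField.adjoin K {c.sF K hN}) (FF K N) :=
    Algebra.IsAlgebraic.of_finite _ _
  let m : Fermat.Agent.S24.LMod φ := (Fermat.Agent.S24.ld (φ (c.sF K hN)) : LaurentSeries L)
  let D₂ : Derivation K (FF K N) (Fermat.Agent.S24.LMod φ) :=
    (LinearMap.toSpanSingleton (FF K N) (Fermat.Agent.S24.LMod φ) m).compDer (c.DdF K hN)
  have h : Fermat.Agent.S24.derivOf φ hφ (c.sF K hN) = D₂ (c.sF K hN) := by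
    show m = (c.DdF K hN (c.sF K hN)) • m
    rw [DdF_sF, one_smul]
  have h2 := derivation_ext K (c.sF K hN) (Fermat.Agent.S24.derivOf φ hφ) D₂ h
  exact congrArg (fun D => D f) h2

end Field

end BaseCase

end

end Fermat.Agent.C36.Unit
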