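import Fermat.Agent.C36.Unit.Der
import Fermat.Agent.GR.F.Frob

/-!
# C36-UNIT: the modular unit `γ₀ = (θ s)(q^p) / θ s = (1/p) D (s(q^p))`   (`p` = the prime called `q`
in the blueprint; here the variable of the series is `q`)
-/

set_option autoImplicit false

namespace Fermat.Agent.C36.Unit

open ModularCurve AlgebraicCurve Fermat.Agent.GR Fermat.Agent.GR.D.Haupt

noncomputable section

namespace BaseCase

variable (c : BaseCase) (p : ℕ) [NeZero p] (R : Type*) [CommRing R]

/-- `γ₀ = V (θ s) / θ s` -/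
def gamma0 : LaurentSeries R := qExpand R p (c.thS R) * c.thSInv R

/-- `γ₀⁻¹ = θ s / V (θ s)` -/
def gamma0Inv : LaurentSeries R := c.thS R * qExpand R p (c.thSInv R)

theorem gamma0_mul_inv : c.gamma0 p R * c.gamma0Inv p R = 1 := by
  have h1 := c.thS_mul_thSInv R
  have h2 : qExpand R p (c.thS R) * qExpand R p (c.thSInv R) = 1 := by
    rw [← map_mul, h1, map_one]
  rw [gamma0, gamma0Inv]
  linear_combination h2 + qExpand R p (c.thS R) * qExpand R p (c.thSInv R) * h1

theorem gamma0_mul_thS : c.gamma0 p R * c.thS R = qExpand R p (c.thS R) := by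
  have h1 := c.thS_mul_thSInv R
  rw [gamma0]
  linear_combination qExpand R p (c.thS R) * h1

variable {R} in
theorem coeffMap_gamma0 {S : Type*} [CommRing S] (φ : R →+* S) :
    coeffMap φ (c.gamma0 p R) = c.gamma0 p S := by
  rw [gamma0, map_mul, coeffMap_qExpand, coeffMap_thS, coeffMap_thSInv, gamma0]

variable {R} in
theorem coeffMap_gamma0Inv {S : Type*} [CommRing S] (φ : R →+* S) :
    coeffMap φ (c.gamma0Inv p R) = c.gamma0Inv p S := by
  rw [gamma0Inv, map_mul, coeffMap_qExpand, coeffMap_thS, coeffMap_thSInv, gamma0Inv]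

/-- `p γ₀ = D (V s)` -/
theorem natCast_mul_gamma0 :
    (p : LaurentSeries R) * c.gamma0 p R = c.Dd R (qExpand R p (c.s R)) := by
  rw [Dd, theta_qExpand, gamma0, thS, mul_assoc]

/-- integrality -/
theorem isInt_gamma0 {Ω : Type*} [Field Ω] (A : ValuationSubring Ω) : IsInt A (c.gamma0 p Ω) := by
  intro n
  rw [← c.coeffMap_gamma0 p (Int.castRingHom Ω), coeffMap_coeff]
  exact intCast_mem A _
theorem isInt_gamma0Inv {Ω : Type*} [Field Ω] (A : ValuationSubring Ω) :
    IsInt A (c.gamma0Inv p Ω) := by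
  intro n
  rw [← c.coeffMap_gamma0Inv p (Int.castRingHom Ω), coeffMap_coeff]
  exact intCast_mem A _

/-- a series with coefficients in the prime ring satisfies `f(q^p) = f^p` in characteristic `p` -/
theorem qExpand_coeffMap_int [Fact p.Prime] [CharP R p] (f : LaurentSeries ℤ) :
    qExpand R p (coeffMap (Int.castRingHom R) f) = coeffMap (Int.castRingHom R) f ^ p := by
  rw [pow_char_eq_qExpand p, coeffMap_coeffMap,
    coeffMap_congr (RingHom.ext_int ((frobenius R p).comp (Int.castRingHom R))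
      (Int.castRingHom R))]

/-- (g1) `γ₀ = (θ s)^(p-1)` in characteristic `p` -/
theorem gamma0_charP [Fact p.Prime] [CharP R p] : c.gamma0 p R = c.thS R ^ (p - 1) := by
  have h1 := c.thS_mul_thSInv R
  have h2 : qExpand R p (c.thS R) = c.thS R ^ p := by
    rw [← c.coeffMap_thS (Int.castRingHom R), qExpand_coeffMap_int]
  have h3 : c.thS R ^ p = c.thS R ^ (p - 1) * c.thS R := by
    rw [← pow_succ, Nat.sub_add_cancel (Fact.out : p.Prime).one_le]
  rw [gamma0, h2, h3, mul_assoc, h1, mul_one]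

section Field

variable (K : Type*) [Field K] [CharZero K] {N : ℕ} [NeZero N]

theorem gamma0_mem_FF (hN : c.lvl * p ∣ N) : c.gamma0 p K ∈ FF K N := by
  have h1 : c.Dd K (qExpand K p (c.s K)) ∈ FF K N :=
    c.Dd_mem_FF K ((Dvd.intro _ rfl).trans hN) (c.sVF K p hN).2
  rw [← natCast_mul_gamma0] at h1
  have hp : (p : LaurentSeries K) ≠ 0 := by
    rw [← map_natCast (HahnSeries.C : K →+* LaurentSeries K)]
    exact (map_ne_zero _).mpr (Nat.cast_ne_zero.mpr (NeZero.ne p))
  have h2 : c.gamma0 p K = (p : LaurentSeries K)⁻¹ * ((p : LaurentSeries K) * c.gamma0 p K) := by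
    rw [← mul_assoc, inv_mul_cancel₀ hp, one_mul]
  rw [h2]
  exact (FF K N).mul_mem ((FF K N).inv_mem (natCast_mem _ p)) h1

/-- `γ₀` as an element of the function field -/
def gamma0F (hN : c.lvl * p ∣ N) : FF K N := ⟨c.gamma0 p K, c.gamma0_mem_FF p K hN⟩

@[simp] theorem coe_gamma0F (hN : c.lvl * p ∣ N) :
    ((c.gamma0F p K hN : FF K N) : LaurentSeries K) = c.gamma0 p K := rfl

theorem gamma0F_ne_zero (hN : c.lvl * p ∣ N) : c.gamma0F p K hN ≠ 0 := by
  intro h
  have h1 : c.gamma0 p K = 0 := congrArg (fun x : FF K N => (x : LaurentSeries K)) h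
  have h2 := c.gamma0_mul_inv p K
  rw [h1, zero_mul] at h2
  exact zero_ne_one h2

theorem natCast_mul_gamma0F (hN : c.lvl * p ∣ N) :
    (p : FF K N) * c.gamma0F p K hN =
      c.DdF K ((Dvd.intro _ rfl).trans hN) (c.sVF K p hN) :=
  Subtype.ext (c.natCast_mul_gamma0 p K)

/-- the conjugate `w ∘ D ∘ w⁻¹` of a derivation by an automorphism -/
private def gamma_conjDer {F : Type*} [Field F] [Algebra K F] (w : F ≃ₐ[K] F)
    (D : Derivation K F F) : Derivation K F F where
  toFun f := w (D (w.symm f))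
  map_add' f g := by simp
  map_smul' a f := by simp
  map_one_eq_zero' := by simp
  leibniz' f g := by simp

theorem gamma_sVF_transcendental (hN : c.lvl * p ∣ N) : Transcendental K (c.sVF K p hN) := by
  apply transcendental_coe K
  intro h
  exact c.s_transcendental K
    ((isAlgebraic_algHom_iff (qExpandAlgHomC K p) (qExpand_injective p)).mp h)

/-- (g2) for every automorphism `w` exchanging `s` and `V s`: `w γ₀ = 1 / (p² γ₀)` -/
theorem w_gamma0F (hN : c.lvl * p ∣ N) (w : FF K N ≃ₐ[K] FF K N)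
    (h1 : w (c.sF K ((Dvd.intro _ rfl).trans hN)) = c.sVF K p hN)
    (h2 : w (c.sVF K p hN) = c.sF K ((Dvd.intro _ rfl).trans hN)) :
    w (c.gamma0F p K hN) * ((p : FF K N) ^ 2 * c.gamma0F p K hN) = 1 := by
  have hl : c.lvl ∣ N := (Dvd.intro _ rfl).trans hN
  have hfd := Fermat.Agent.GR.D.finiteDimensional_FF_of_transcendental K N
    (c.gamma_sVF_transcendental p K hN)
  have halg : Algebra.IsAlgebraic (IntermediateField.adjoin K {c.sVF K p hN}) (FF K N) :=
    Algebra.IsAlgebraic.of_finite _ _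
  have hDx : c.DdF K hl (c.sVF K p hN) = (p : FF K N) * c.gamma0F p K hN :=
    (c.natCast_mul_gamma0F p K hN).symm
  have hp : (p : FF K N) ≠ 0 := Nat.cast_ne_zero.mpr (NeZero.ne p)
  have hDx0 : c.DdF K hl (c.sVF K p hN) ≠ 0 := by
    rw [hDx]
    exact mul_ne_zero hp (c.gamma0F_ne_zero p K hN)
  have hs1 : w.symm (c.sVF K p hN) = c.sF K hl := by
    rw [← h1, AlgEquiv.symm_apply_apply]
  have hs2 : w.symm (c.sF K hl) = c.sVF K p hN := by
    rw [← h2, AlgEquiv.symm_apply_apply]
  have hx : gamma_conjDer K w (c.DdF K hl) (c.sVF K p hN) =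
      ((c.DdF K hl (c.sVF K p hN))⁻¹ • c.DdF K hl) (c.sVF K p hN) := by
    show w (c.DdF K hl (w.symm (c.sVF K p hN))) =
      (c.DdF K hl (c.sVF K p hN))⁻¹ * c.DdF K hl (c.sVF K p hN)
    rw [hs1, DdF_sF, map_one, inv_mul_cancel₀ hDx0]
  have hext := derivation_ext K (c.sVF K p hN) _ _ hx
  have hev : w (c.DdF K hl (w.symm (c.sF K hl))) =
      (c.DdF K hl (c.sVF K p hN))⁻¹ * c.DdF K hl (c.sF K hl) :=
    congrArg (fun D : Derivation K (FF K N) (FF K N) => D (c.sF K hl)) hext
  rw [hs2, DdF_sF, mul_one, hDx, map_mul, map_natCast] at hev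
  have h3 : ((p : FF K N) * c.gamma0F p K hN)⁻¹ * ((p : FF K N) * c.gamma0F p K hN) = 1 :=
    inv_mul_cancel₀ (mul_ne_zero hp (c.gamma0F_ne_zero p K hN))
  rw [← hev] at h3
  linear_combination h3

end Field

end BaseCase

end

end Fermat.Agent.C36.Unit
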