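import Fermat.Agent.C36.Unit.Case
import Fermat.Agent.GR.C.PlaceUp

/-!
# C36-UNIT (U): `X₀(N)`, `lvl ∣ N`, has no elliptic points: `FF ℚ̄ N / ℚ̄(s)` is unramified outside
the cusps `s ∈ {∞, 0} ∪ {w = 0}`
-/

set_option autoImplicit false

namespace Fermat.Agent.C36.Unit

open AlgebraicCurve ModularCurve Fermat.Agent.GR Fermat.Agent.GR.D Fermat.Agent.GR.D.Haupt

namespace BaseCase

section ram_aux

open Polynomial Fermat.Agent.S24.Zeros

variable {K F : Type*} [Field K] [Field F] [Algebra K F]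

/-- a polynomial vanishing at `a` is divisible by `s - a`. -/
theorem ram_factor (v : Place K F) {s : F} (hs : s ∈ v.toValuationSubring) (a : K) (P : K[X])
    (hP : P.eval a = 0) :
    ∃ g ∈ v.toValuationSubring, aeval s P = (s - algebraMap K F a) * g := by
  refine ⟨aeval s (P /ₘ (X - C a)), aeval_mem_place v hs _, ?_⟩
  have hdec : P = (X - C a) * (P /ₘ (X - C a)) := (mul_divByMonic_eq_iff_isRoot.2 hP).symm
  conv_lhs => rw [hdec]
  simp [aeval_C]

theorem ram_aeval_ne_zero (v : Place K F) {h : F} {c : K}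
    (hv : 0 < v.ord (h - algebraMap K F c)) (g : K[X]) (hg : g.eval c ≠ 0) : aeval h g ≠ 0 := by
  intro h0
  obtain ⟨q, hq, hfac⟩ := ram_factor v (mem_place_of_ord_sub_pos v hv) c (g - C (g.eval c))
    (by simp)
  rw [map_sub, h0, aeval_C, zero_sub] at hfac
  have h1 := congrArg v.ord hfac
  rw [← map_neg, ord_algebraMap] at h1
  have hq0 : q ≠ 0 := by
    rintro rfl
    rw [mul_zero, neg_eq_zero, map_eq_zero] at hfac
    exact hg hfac
  have hsub : h - algebraMap K F c ≠ 0 := by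
    intro h'
    rw [h'] at hv
    simp at hv
  rw [v.ord_mul hsub hq0] at h1
  have := ord_nonneg_of_mem v hq
  omega

theorem ram_aeval_wv (c : BaseCase) (s : F) : aeval s (c.wv (X : K[X])) = c.wv s := by
  have := c.map_wv (aeval s : K[X] →ₐ[K] F).toRingHom X
  simpa using this

theorem ram_aeval_e4 (c : BaseCase) (s : F) : aeval s (c.e4 (X : K[X])) = c.e4 s := by
  have := c.map_e4 (aeval s : K[X] →ₐ[K] F).toRingHom X
  simpa using this

theorem ram_aeval_e6 (c : BaseCase) (s : F) : aeval s (c.e6 (X : K[X])) = c.e6 s := by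
  have := c.map_e6 (aeval s : K[X] →ₐ[K] F).toRingHom X
  simpa using this

theorem ram_aeval_jt (c : BaseCase) (s : F) : aeval s (c.jt (X : K[X])) = c.jt s := by
  have := c.map_jt (aeval s : K[X] →ₐ[K] F).toRingHom X
  simpa using this

theorem ram_eval_wv (c : BaseCase) (a : K) : (c.wv (X : K[X])).eval a = c.wv a := by
  have := c.map_wv (evalRingHom a) X
  simpa using this

theorem ram_eval_e4 (c : BaseCase) (a : K) : (c.e4 (X : K[X])).eval a = c.e4 a := by
  have := c.map_e4 (evalRingHom a) X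
  simpa using this

theorem ram_eval_e6 (c : BaseCase) (a : K) : (c.e6 (X : K[X])).eval a = c.e6 a := by
  have := c.map_e6 (evalRingHom a) X
  simpa using this

theorem ram_eval_jt (c : BaseCase) (a : K) : (c.jt (X : K[X])).eval a = c.jt a := by
  have := c.map_jt (evalRingHom a) X
  simpa using this

theorem ram_e6_sq (c : BaseCase) {A : Type*} [CommRing A] (x : A) :
    c.e6 x ^ 2 = c.e4 x ^ 3 - 1728 * (x ^ c.lvl * c.wv x) := by
  cases c <;> simp only [e6, e4, lvl, wv] <;> ring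

/-- `s` is integral over `K[t]`. -/
theorem ram_s_mem (c : BaseCase) (v : Place K F) {s t : F} (rel : s ^ c.r = t * c.wv s)
    (ht : v.ord t = 0) : s ∈ v.toValuationSubring := by
  by_contra hs
  have hs0 : s ≠ 0 := by
    rintro rfl
    exact hs (zero_mem _)
  have hsi : s⁻¹ ∈ v.toValuationSubring := (v.toValuationSubring.mem_or_inv_mem s).resolve_left hs
  have hnat : ∀ n : ℕ, (n : F) ∈ v.toValuationSubring := fun n => natCast_mem _ n
  have key : ∃ y ∈ v.toValuationSubring, s = t * y := by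
    cases c
    · refine ⟨1 + 16 * s⁻¹, add_mem (one_mem _) (mul_mem (hnat 16) hsi), ?_⟩
      simp only [r, wv] at rel
      field_simp
      linear_combination rel
    · refine ⟨1 + 9 * s⁻¹ + 27 * s⁻¹ ^ 2, add_mem (add_mem (one_mem _) (mul_mem (hnat 9) hsi))
        (mul_mem (hnat 27) (pow_mem hsi 2)), ?_⟩
      simp only [r, wv] at rel
      field_simp
      linear_combination rel
  obtain ⟨y, hy, hsy⟩ := key
  have ht0 : t ≠ 0 := by
    rintro rfl
    exact hs0 (by rw [hsy, zero_mul])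
  have hy0 : y ≠ 0 := by
    rintro rfl
    exact hs0 (by rw [hsy, mul_zero])
  apply hs
  apply mem_of_ord_nonneg
  rw [hsy, v.ord_mul ht0 hy0, ht, zero_add]
  exact ord_nonneg_of_mem v hy

theorem ram_wv_zero_ne [CharZero K] (c : BaseCase) : c.wv (0 : K) ≠ 0 := by
  cases c <;> simp [wv]

theorem ram_jt_zero_ne [CharZero K] (c : BaseCase) : c.jt (0 : K) ≠ 0 := by
  cases c <;> simp [jt]

theorem ram_ord_add_const (v : Place K F) {t : F} (ht : v.ord t < 0) (a : K) :
    v.ord (t + algebraMap K F a) = v.ord t := by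
  apply ord_add_eq_of_lt v (by rw [ord_algebraMap]; exact ht)
  rintro rfl
  simp at ht

theorem ram_add_const_ne_zero (v : Place K F) {t : F} (ht : v.ord t < 0) (a : K) :
    t + algebraMap K F a ≠ 0 := by
  intro h
  have := ram_ord_add_const v ht a
  rw [h, Place.ord_zero] at this
  omega

/-- the order of `jt(t)` at a pole of `t`. -/
theorem ram_ord_jt (c : BaseCase) (v : Place K F) {t : F} (ht : v.ord t < 0) :
    v.ord (c.jt t) = (c.r + 1) * v.ord t := by
  cases c
  · have h1 := ram_ord_add_const v ht (256 : K)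
    rw [map_ofNat] at h1
    simp only [jt, r]
    rw [ord_pow', h1]
    norm_num
  · have h1 := ram_ord_add_const v ht (27 : K)
    have h2 := ram_ord_add_const v ht (243 : K)
    have h3 := ram_add_const_ne_zero v ht (27 : K)
    have h4 := ram_add_const_ne_zero v ht (243 : K)
    rw [map_ofNat] at h1 h2 h3 h4
    simp only [jt, r]
    rw [v.ord_mul h3 (pow_ne_zero 3 h4), ord_pow', h1, h2]
    push_cast
    ring

/-- abstract version of `ord_tF_ne_zero_iff`. -/
theorem ram_ord_t_ne_zero_iff [CharZero K] (c : BaseCase) (v : Place K F) {j t : F} (hj0 : j ≠ 0)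
    (ht0 : t ≠ 0) (rel : j * t ^ c.r = c.jt t) : v.ord t ≠ 0 ↔ v.ord j < 0 := by
  have h1 := congrArg v.ord rel
  rw [v.ord_mul hj0 (pow_ne_zero _ ht0), ord_pow'] at h1
  have hr : (0 : ℤ) < c.r := by exact_mod_cast c.r_prime.pos
  constructor
  · intro hne
    rcases lt_or_gt_of_ne hne with hlt | hgt
    · rw [ram_ord_jt c v hlt] at h1
      linarith
    · have h2 : v.ord (c.jt t) = 0 := by
        rw [← ram_aeval_jt (K := K)]
        apply ord_aeval_eq_zero v (c := 0) (by rw [map_zero, sub_zero]; exact hgt)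
        rw [ram_eval_jt]
        exact ram_jt_zero_ne c
      rw [h2] at h1
      nlinarith
  · intro hlt h0
    have ht : t ∈ v.toValuationSubring := mem_of_ord_nonneg v h0.ge
    have h2 : 0 ≤ v.ord (c.jt t) := by
      rw [← ram_aeval_jt (K := K)]
      exact ord_nonneg_of_mem v (aeval_mem_place v ht _)
    rw [h0, mul_zero, add_zero] at h1
    omega

end ram_aux

open Polynomial Fermat.Agent.S24.Zeros in
/-- abstract version (compare `GR.D.Haupt.ord_h2_sub_le_one`) -/
theorem ord_sub_le_one_of_jRam (c : BaseCase) {K F : Type*} [Field K] [CharZero K] [Field F]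
    [Algebra K F] (v : Place K F) {j s : F} (hj : JRam v j)
    (rel : j * (s ^ c.lvl * c.wv s) = c.e4 s ^ 3) (a : K) (ha : a ≠ 0) (ha' : c.wv a ≠ 0) :
    v.ord (s - algebraMap K F a) ≤ 1 := by
  by_cases hv : 0 < v.ord (s - algebraMap K F a)
  swap
  · omega
  have hs : s ∈ v.toValuationSubring := mem_place_of_ord_sub_pos v hv
  have hD : a ^ c.lvl * c.wv a ≠ 0 := mul_ne_zero (pow_ne_zero _ ha) ha'
  -- the unit `u`
  have hU : aeval s ((X : K[X]) ^ c.lvl * c.wv (X : K[X])) = s ^ c.lvl * c.wv s := by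
    rw [map_mul, map_pow, aeval_X, ram_aeval_wv]
  have hUa : ((X : K[X]) ^ c.lvl * c.wv (X : K[X])).eval a = a ^ c.lvl * c.wv a := by
    rw [eval_mul, eval_pow, eval_X, ram_eval_wv]
  have hu : v.ord (s ^ c.lvl * c.wv s) = 0 := by
    rw [← hU]
    exact ord_aeval_eq_zero v hv _ (by rw [hUa]; exact hD)
  have hu0 : s ^ c.lvl * c.wv s ≠ 0 := by
    rw [← hU]
    exact ram_aeval_ne_zero v hv _ (by rw [hUa]; exact hD)
  set c0 : K := c.e4 a ^ 3 / (a ^ c.lvl * c.wv a) with hc0
  have hca : c0 * (a ^ c.lvl * c.wv a) = c.e4 a ^ 3 := by rw [hc0]; field_simp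
  by_cases h0 : c0 = 0
  · have he : c.e4 a = 0 := by
      rw [h0, zero_mul] at hca
      exact pow_eq_zero_iff (n := 3) (by norm_num) |>.mp hca.symm
    obtain ⟨g, hg, hfac⟩ := ram_factor v hs a (c.e4 (X : K[X])) (by rw [ram_eval_e4, he])
    rw [ram_aeval_e4] at hfac
    have hj0 : j ≠ 0 := fun h0 => hj.nonconst 0 (by rw [h0, map_zero])
    refine le_one_of_cases _ (v.ord j) 3 (by norm_num) hv ?_ (by simpa using hj.zero)
    refine mul_ord_le v 3 hu hu0 hj0 (pow_mem hg 3) ?_
    rw [mul_comm, rel, hfac, mul_pow]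
  by_cases h1 : c0 = 1728
  · have he : c.e6 a = 0 := by
      have h2 : c.e6 a ^ 2 = 0 := by
        rw [ram_e6_sq, ← hca, h1, sub_self]
      exact pow_eq_zero_iff (n := 2) (by norm_num) |>.mp h2
    obtain ⟨g, hg, hfac⟩ := ram_factor v hs a (c.e6 (X : K[X])) (by rw [ram_eval_e6, he])
    rw [ram_aeval_e6] at hfac
    have hj0 : j - algebraMap K F 1728 ≠ 0 := fun h0 => hj.nonconst 1728 (sub_eq_zero.mp h0)
    refine le_one_of_cases _ (v.ord (j - algebraMap K F 1728)) 2 (by norm_num) hv ?_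
      (by simpa using hj.e1728)
    refine mul_ord_le v 2 hu hu0 hj0 (pow_mem hg 2) ?_
    rw [← mul_pow, ← hfac, ram_e6_sq, ← rel, map_ofNat]
    ring
  · obtain ⟨g, hg, hfac⟩ := ram_factor v hs a
      (c.e4 (X : K[X]) ^ 3 - C c0 * ((X : K[X]) ^ c.lvl * c.wv (X : K[X]))) (by
        rw [eval_sub, eval_pow, ram_eval_e4, eval_mul, eval_C, hUa, hca, sub_self])
    rw [map_sub, map_pow, ram_aeval_e4, map_mul, aeval_C, hU] at hfac
    have hj0 : j - algebraMap K F c0 ≠ 0 := fun h0 => hj.nonconst c0 (sub_eq_zero.mp h0)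
    refine le_one_of_cases _ (v.ord (j - algebraMap K F c0)) 1 (by norm_num) hv ?_ ?_
    · refine mul_ord_le v 1 hu hu0 hj0 hg ?_
      rw [pow_one, ← hfac, ← rel]
      ring
    · intro hpos
      rw [hj.generic c0 h0 h1 hpos]
      simp

/-- (U) -/
theorem ord_sF_sub_le_one (c : BaseCase) (N : ℕ) [NeZero N] (hN : c.lvl ∣ N)
    (v : Place Qb (FF Qb N)) (a : Qb) (ha : a ≠ 0) (ha' : c.wv a ≠ 0) :
    v.ord (c.sF Qb hN - algebraMap Qb (FF Qb N) a) ≤ 1 := by
  refine c.ord_sub_le_one_of_jRam v (jRam N v) ?_ a ha ha'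
  apply (algebraMap (FF Qb N) (LaurentSeries Qb)).injective
  rw [map_mul, map_mul, map_pow, map_pow, c.map_wv, c.map_e4]
  exact c.j_mul_s Qb

open Polynomial Fermat.Agent.S24.Zeros in
/-- at a place which is not a cusp, `s` takes a finite value `a` with `a ≠ 0`, `w(a) ≠ 0`, to the
first order. -/
theorem exists_ord_sF_sub_eq_one (c : BaseCase) (N : ℕ) [NeZero N] (hN : c.lvl ∣ N)
    (v : Place Qb (FF Qb N)) (hv : v.ord (c.tF Qb (c.r_dvd_lvl.trans hN)) = 0) :
    ∃ a : Qb, a ≠ 0 ∧ c.wv a ≠ 0 ∧ v.ord (c.sF Qb hN - algebraMap Qb (FF Qb N) a) = 1 := by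
  set s := c.sF Qb hN with hsdef
  set t := c.tF Qb (c.r_dvd_lvl.trans hN) with htdef
  have rel : s ^ c.r = t * c.wv s := by
    apply (algebraMap (FF Qb N) (LaurentSeries Qb)).injective
    rw [map_mul, map_pow, c.map_wv]
    exact c.s_pow Qb
  have hs : s ∈ v.toValuationSubring := c.ram_s_mem v rel hv
  have htr : Transcendental Qb s := c.sF_transcendental Qb hN
  have hs0 : s ≠ 0 := by
    intro h
    rw [h] at htr
    exact htr isAlgebraic_zero
  have ht0 : t ≠ 0 := by
    intro h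
    rw [h, zero_mul] at rel
    exact hs0 (pow_eq_zero_iff c.r_prime.ne_zero |>.mp rel)
  have hw0 : c.wv s ≠ 0 := by
    intro h
    rw [h, mul_zero] at rel
    exact hs0 (pow_eq_zero_iff c.r_prime.ne_zero |>.mp rel)
  have hord := congrArg v.ord rel
  rw [ord_pow', v.ord_mul ht0 hw0, hv, zero_add] at hord
  have hr : (0 : ℤ) < c.r := by exact_mod_cast c.r_prime.pos
  obtain ⟨a, ha | ha⟩ := Fermat.Agent.GR.C.exists_sub_mem_maximalIdeal v s hs
  swap
  · rw [ha] at htr
    exact absurd (isAlgebraic_algebraMap a) htr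
  have ha0 : a ≠ 0 := by
    rintro rfl
    have h1 : v.ord (c.wv s) = 0 := by
      rw [← ram_aeval_wv (K := Qb)]
      apply ord_aeval_eq_zero v ha
      rw [ram_eval_wv]
      exact ram_wv_zero_ne c
    rw [map_zero, sub_zero] at ha
    rw [h1] at hord
    nlinarith
  have haw : c.wv a ≠ 0 := by
    intro h
    obtain ⟨g, hg, hfac⟩ := ram_factor v hs a (c.wv (X : Qb[X])) (by rw [ram_eval_wv, h])
    rw [ram_aeval_wv] at hfac
    have hg0 : g ≠ 0 := by
      rintro rfl
      exact hw0 (by rw [hfac, mul_zero])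
    have hsub : s - algebraMap Qb (FF Qb N) a ≠ 0 := by
      intro h'
      exact hw0 (by rw [hfac, h', zero_mul])
    rw [ord_eq_zero_of_ord_sub_pos v ha0 ha, mul_zero, hfac, v.ord_mul hsub hg0] at hord
    have := ord_nonneg_of_mem v hg
    omega
  refine ⟨a, ha0, haw, ?_⟩
  have h1 : v.ord (s - algebraMap Qb (FF Qb N) a) ≤ 1 := c.ord_sF_sub_le_one N hN v a ha0 haw
  omega

/-- cusps: `ord_v t ≠ 0 ↔ ord_v j < 0` -/
theorem ord_tF_ne_zero_iff (c : BaseCase) (N : ℕ) [NeZero N] (hN : c.r ∣ N)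
    (v : Place Qb (FF Qb N)) : v.ord (c.tF Qb hN) ≠ 0 ↔ v.ord (C.jF Qb N) < 0 := by
  have htr : Transcendental Qb (c.tF Qb hN) := c.tF_transcendental Qb hN
  have ht0 : c.tF Qb hN ≠ 0 := by
    intro h
    rw [h] at htr
    exact htr isAlgebraic_zero
  have hj0 : C.jF Qb N ≠ 0 := fun h0 => (jRam N v).nonconst 0 (by rw [h0, map_zero])
  refine c.ram_ord_t_ne_zero_iff v hj0 ht0 ?_
  apply (algebraMap (FF Qb N) (LaurentSeries Qb)).injective
  rw [map_mul, map_pow, c.map_jt]
  exact c.j_mul_t Qb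

end BaseCase

end Fermat.Agent.C36.Unit
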