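import Fermat.Agent.C36.Unit.Gamma
import Fermat.Agent.C36.Unit.Ram
import Fermat.Agent.C36.Unit.CuspInst
import Fermat.Agent.GR.E.BR3

/-!
# C36-UNIT (g3): `γ₀` is a unit outside the cusps
-/

set_option autoImplicit false
set_option synthInstance.maxHeartbeats 400000

namespace Fermat.Agent.C36.Unit

open AlgebraicCurve ModularCurve IntermediateField Fermat.Agent.GR Fermat.Agent.GR.D
  Fermat.Agent.GR.D.Haupt

namespace BaseCase

variable (c : BaseCase) (p : ℕ) [NeZero p]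

/-- the Atkin–Lehner involution `w_p` exchanges `s` and `V s` -/
theorem wQ_sF {K : Type} [Field K] (ι : K →+* ℂ) (N1 : ℕ) [NeZero (p * N1)] (hcop : p.Coprime N1)
    (hN1 : c.lvl ∣ N1) (hl : c.lvl ∣ p * N1) (hN : c.lvl * p ∣ p * N1) :
    GT.EMB.wQ K p N1 (c.sF K hl) = c.sVF K p hN ∧ GT.EMB.wQ K p N1 (c.sVF K p hN) = c.sF K hl := by
  have hN1' : NeZero N1 := ⟨fun h => NeZero.ne (p * N1) (by rw [h, mul_zero])⟩
  have h1 : GT.EMB.wQ K p N1 (c.sF K hl) = c.sVF K p hN :=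
    Subtype.ext (GT.EMB.wQ_of_mem ι p N1 hcop (c.sF K hl) (c.s_mem_FF K hN1))
  exact ⟨h1, by rw [← h1, GT.EMB.wQ_wQ ι p N1 hcop]⟩

/-- an automorphism with `w s = V s` satisfies `w t = V t` -/
theorem w_tF {K : Type*} [Field K] {N : ℕ} [NeZero N] (hr : c.r ∣ N) (hrp : c.r * p ∣ N)
    (hl : c.lvl ∣ N) (hN : c.lvl * p ∣ N) (w : FF K N ≃ₐ[K] FF K N)
    (h1 : w (c.sF K hl) = c.sVF K p hN) : w (c.tF K hr) = c.tVF K p hrp := by
  have e1 : c.sF K hl ^ c.r = c.tF K hr * c.wv (c.sF K hl) := by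
    apply Subtype.ext
    have := c.map_wv ((FF K N).val : FF K N →+* LaurentSeries K) (c.sF K hl)
    show c.s K ^ c.r = c.t K * ((FF K N).val (c.wv (c.sF K hl)))
    rw [show (FF K N).val (c.wv (c.sF K hl)) = c.wv (c.s K) from this]
    exact c.s_pow K
  have e2 : c.sVF K p hN ^ c.r = c.tVF K p hrp * c.wv (c.sVF K p hN) := by
    apply Subtype.ext
    have := c.map_wv ((FF K N).val : FF K N →+* LaurentSeries K) (c.sVF K p hN)
    show qExpand K p (c.s K) ^ c.r = qExpand K p (c.t K) * ((FF K N).val (c.wv (c.sVF K p hN)))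
    rw [show (FF K N).val (c.wv (c.sVF K p hN)) = c.wv (qExpand K p (c.s K)) from this,
      ← c.map_wv (qExpand K p), ← map_pow, ← map_mul, c.s_pow K]
  have e3 := congrArg w e1
  rw [map_pow, map_mul, h1, show w (c.wv (c.sF K hl)) = c.wv (w (c.sF K hl)) from
    c.map_wv (w : FF K N →+* FF K N) _, h1, e2] at e3
  have hne : c.wv (c.sVF K p hN) ≠ 0 := by
    intro h0
    rw [h0, mul_zero] at e2
    have h2 := pow_eq_zero_iff (NeZero.ne c.r) |>.1 e2
    have h3 : qExpand K p (c.s K) = 0 := congrArg Subtype.val h2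
    have h4 : c.s K = 0 := qExpand_injective p (by rw [h3, map_zero])
    exact (c.s_transcendental K) (h4 ▸ isAlgebraic_zero)
  exact (mul_right_cancel₀ hne e3).symm

/-- (g3), core -/
theorem ord_gamma0F_eq_zero_of {N : ℕ} [NeZero N] (hr : c.r ∣ N) (hrp : c.r * p ∣ N)
    (hl : c.lvl ∣ N) (hN : c.lvl * p ∣ N) (w : FF Qb N ≃ₐ[Qb] FF Qb N)
    (h1 : w (c.sF Qb hl) = c.sVF Qb p hN) (v : Place Qb (FF Qb N))
    (hv : v.ord (c.tF Qb hr) = 0) (hv' : v.ord (c.tVF Qb p hrp) = 0) :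
    v.ord (c.gamma0F p Qb hN) = 0 := by
  -- values of `s` and `V s`
  obtain ⟨a, -, -, ha⟩ := c.exists_ord_sF_sub_eq_one N hl v hv
  obtain ⟨v', hv'ord⟩ := exists_place_comap w v
  have ht' : v'.ord (c.tF Qb hr) = 0 := by
    rw [hv'ord, c.w_tF p hr hrp hl hN w h1, hv']
  obtain ⟨a', -, -, ha'⟩ := c.exists_ord_sF_sub_eq_one N hl v' ht'
  rw [hv'ord, map_sub, h1, w.commutes] at ha'
  -- the formal embedding
  have hx := c.sF_transcendental Qb hl
  have hfin := finiteDimensional_FF_of_transcendental Qb N hx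
  have hres := (Fermat.Agent.S24.Zeros.residueField_bijective hx hfin v).2
  obtain ⟨φ, hφC, hφ⟩ := Fermat.Agent.S24.exists_formal_embedding v hres
  have key : ∀ (f : FF Qb N) (b : Qb), v.ord (f - algebraMap Qb (FF Qb N) b) = 1 →
      (Fermat.Agent.S24.ld (φ f)).order = 0 ∧ Fermat.Agent.S24.ld (φ f) ≠ 0 := by
    intro f b hb
    have hne : f - algebraMap Qb (FF Qb N) b ≠ 0 := by
      intro h0
      rw [h0] at hb
      simp at hb
    have ho : (φ (f - algebraMap Qb (FF Qb N) b)).order = 1 := by rw [hφ _ hne, hb]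
    have e : Fermat.Agent.S24.ld (φ f) = Fermat.Agent.S24.ld (φ (f - algebraMap Qb (FF Qb N) b)) := by
      have : φ f = φ (f - algebraMap Qb (FF Qb N) b) + HahnSeries.C b := by
        rw [← hφC, ← map_add, sub_add_cancel]
      rw [this, Fermat.Agent.S24.ld_add, Fermat.Agent.S24.ld_C, add_zero]
    have ho' : (φ (f - algebraMap Qb (FF Qb N) b)).order ≠ 0 := by rw [ho]; exact one_ne_zero
    rw [e]
    exact ⟨by rw [Fermat.Agent.S24.order_ld ho', ho]; rfl, Fermat.Agent.S24.ld_ne_zero ho'⟩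
  obtain ⟨o1, n1⟩ := key _ a ha
  obtain ⟨o2, n2⟩ := key _ a' ha'
  have hch := c.ld_map_eq Qb hl φ (fun b => ⟨b, hφC b⟩) (c.sVF Qb p hN)
  have hD0 : c.DdF Qb hl (c.sVF Qb p hN) ≠ 0 := by
    intro h0
    rw [h0, map_zero, zero_mul] at hch
    exact n2 hch
  have hord := congrArg HahnSeries.order hch
  rw [HahnSeries.order_mul ((map_ne_zero φ).2 hD0) n1, o1, o2, hφ _ hD0, add_zero] at hord
  -- conclusion
  have hrel := c.natCast_mul_gamma0F p Qb hN
  have hp0 : (p : FF Qb N) ≠ 0 := by exact_mod_cast NeZero.ne p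
  have hpc : v.ord (p : FF Qb N) = 0 := by
    rw [← map_natCast (algebraMap Qb (FF Qb N)) p]
    exact Fermat.Agent.S24.Zeros.ord_algebraMap v _
  have h3 := congrArg v.ord hrel
  rw [v.ord_mul hp0 (c.gamma0F_ne_zero p Qb hN), hpc, zero_add] at h3
  rw [h3]
  exact hord.symm

/-- (g3) -/
theorem ord_gamma0F_eq_zero (hp : p.Prime) (hpr : p ≠ c.r) (N1 : ℕ) [NeZero (p * N1)]
    (hpN1 : ¬ p ∣ N1) (hN1 : c.lvl ∣ N1) (hr : c.r ∣ p * N1) (hN : c.lvl * p ∣ p * N1)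
    (v : Place Qb (FF Qb (p * N1))) (hv : v.ord (c.tF Qb hr) = 0) :
    v.ord (c.gamma0F p Qb hN) = 0 := by
  have : Algebra.IsAlgebraic ℚ Qb := AlgebraicClosure.isAlgebraic ℚ
  let ι : Qb →+* ℂ := (IsAlgClosed.lift (R := ℚ) (S := Qb) (M := ℂ)).toRingHom
  have hcop : p.Coprime N1 := (Nat.Prime.coprime_iff_not_dvd hp).mpr hpN1
  have hl : c.lvl ∣ p * N1 := hN1.mul_left p
  have hrp : c.r * p ∣ p * N1 := (mul_dvd_mul_right c.r_dvd_lvl p).trans hN
  have h1 := (c.wQ_sF p ι N1 hcop hN1 hl hN).1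
  have hcp := c.cuspT p hp hpr hrp v
  have hv' : v.ord (c.tVF Qb p hrp) = 0 := by
    rcases hcp with ⟨_, h⟩ | ⟨h, _⟩
    · exact h
    · exact absurd hv h
  exact c.ord_gamma0F_eq_zero_of p hr hrp hl hN (GT.EMB.wQ Qb p N1) h1 v hv hv'

/-- compatibility of the named elements with base change -/
theorem mapFF_tF {K K' : Type*} [Field K] [Field K'] (φ : K →+* K') {N : ℕ} (hr : c.r ∣ N) :
    E.mapFF φ N (c.tF K hr) = c.tF K' hr := Subtype.ext (c.coeffMap_t φ)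
theorem mapFF_sF {K K' : Type*} [Field K] [Field K'] (φ : K →+* K') {N : ℕ} [NeZero N]
    (hl : c.lvl ∣ N) : E.mapFF φ N (c.sF K hl) = c.sF K' hl := Subtype.ext (c.coeffMap_s φ)
theorem mapFF_tVF {K K' : Type*} [Field K] [Field K'] (φ : K →+* K') (m : ℕ) [NeZero m] {N : ℕ}
    [NeZero N] (h : c.r * m ∣ N) : E.mapFF φ N (c.tVF K m h) = c.tVF K' m h :=
  Subtype.ext (by
    show coeffMap φ (qExpand K m (c.t K)) = qExpand K' m (c.t K')
    rw [coeffMap_qExpand, c.coeffMap_t])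
theorem mapFF_sVF {K K' : Type*} [Field K] [Field K'] (φ : K →+* K') (m : ℕ) [NeZero m] {N : ℕ}
    [NeZero N] (h : c.lvl * m ∣ N) : E.mapFF φ N (c.sVF K m h) = c.sVF K' m h :=
  Subtype.ext (by
    show coeffMap φ (qExpand K m (c.s K)) = qExpand K' m (c.s K')
    rw [coeffMap_qExpand, c.coeffMap_s])
theorem mapFF_gamma0F {K K' : Type*} [Field K] [CharZero K] [Field K'] [CharZero K'] (φ : K →+* K')
    {N : ℕ} [NeZero N] (h : c.lvl * p ∣ N) :
    E.mapFF φ N (c.gamma0F p K h) = c.gamma0F p K' h := Subtype.ext (c.coeffMap_gamma0 p φ)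

private theorem gammaOrd_isIntegral_pow_mul_of_le {K F : Type*} [Field K] [Field F] [Algebra K F]
    (x f : F) {k k' : ℕ} (hk : k ≤ k')
    (h : IsIntegral (Algebra.adjoin K ({x} : Set F)) (x ^ k * f)) :
    IsIntegral (Algebra.adjoin K ({x} : Set F)) (x ^ k' * f) := by
  have e : x ^ k' * f = x ^ (k' - k) * (x ^ k * f) := by
    rw [← mul_assoc, ← pow_add, Nat.sub_add_cancel hk]
  rw [e]
  have hx : x ^ (k' - k) ∈ Algebra.adjoin K ({x} : Set F) :=
    pow_mem (Algebra.self_mem_adjoin_singleton K x) _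
  exact IsIntegral.mul
    (isIntegral_algebraMap (R := Algebra.adjoin K ({x} : Set F)) (x := ⟨_, hx⟩)) h

/-- (g3'), integrality form, on both charts, over any number field `L` -/
theorem exists_isIntegral_gamma0F (hp : p.Prime) (hpr : p ≠ c.r) (N1 : ℕ) [NeZero (p * N1)]
    (hpN1 : ¬ p ∣ N1) (hN1 : c.lvl ∣ N1) (hr : c.r ∣ p * N1) (hN : c.lvl * p ∣ p * N1)
    (L : IntermediateField ℚ Qb) : ∃ k : ℕ,
    IsIntegral (Algebra.adjoin L ({c.tF L hr} : Set (FF L (p * N1))))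
      (c.tF L hr ^ k * c.gamma0F p L hN) ∧
    IsIntegral (Algebra.adjoin L ({c.tF L hr} : Set (FF L (p * N1))))
      (c.tF L hr ^ k * (c.gamma0F p L hN)⁻¹) ∧
    IsIntegral (Algebra.adjoin L ({(c.tF L hr)⁻¹} : Set (FF L (p * N1))))
      ((c.tF L hr)⁻¹ ^ k * c.gamma0F p L hN) ∧
    IsIntegral (Algebra.adjoin L ({(c.tF L hr)⁻¹} : Set (FF L (p * N1))))
      ((c.tF L hr)⁻¹ ^ k * (c.gamma0F p L hN)⁻¹) := by
  have ht : Transcendental Qb (c.tF Qb hr) := c.tF_transcendental Qb hr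
  have ht' : Transcendental Qb (c.tF Qb hr)⁻¹ := S24.transcendental_inv ht
  have ht0 : c.tF Qb hr ≠ 0 := fun h => ht (h ▸ isAlgebraic_zero)
  have hfd : FiniteDimensional Qb⟮c.tF Qb hr⟯ (FF Qb (p * N1)) :=
    finiteDimensional_FF_of_transcendental Qb (p * N1) ht
  have hfd' : FiniteDimensional Qb⟮(c.tF Qb hr)⁻¹⟯ (FF Qb (p * N1)) :=
    finiteDimensional_FF_of_transcendental Qb (p * N1) ht'
  have key : ∀ v : Place Qb (FF Qb (p * N1)), v.ord (c.tF Qb hr) = 0 →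
      v.ord (c.gamma0F p Qb hN) = 0 := fun v hv =>
    c.ord_gamma0F_eq_zero p hp hpr N1 hpN1 hN1 hr hN v hv
  obtain ⟨k1, h1⟩ := exists_pow_mul_isIntegral (c.tF Qb hr) ht (c.tF Qb hr) (c.gamma0F p Qb hN) ht0
    (fun v h => h) (fun v _ h0 => by rw [key v h0])
  obtain ⟨k2, h2⟩ := exists_pow_mul_isIntegral (c.tF Qb hr) ht (c.tF Qb hr) (c.gamma0F p Qb hN)⁻¹
    ht0 (fun v h => h) (fun v _ h0 => by rw [v.ord_inv, key v h0, neg_zero])
  obtain ⟨k3, h3⟩ := exists_pow_mul_isIntegral (c.tF Qb hr)⁻¹ ht' (c.tF Qb hr)⁻¹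
    (c.gamma0F p Qb hN) (inv_ne_zero ht0) (fun v h => h)
    (fun v _ h0 => by
      rw [v.ord_inv, neg_eq_zero] at h0
      rw [key v h0])
  obtain ⟨k4, h4⟩ := exists_pow_mul_isIntegral (c.tF Qb hr)⁻¹ ht' (c.tF Qb hr)⁻¹
    (c.gamma0F p Qb hN)⁻¹ (inv_ne_zero ht0) (fun v h => h)
    (fun v _ h0 => by
      rw [v.ord_inv, neg_eq_zero] at h0
      rw [v.ord_inv, key v h0, neg_zero])
  refine ⟨k1 + k2 + k3 + k4, ?_, ?_, ?_, ?_⟩
  · refine E.isIntegral_descent L (p * N1) _ _ ?_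
    rw [map_mul, map_pow, mapFF_tF, mapFF_gamma0F]
    exact gammaOrd_isIntegral_pow_mul_of_le _ _ (by omega) h1
  · refine E.isIntegral_descent L (p * N1) _ _ ?_
    rw [map_mul, map_pow, map_inv₀, mapFF_tF, mapFF_gamma0F]
    exact gammaOrd_isIntegral_pow_mul_of_le _ _ (by omega) h2
  · refine E.isIntegral_descent L (p * N1) _ _ ?_
    rw [map_mul, map_pow, map_inv₀, mapFF_tF, mapFF_gamma0F]
    exact gammaOrd_isIntegral_pow_mul_of_le _ _ (by omega) h3
  · refine E.isIntegral_descent L (p * N1) _ _ ?_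
    rw [map_mul, map_pow, map_inv₀, map_inv₀, mapFF_tF, mapFF_gamma0F]
    exact gammaOrd_isIntegral_pow_mul_of_le _ _ (by omega) h4

end BaseCase

end Fermat.Agent.C36.Unit
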