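import Fermat.Agent.C36.Unit.GammaOrd

/-!
# C36-UNIT (g4): the unit `γ_t = (θ t / t)(q^p) / (θ t / t)`, which is a unit at the cusps
-/

set_option autoImplicit false
set_option synthInstance.maxHeartbeats 400000

namespace Fermat.Agent.C36.Unit

open AlgebraicCurve ModularCurve IntermediateField Fermat.Agent.GR Fermat.Agent.GR.D
  Fermat.Agent.GR.D.Haupt

noncomputable section

namespace BaseCase

variable (c : BaseCase)

/-- `(q t)⁻¹` -/
def tNumInv : PowerSeries ℤ := c.tNum.invOfUnit 1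

theorem tNum_mul_inv : c.tNum * c.tNumInv = 1 :=
  PowerSeries.mul_invOfUnit _ _ (by rw [constantCoeff_tNum]; rfl)

private theorem gammat_constantCoeff_tNumInv : PowerSeries.constantCoeff c.tNumInv = 1 := by
  have h := congrArg (PowerSeries.constantCoeff (R := ℤ)) c.tNum_mul_inv
  rwa [map_mul, constantCoeff_tNum, one_mul, map_one] at h

/-- `θ t / t = -1 + ⋯ ∈ ℤ⟦q⟧` -/
def ltNum : PowerSeries ℤ :=
  (PowerSeries.X * PowerSeries.derivative ℤ c.tNum - c.tNum) * c.tNumInv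

theorem constantCoeff_ltNum : PowerSeries.constantCoeff c.ltNum = -1 := by
  rw [ltNum, map_mul, gammat_constantCoeff_tNumInv, mul_one, map_sub, map_mul,
    PowerSeries.constantCoeff_X, zero_mul, constantCoeff_tNum, zero_sub]

/-- the inverse of `ltNum` -/
def ltNumInv : PowerSeries ℤ := c.ltNum.invOfUnit (-1)

theorem ltNum_mul_inv : c.ltNum * c.ltNumInv = 1 :=
  PowerSeries.mul_invOfUnit _ _ (by rw [constantCoeff_ltNum]; rfl)

/-- `x^(deg rn) rn(1/x)` -/
def rn' (c : BaseCase) {A : Type*} [CommRing A] (x : A) : A :=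
  match c with
  | two => 1 + 32 * x
  | three => (1 + 9 * x) ^ 2

variable (p : ℕ) [NeZero p] (R : Type*) [CommRing R]

/-- `θ t / t` -/
def ldT : LaurentSeries R := toL R c.ltNum
/-- `t / θ t` -/
def ldTInv : LaurentSeries R := toL R c.ltNumInv

theorem ldT_mul_ldTInv : c.ldT R * c.ldTInv R = 1 := by
  rw [ldT, ldTInv, ← map_mul, ltNum_mul_inv, map_one]

private theorem gammat_isUnit_t : IsUnit (c.t R) := by
  refine IsUnit.of_mul_eq_one (xL R * toL R c.tNumInv) ?_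
  have h1 := xL_mul_xiL R
  have h2 : toL R c.tNum * toL R c.tNumInv = 1 := by rw [← map_mul, tNum_mul_inv, map_one]
  rw [t, poleL_eq]
  linear_combination (toL R c.tNum * toL R c.tNumInv) * h1 + h2

theorem ldT_mul_t : c.ldT R * c.t R = theta R (c.t R) := by
  have h2 : toL R c.tNum * toL R c.tNumInv = 1 := by rw [← map_mul, tNum_mul_inv, map_one]
  rw [t, theta_poleL, poleL_eq, poleL_eq, ldT, ltNum, map_mul]
  linear_combination
    (xiL R * toL R (PowerSeries.X * PowerSeries.derivative ℤ c.tNum - c.tNum)) * h2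

/-- `θ t / t = ρ(s) θ s`, `ρ = rn(s) / (s w(s))` -/
theorem ldT_mul : c.ldT R * (c.s R * c.wv (c.s R)) = c.rn (c.s R) * c.thS R := by
  apply (c.gammat_isUnit_t R).mul_left_cancel
  have rel := c.s_pow R
  have e := congrArg (theta R) rel
  have hL := c.ldT_mul_t R
  rw [thS]
  cases c
  · simp only [r, wv, rn] at rel e ⊢
    rw [theta_pow, theta_mul, map_add, theta_ofNat, add_zero, ← hL] at e
    simp only [Nat.cast_ofNat, Nat.add_one_sub_one, pow_one] at e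
    linear_combination (2 * theta R (BaseCase.two.s R)) * rel - BaseCase.two.s R * e
  · simp only [r, wv, rn] at rel e ⊢
    rw [theta_pow, theta_mul, map_add, map_add, theta_ofNat, add_zero, theta_pow, theta_mul,
      theta_ofNat, mul_zero, add_zero, ← hL] at e
    simp only [Nat.cast_ofNat, Nat.add_one_sub_one, pow_one] at e
    linear_combination (3 * theta R (BaseCase.three.s R)) * rel - BaseCase.three.s R * e

/-- `γ_t` -/
def gammaT : LaurentSeries R := qExpand R p (c.ldT R) * c.ldTInv R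
/-- `γ_t⁻¹` -/
def gammaTInv : LaurentSeries R := c.ldT R * qExpand R p (c.ldTInv R)

theorem gammaT_mul_inv : c.gammaT p R * c.gammaTInv p R = 1 := by
  have h1 := c.ldT_mul_ldTInv R
  have h2 := congrArg (qExpand R p) h1
  rw [map_mul, map_one] at h2
  rw [gammaT, gammaTInv]
  linear_combination (qExpand R p (c.ldT R) * qExpand R p (c.ldTInv R)) * h1 + h2

variable {R} in
theorem coeffMap_ldT {S : Type*} [CommRing S] (φ : R →+* S) : coeffMap φ (c.ldT R) = c.ldT S :=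
  coeffMap_toL φ _
variable {R} in
theorem coeffMap_gammaT {S : Type*} [CommRing S] (φ : R →+* S) :
    coeffMap φ (c.gammaT p R) = c.gammaT p S := by
  rw [gammaT, map_mul, coeffMap_qExpand, coeffMap_ldT, ldTInv, coeffMap_toL, gammaT, ldTInv]
variable {R} in
theorem coeffMap_gammaTInv {S : Type*} [CommRing S] (φ : R →+* S) :
    coeffMap φ (c.gammaTInv p R) = c.gammaTInv p S := by
  rw [gammaTInv, map_mul, coeffMap_qExpand, coeffMap_ldT, ldTInv, coeffMap_toL, gammaTInv, ldTInv]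

private theorem gammat_isInt_coeffMap {Ω : Type*} [Field Ω] (A : ValuationSubring Ω)
    (f : LaurentSeries ℤ) : IsInt A (coeffMap (Int.castRingHom Ω) f) := by
  intro n
  rw [coeffMap_coeff]
  exact intCast_mem A _

theorem isInt_gammaT {Ω : Type*} [Field Ω] (A : ValuationSubring Ω) : IsInt A (c.gammaT p Ω) := by
  rw [← c.coeffMap_gammaT p (Int.castRingHom Ω)]
  exact gammat_isInt_coeffMap A _
theorem isInt_gammaTInv {Ω : Type*} [Field Ω] (A : ValuationSubring Ω) :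
    IsInt A (c.gammaTInv p Ω) := by
  rw [← c.coeffMap_gammaTInv p (Int.castRingHom Ω)]
  exact gammat_isInt_coeffMap A _

/-- `γ_t = (θ t / t)^(p-1)` in characteristic `p` -/
theorem gammaT_charP [Fact p.Prime] [CharP R p] : c.gammaT p R = c.ldT R ^ (p - 1) := by
  have h1 := c.ldT_mul_ldTInv R
  have h2 : qExpand R p (c.ldT R) = c.ldT R ^ p := by
    rw [← c.coeffMap_ldT (Int.castRingHom R)]
    exact qExpand_coeffMap_int p R _
  have hp : p = (p - 1) + 1 := (Nat.sub_add_cancel (Nat.pos_of_ne_zero (NeZero.ne p))).symm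
  rw [gammaT, h2]
  conv_lhs => rw [hp, pow_succ]
  rw [mul_assoc, h1, mul_one]

/-- `γ_t = γ₀ V(ρ) / ρ` -/
theorem gammaT_rel :
    c.gammaT p R * (c.rn (c.s R) * qExpand R p (c.s R * c.wv (c.s R))) =
      c.gamma0 p R * (qExpand R p (c.rn (c.s R)) * (c.s R * c.wv (c.s R))) := by
  have ha := c.ldT_mul_ldTInv R
  have hb := c.thS_mul_thSInv R
  have A := c.ldT_mul R
  rw [gammaT, gamma0]
  set a := c.ldT R
  set ai := c.ldTInv R
  set b := c.thS R
  set bi := c.thSInv R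
  set X := c.s R * c.wv (c.s R)
  set Rn := c.rn (c.s R)
  have VA : qExpand R p a * qExpand R p X = qExpand R p Rn * qExpand R p b := by
    rw [← map_mul, ← map_mul, A]
  linear_combination (qExpand R p Rn * qExpand R p b * bi * X) * ha
    - (qExpand R p Rn * qExpand R p b * ai * bi) * A
    - (qExpand R p Rn * qExpand R p b * ai * Rn) * hb + (ai * Rn) * VA

section Field

variable (K : Type*) [Field K] [CharZero K] {N : ℕ} [NeZero N]

omit [CharZero K] [NeZero N] in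
private theorem gammat2_rn_mem {x : LaurentSeries K} (hx : x ∈ FF K N) : c.rn x ∈ FF K N := by
  have h := c.map_rn ((FF K N).val : FF K N →+* LaurentSeries K) ⟨x, hx⟩
  have h2 : c.rn x = ((c.rn (⟨x, hx⟩ : FF K N) : FF K N) : LaurentSeries K) := h.symm
  rw [h2]
  exact (c.rn (⟨x, hx⟩ : FF K N)).2

omit [CharZero K] [NeZero N] in
private theorem gammat2_wv_mem {x : LaurentSeries K} (hx : x ∈ FF K N) : c.wv x ∈ FF K N := by
  have h := c.map_wv ((FF K N).val : FF K N →+* LaurentSeries K) ⟨x, hx⟩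
  have h2 : c.wv x = ((c.wv (⟨x, hx⟩ : FF K N) : FF K N) : LaurentSeries K) := h.symm
  rw [h2]
  exact (c.wv (⟨x, hx⟩ : FF K N)).2

omit [CharZero K] in
private theorem gammat2_s_add_ne_zero (a : K) : c.s K + algebraMap K (LaurentSeries K) a ≠ 0 := by
  intro h
  have h1 : c.s K = algebraMap K (LaurentSeries K) (-a) := by
    rw [map_neg]
    exact eq_neg_of_add_eq_zero_left h
  exact c.s_transcendental K (h1 ▸ isAlgebraic_algebraMap (-a))

omit [CharZero K] in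
private theorem gammat2_rn_s_ne_zero : c.rn (c.s K) ≠ 0 := by
  cases c
  · have h := gammat2_s_add_ne_zero BaseCase.two K 32
    rw [map_ofNat] at h
    exact h
  · have h := gammat2_s_add_ne_zero BaseCase.three K 9
    rw [map_ofNat] at h
    exact pow_ne_zero 2 h

omit [CharZero K] in
private theorem gammat2_s_mul_wv_ne_zero : c.s K * c.wv (c.s K) ≠ 0 := by
  rw [c.s_mul K]
  intro h
  have h1 : c.t K = 0 := qExpand_injective c.r (by rw [h, map_zero])
  exact c.t_transcendental K (h1 ▸ isAlgebraic_zero)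

theorem gammaT_mem_FF (hN : c.lvl * p ∣ N) : c.gammaT p K ∈ FF K N := by
  have hl : c.lvl ∣ N := (Dvd.intro _ rfl).trans hN
  have hs : c.s K ∈ FF K N := c.s_mem_FF K hl
  have hVs : qExpand K p (c.s K) ∈ FF K N := qExpand_mem_FF K p hN (c.s_mem_FF K dvd_rfl)
  have hd : c.rn (c.s K) * qExpand K p (c.s K * c.wv (c.s K)) ≠ 0 := by
    refine mul_ne_zero (gammat2_rn_s_ne_zero c K) ?_
    intro h
    exact gammat2_s_mul_wv_ne_zero c K (qExpand_injective p (by rw [h, map_zero]))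
  have hrel := c.gammaT_rel p K
  have e : c.gammaT p K = c.gamma0 p K * (qExpand K p (c.rn (c.s K)) * (c.s K * c.wv (c.s K))) /
      (c.rn (c.s K) * qExpand K p (c.s K * c.wv (c.s K))) := by
    rw [eq_div_iff hd]
    exact hrel
  rw [e, c.map_rn (qExpand K p), map_mul, c.map_wv (qExpand K p)]
  exact div_mem (mul_mem (c.gamma0_mem_FF p K hN) (mul_mem (gammat2_rn_mem c K hVs)
    (mul_mem hs (gammat2_wv_mem c K hs))))
    (mul_mem (gammat2_rn_mem c K hs) (mul_mem hVs (gammat2_wv_mem c K hVs)))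

/-- `γ_t` as an element of the function field -/
def gammaTF (hN : c.lvl * p ∣ N) : FF K N := ⟨c.gammaT p K, c.gammaT_mem_FF p K hN⟩

@[simp] theorem coe_gammaTF (hN : c.lvl * p ∣ N) :
    ((c.gammaTF p K hN : FF K N) : LaurentSeries K) = c.gammaT p K := rfl

theorem gammaTF_ne_zero (hN : c.lvl * p ∣ N) : c.gammaTF p K hN ≠ 0 := by
  intro h
  have h1 : c.gammaT p K = 0 := congrArg Subtype.val h
  have h2 := c.gammaT_mul_inv p K
  rw [h1, zero_mul] at h2
  exact zero_ne_one h2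

theorem mapFF_gammaTF {K' : Type*} [Field K'] [CharZero K'] (φ : K →+* K') (hN : c.lvl * p ∣ N) :
    E.mapFF φ N (c.gammaTF p K hN) = c.gammaTF p K' hN := Subtype.ext (c.coeffMap_gammaT p φ)

/-- `p γ_t (D t / t) = D (V t) / V t` -/
theorem natCast_mul_gammaTF (hr : c.r ∣ N) (hrp : c.r * p ∣ N) (hl : c.lvl ∣ N)
    (hN : c.lvl * p ∣ N) :
    (p : FF K N) * c.gammaTF p K hN * (c.DdF K hl (c.tF K hr) * c.tVF K p hrp) =
      c.DdF K hl (c.tVF K p hrp) * c.tF K hr := by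
  apply Subtype.ext
  show (((p : FF K N) : FF K N) : LaurentSeries K) * c.gammaT p K *
      (c.Dd K (c.t K) * qExpand K p (c.t K)) = c.Dd K (qExpand K p (c.t K)) * c.t K
  have hp : (((p : FF K N) : FF K N) : LaurentSeries K) = (p : LaurentSeries K) :=
    map_natCast ((FF K N).val : FF K N →+* LaurentSeries K) p
  have h1 := c.ldT_mul_t K
  have h2 := c.ldT_mul_ldTInv K
  rw [hp, Dd, Dd, theta_qExpand, ← h1, map_mul, gammaT]
  linear_combination (p : LaurentSeries K) * qExpand K p (c.ldT K) * c.t K * c.thSInv K *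
    qExpand K p (c.t K) * h2

end Field

/-- (g4) `γ_t` is a unit at the cusps -/
theorem ord_gammaTF_eq_zero_of_cusp {N : ℕ} [NeZero N] (hr : c.r ∣ N) (hrp : c.r * p ∣ N)
    (hN : c.lvl * p ∣ N) (v : Place Qb (FF Qb N)) (hv : v.ord (c.tF Qb hr) ≠ 0)
    (hv' : v.ord (c.tVF Qb p hrp) ≠ 0) : v.ord (c.gammaTF p Qb hN) = 0 := by
  have hl : c.lvl ∣ N := (Dvd.intro _ rfl).trans hN
  -- the formal embedding
  have hx := c.sF_transcendental Qb hl
  have hfin := finiteDimensional_FF_of_transcendental Qb N hx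
  have hres := (Fermat.Agent.S24.Zeros.residueField_bijective hx hfin v).2
  obtain ⟨φ, hφC, hφ⟩ := Fermat.Agent.S24.exists_formal_embedding v hres
  have key : ∀ f : FF Qb N, v.ord f ≠ 0 → f ≠ 0 ∧ c.DdF Qb hl f ≠ 0 ∧
      Fermat.Agent.S24.ld (φ (c.sF Qb hl)) ≠ 0 ∧
      v.ord (c.DdF Qb hl f) + (Fermat.Agent.S24.ld (φ (c.sF Qb hl))).order = v.ord f - 1 := by
    intro f hf
    have hf0 : f ≠ 0 := by
      rintro rfl
      simp at hf
    have ho : (φ f).order ≠ 0 := by rw [hφ _ hf0]; exact hf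
    have hch := c.ld_map_eq Qb hl φ (fun b => ⟨b, hφC b⟩) f
    have hne := Fermat.Agent.S24.ld_ne_zero ho
    have hD0 : c.DdF Qb hl f ≠ 0 := by
      intro h0
      rw [h0, map_zero, zero_mul] at hch
      exact hne hch
    have hs0 : Fermat.Agent.S24.ld (φ (c.sF Qb hl)) ≠ 0 := by
      intro h0
      rw [h0, mul_zero] at hch
      exact hne hch
    have hord := congrArg HahnSeries.order hch
    rw [HahnSeries.order_mul ((map_ne_zero φ).2 hD0) hs0, Fermat.Agent.S24.order_ld ho,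
      hφ _ hf0, hφ _ hD0] at hord
    exact ⟨hf0, hD0, hs0, hord.symm⟩
  obtain ⟨t0, Dt0, -, e1⟩ := key _ hv
  obtain ⟨Vt0, DVt0, -, e2⟩ := key _ hv'
  have hrel := c.natCast_mul_gammaTF p Qb hr hrp hl hN
  have hp0 : (p : FF Qb N) ≠ 0 := by exact_mod_cast NeZero.ne p
  have hpc : v.ord (p : FF Qb N) = 0 := by
    rw [← map_natCast (algebraMap Qb (FF Qb N)) p]
    exact Fermat.Agent.S24.Zeros.ord_algebraMap v _
  have hg0 := c.gammaTF_ne_zero p Qb hN
  have h3 := congrArg v.ord hrel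
  rw [v.ord_mul (mul_ne_zero hp0 hg0) (mul_ne_zero Dt0 Vt0), v.ord_mul hp0 hg0,
    v.ord_mul Dt0 Vt0, v.ord_mul DVt0 t0, hpc] at h3
  omega

/-! ### helper lemmas for U-12c -/

theorem gammat_map_rn' {A B : Type*} [CommRing A] [CommRing B] (f : A →+* B) (x : A) :
    f (c.rn' x) = c.rn' (f x) := by cases c <;> simp [rn', map_ofNat]

theorem gammat_wv_mem {F : Type*} [Field F] (A : ValuationSubring F) {x : F} (hx : x ∈ A) :
    c.wv x ∈ A := by
  cases c
  · exact add_mem hx (ofNat_mem A 16)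
  · exact add_mem (add_mem (pow_mem hx 2) (mul_mem (ofNat_mem A 9) hx)) (ofNat_mem A 27)

theorem gammat_rn_mem {F : Type*} [Field F] (A : ValuationSubring F) {x : F} (hx : x ∈ A) :
    c.rn x ∈ A := by
  cases c
  · exact add_mem hx (ofNat_mem A 32)
  · exact pow_mem (add_mem hx (ofNat_mem A 9)) 2

theorem gammat_rn'_mem {F : Type*} [Field F] (A : ValuationSubring F) {x : F} (hx : x ∈ A) :
    c.rn' x ∈ A := by
  cases c
  · exact add_mem (one_mem A) (mul_mem (ofNat_mem A 32) hx)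
  · exact pow_mem (add_mem (one_mem A) (mul_mem (ofNat_mem A 9) hx)) 2

theorem gammat_rn'_mul {F : Type*} [Field F] {s : F} (hs : s ≠ 0) :
    c.rn' s⁻¹ * s ^ (c.r - 1) = c.rn s := by
  cases c
  · simp only [rn', rn, r]
    field_simp
    norm_num
    ring
  · simp only [rn', rn, r]
    field_simp
    norm_num
    ring

theorem gammat_rn_ne_zero {K F : Type*} [Field K] [Field F] [Algebra K F] {x : F}
    (hx : Transcendental K x) : c.rn x ≠ 0 := by
  intro h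
  apply hx
  cases c
  · have : x = algebraMap K F (-32) := by
      rw [map_neg, map_ofNat]
      exact eq_neg_of_add_eq_zero_left h
    rw [this]
    exact isAlgebraic_algebraMap _
  · have : x = algebraMap K F (-9) := by
      rw [map_neg, map_ofNat]
      exact eq_neg_of_add_eq_zero_left (pow_eq_zero_iff (two_ne_zero) |>.1 h)
    rw [this]
    exact isAlgebraic_algebraMap _

section Ord

variable {K F : Type*} [Field K] [CharZero K] [Field F] [Algebra K F] (v : Place K F)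

/-- `t` regular ⟹ `s` regular -/
theorem gammat_ord_s_nonneg {s t : F} (rel : s ^ c.r = t * c.wv s) (ht : 0 ≤ v.ord t) :
    0 ≤ v.ord s := by
  apply S24.Zeros.ord_nonneg_of_mem
  have htm : t ∈ v.toValuationSubring := S24.Zeros.mem_of_ord_nonneg v ht
  rcases v.toValuationSubring.mem_or_inv_mem s with h | h
  · exact h
  · by_cases hs : s = 0
    · rw [hs]; exact zero_mem _
    cases c
    · have e : s = t * (1 + 16 * s⁻¹) := by
        simp only [r, wv] at rel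
        field_simp
        linear_combination rel
      rw [e]
      exact mul_mem htm (add_mem (one_mem _) (mul_mem (ofNat_mem _ 16) h))
    · have e : s = t * (1 + 9 * s⁻¹ + 27 * s⁻¹ ^ 2) := by
        simp only [r, wv] at rel
        field_simp
        linear_combination rel
      rw [e]
      exact mul_mem htm (add_mem (add_mem (one_mem _) (mul_mem (ofNat_mem _ 9) h))
        (mul_mem (ofNat_mem _ 27) (pow_mem h 2)))

/-- `t⁻¹` regular ⟹ `s⁻¹` regular -/
theorem gammat_ord_s_nonpos {s t : F} (rel : s ^ c.r = t * c.wv s) (ht0 : t ≠ 0)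
    (ht : v.ord t ≤ 0) : v.ord s ≤ 0 := by
  have h1 : 0 ≤ v.ord s⁻¹ := by
    apply S24.Zeros.ord_nonneg_of_mem
    have htm : t⁻¹ ∈ v.toValuationSubring := S24.Zeros.mem_of_ord_nonneg v (by
      rw [v.ord_inv]; omega)
    rcases v.toValuationSubring.mem_or_inv_mem s with h | h
    · by_cases hs : s = 0
      · rw [hs, inv_zero]; exact zero_mem _
      have hc : ∀ a : K, algebraMap K F a ∈ v.toValuationSubring := v.algebraMap_mem'
      cases c
      · have h16 : (16 : F) ≠ 0 := by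
          rw [← map_ofNat (algebraMap K F) 16]
          exact (map_ne_zero _).2 (by norm_num)
        have e : s⁻¹ = algebraMap K F (16⁻¹) * (t⁻¹ * s - 1) := by
          simp only [r, wv] at rel
          rw [map_inv₀, map_ofNat]
          field_simp
          linear_combination -rel
        rw [e]
        exact mul_mem (hc _) (sub_mem (mul_mem htm h) (one_mem _))
      · have h27 : (27 : F) ≠ 0 := by
          rw [← map_ofNat (algebraMap K F) 27]
          exact (map_ne_zero _).2 (by norm_num)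
        have e : s⁻¹ = algebraMap K F (27⁻¹) * (t⁻¹ * s ^ 2 - s - 9) := by
          simp only [r, wv] at rel
          rw [map_inv₀, map_ofNat]
          field_simp
          linear_combination -rel
        rw [e]
        exact mul_mem (hc _) (sub_mem (sub_mem (mul_mem htm (pow_mem h 2)) h) (ofNat_mem _ 9))
    · exact h
  rw [v.ord_inv] at h1
  omega

theorem gammat_ord_eq_zero {s t : F} (rel : s ^ c.r = t * c.wv s) (hs0 : s ≠ 0)
    (ht : v.ord t = 0) : v.ord s = 0 ∧ v.ord (c.wv s) = 0 := by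
  have hne : t * c.wv s ≠ 0 := rel ▸ pow_ne_zero _ hs0
  have ht0 : t ≠ 0 := left_ne_zero_of_mul hne
  have hw0 : c.wv s ≠ 0 := right_ne_zero_of_mul hne
  have h1 := c.gammat_ord_s_nonneg v rel ht.ge
  have h2 := c.gammat_ord_s_nonpos v rel ht0 ht.le
  have hs : v.ord s = 0 := le_antisymm h2 h1
  refine ⟨hs, ?_⟩
  have h3 := congrArg v.ord rel
  rw [ord_pow', v.ord_mul ht0 hw0, hs, ht] at h3
  omega

theorem gammat_ord_rn' {s : F} (hs0 : s ≠ 0) (hs : v.ord s = 0) :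
    v.ord (c.rn' s⁻¹) = v.ord (c.rn s) := by
  have rel := c.gammat_rn'_mul hs0
  by_cases h : c.rn' s⁻¹ = 0
  · rw [← rel, h, zero_mul]
  · rw [← rel, v.ord_mul h (pow_ne_zero _ hs0), ord_pow', hs]
    simp

end Ord

theorem gammat_cuspPair_nonneg {p : ℕ} (hp : 0 < p) {a b : ℤ} (h : CuspPair p a b) (ha : 0 ≤ a) :
    0 ≤ b := by
  have hp' : (0 : ℤ) < p := by exact_mod_cast hp
  rcases h with ⟨-, h⟩ | ⟨-, h | h⟩
  · exact h.ge
  · rw [h]; positivity
  · by_contra hb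
    have := mul_neg_of_pos_of_neg hp' (not_le.1 hb)
    omega

theorem gammat_cuspPair_nonpos {p : ℕ} (hp : 0 < p) {a b : ℤ} (h : CuspPair p a b) (ha : a ≤ 0) :
    b ≤ 0 := by
  have hp' : (0 : ℤ) < p := by exact_mod_cast hp
  rcases h with ⟨-, h⟩ | ⟨-, h | h⟩
  · exact h.le
  · rw [h]; exact mul_nonpos_of_nonneg_of_nonpos hp'.le ha
  · by_contra hb
    have := mul_pos hp' (not_le.1 hb)
    omega

theorem gammat_cuspPair_ne {p : ℕ} (hp : 0 < p) {a b : ℤ} (h : CuspPair p a b) (ha : a ≠ 0) :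
    b ≠ 0 := by
  have hp' : (p : ℤ) ≠ 0 := by exact_mod_cast hp.ne'
  rcases h with ⟨h, -⟩ | ⟨-, h | h⟩
  · exact absurd h ha
  · rw [h]; exact mul_ne_zero hp' ha
  · rintro rfl
    exact ha (by rw [h, mul_zero])

theorem gammat_cuspPair_eq {p : ℕ} {a b : ℤ} (h : CuspPair p a b) (ha : a = 0) : b = 0 := by
  rcases h with ⟨-, h⟩ | ⟨h, -⟩
  · exact h
  · exact absurd ha h

section Rel

variable (K : Type*) [Field K] {N : ℕ} [NeZero N]

theorem gammat_coe_wv (x : FF K N) : ((c.wv x : FF K N) : LaurentSeries K) = c.wv (x : LaurentSeries K) :=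
  c.map_wv (algebraMap (FF K N) (LaurentSeries K)) x

theorem gammat_coe_rn (x : FF K N) : ((c.rn x : FF K N) : LaurentSeries K) = c.rn (x : LaurentSeries K) :=
  c.map_rn (algebraMap (FF K N) (LaurentSeries K)) x

theorem gammat_sF_pow (hr : c.r ∣ N) (hl : c.lvl ∣ N) :
    c.sF K hl ^ c.r = c.tF K hr * c.wv (c.sF K hl) := by
  apply Subtype.ext
  rw [IntermediateField.coe_pow, IntermediateField.coe_mul, gammat_coe_wv]
  exact c.s_pow K

theorem gammat_sVF_pow (hrp : c.r * p ∣ N) (hN : c.lvl * p ∣ N) :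
    c.sVF K p hN ^ c.r = c.tVF K p hrp * c.wv (c.sVF K p hN) := by
  apply Subtype.ext
  rw [IntermediateField.coe_pow, IntermediateField.coe_mul, gammat_coe_wv]
  have := congrArg (qExpand K p) (c.s_pow K)
  rw [map_pow, map_mul, c.map_wv] at this
  exact this

theorem gammat_sF_ne_zero (hl : c.lvl ∣ N) : c.sF K hl ≠ 0 := fun h =>
  c.sF_transcendental K hl (h ▸ isAlgebraic_zero)

theorem gammat_tF_ne_zero (hr : c.r ∣ N) : c.tF K hr ≠ 0 := fun h =>
  c.tF_transcendental K hr (h ▸ isAlgebraic_zero)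

theorem gammat_sVF_ne_zero (hN : c.lvl * p ∣ N) : c.sVF K p hN ≠ 0 := by
  intro h
  have h1 : qExpand K p (c.s K) = 0 := congrArg Subtype.val h
  have h2 : c.s K ≠ 0 := fun h => c.s_transcendental K (h ▸ isAlgebraic_zero)
  exact (map_ne_zero (qExpand K p)).2 h2 h1

theorem gammat_tVF_ne_zero (hrp : c.r * p ∣ N) : c.tVF K p hrp ≠ 0 := by
  intro h
  have h1 : qExpand K p (c.t K) = 0 := congrArg Subtype.val h
  have h2 : c.t K ≠ 0 := fun h => c.t_transcendental K (h ▸ isAlgebraic_zero)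
  exact (map_ne_zero (qExpand K p)).2 h2 h1

theorem gammat_rn_sF_ne_zero (hl : c.lvl ∣ N) : c.rn (c.sF K hl) ≠ 0 :=
  c.gammat_rn_ne_zero (c.sF_transcendental K hl)

theorem gammat_rn_sVF_ne_zero (hN : c.lvl * p ∣ N) : c.rn (c.sVF K p hN) ≠ 0 := by
  intro h
  have h1 : c.rn (qExpand K p (c.s K)) = 0 := by
    rw [← coe_sVF c K p hN, ← gammat_coe_rn, h]
    rfl
  rw [← c.map_rn] at h1
  exact (map_ne_zero (qExpand K p)).2 (c.gammat_rn_ne_zero (c.s_transcendental K)) h1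

theorem gammat_rel_FF [CharZero K] (hl : c.lvl ∣ N) (hN : c.lvl * p ∣ N) :
    c.gammaTF p K hN * (c.rn (c.sF K hl) * (c.sVF K p hN * c.wv (c.sVF K p hN))) =
      c.gamma0F p K hN * (c.rn (c.sVF K p hN) * (c.sF K hl * c.wv (c.sF K hl))) := by
  apply Subtype.ext
  simp only [IntermediateField.coe_mul, gammat_coe_wv, gammat_coe_rn, coe_gammaTF, coe_gamma0F,
    coe_sF, coe_sVF]
  have := c.gammaT_rel p K
  rw [map_mul, c.map_wv, c.map_rn] at this
  exact this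

end Rel

/-- outside the cusps `γ_t` is a unit where `rn(s)` and `rn(V s)` are units -/
theorem ord_gammaTF_eq_zero_of (hp : p.Prime) (hpr : p ≠ c.r) (N1 : ℕ) [NeZero (p * N1)]
    (hpN1 : ¬ p ∣ N1) (hN1 : c.lvl ∣ N1) (hr : c.r ∣ p * N1) (hl : c.lvl ∣ p * N1)
    (hN : c.lvl * p ∣ p * N1) (v : Place Qb (FF Qb (p * N1))) (hv : v.ord (c.tF Qb hr) = 0)
    (h1 : v.ord (c.rn (c.sF Qb hl)) = 0) (h2 : v.ord (c.rn (c.sVF Qb p hN)) = 0) :
    v.ord (c.gammaTF p Qb hN) = 0 := by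
  have hrp : c.r * p ∣ p * N1 := (mul_dvd_mul_right c.r_dvd_lvl p).trans hN
  have hVt : v.ord (c.tVF Qb p hrp) = 0 := gammat_cuspPair_eq (c.cuspT p hp hpr hrp v) hv
  have hS0 := c.gammat_sF_ne_zero Qb hl
  have hVS0 := c.gammat_sVF_ne_zero p Qb hN
  have relS := c.gammat_sF_pow Qb hr hl
  have relVS := c.gammat_sVF_pow p Qb hrp hN
  obtain ⟨hs, hws⟩ := c.gammat_ord_eq_zero v relS hS0 hv
  obtain ⟨hVs, hwVs⟩ := c.gammat_ord_eq_zero v relVS hVS0 hVt
  have hw0 : c.wv (c.sF Qb hl) ≠ 0 := right_ne_zero_of_mul (relS ▸ pow_ne_zero _ hS0)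
  have hVw0 : c.wv (c.sVF Qb p hN) ≠ 0 := right_ne_zero_of_mul (relVS ▸ pow_ne_zero _ hVS0)
  have hγ0 := c.ord_gamma0F_eq_zero p hp hpr N1 hpN1 hN1 hr hN v hv
  have rel := congrArg v.ord (c.gammat_rel_FF p Qb hl hN)
  rw [v.ord_mul (c.gammaTF_ne_zero p Qb hN)
      (mul_ne_zero (c.gammat_rn_sF_ne_zero Qb hl) (mul_ne_zero hVS0 hVw0)),
    v.ord_mul (c.gammat_rn_sF_ne_zero Qb hl) (mul_ne_zero hVS0 hVw0), v.ord_mul hVS0 hVw0,
    v.ord_mul (c.gamma0F_ne_zero p Qb hN)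
      (mul_ne_zero (c.gammat_rn_sVF_ne_zero p Qb hN) (mul_ne_zero hS0 hw0)),
    v.ord_mul (c.gammat_rn_sVF_ne_zero p Qb hN) (mul_ne_zero hS0 hw0), v.ord_mul hS0 hw0,
    h1, h2, hs, hws, hVs, hwVs, hγ0] at rel
  omega

/-- `exists_pow_mul_isIntegral` for all large exponents -/
theorem gammat_exists_pow {K F : Type*} [Field K] [Field F] [Algebra K F] [IsAlgClosed K]
    [CharZero K] (x : F) (hx : Transcendental K x)
    [FiniteDimensional K⟮x⟯ F] (g f : F) (hg : g ≠ 0)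
    (hgx : ∀ v : Place K F, 0 ≤ v.ord x → 0 ≤ v.ord g)
    (h : ∀ v : Place K F, 0 ≤ v.ord x → v.ord g = 0 → 0 ≤ v.ord f) :
    ∃ k : ℕ, ∀ k' : ℕ, k ≤ k' → IsIntegral (Algebra.adjoin K ({x} : Set F)) (g ^ k' * f) := by
  obtain ⟨k, hk⟩ := exists_pow_mul_isIntegral x hx g f hg hgx h
  refine ⟨k, fun k' hk' => ?_⟩
  obtain ⟨d, rfl⟩ := Nat.exists_eq_add_of_le hk'
  have e : g ^ (k + d) * f = g ^ d * (g ^ k * f) := by ring
  rw [e]
  exact ((isIntegral_of_forall_place x hx g hgx).pow d).mul hk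

section Qb

variable (hp : p.Prime) (hpr : p ≠ c.r) (N1 : ℕ) [NeZero (p * N1)]
    (hpN1 : ¬ p ∣ N1) (hN1 : c.lvl ∣ N1) (hr : c.r ∣ p * N1) (hl : c.lvl ∣ p * N1)
    (hN : c.lvl * p ∣ p * N1)

include hp hpr in
theorem gammat_chart_nonneg (v : Place Qb (FF Qb (p * N1))) (hv : 0 ≤ v.ord (c.tF Qb hr)) :
    0 ≤ v.ord (c.rn (c.sF Qb hl)) ∧ 0 ≤ v.ord (c.rn (c.sVF Qb p hN)) := by
  have hrp : c.r * p ∣ p * N1 := (mul_dvd_mul_right c.r_dvd_lvl p).trans hN
  have hVt : 0 ≤ v.ord (c.tVF Qb p hrp) :=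
    gammat_cuspPair_nonneg hp.pos (c.cuspT p hp hpr hrp v) hv
  have h1 := c.gammat_ord_s_nonneg v (c.gammat_sF_pow Qb hr hl) hv
  have h2 := c.gammat_ord_s_nonneg v (c.gammat_sVF_pow p Qb hrp hN) hVt
  exact ⟨S24.Zeros.ord_nonneg_of_mem v (c.gammat_rn_mem _ (S24.Zeros.mem_of_ord_nonneg v h1)),
    S24.Zeros.ord_nonneg_of_mem v (c.gammat_rn_mem _ (S24.Zeros.mem_of_ord_nonneg v h2))⟩

include hp hpr hpN1 hN1 in
theorem gammat_chart_unit (v : Place Qb (FF Qb (p * N1))) (hv : 0 ≤ v.ord (c.tF Qb hr))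
    (hg : v.ord (c.rn (c.sF Qb hl) * c.rn (c.sVF Qb p hN)) = 0) :
    v.ord (c.gammaTF p Qb hN) = 0 := by
  have hrp : c.r * p ∣ p * N1 := (mul_dvd_mul_right c.r_dvd_lvl p).trans hN
  by_cases h0 : v.ord (c.tF Qb hr) = 0
  · obtain ⟨h1, h2⟩ := c.gammat_chart_nonneg p hp hpr N1 hr hl hN v hv
    rw [v.ord_mul (c.gammat_rn_sF_ne_zero Qb hl) (c.gammat_rn_sVF_ne_zero p Qb hN)] at hg
    exact c.ord_gammaTF_eq_zero_of p hp hpr N1 hpN1 hN1 hr hl hN v h0 (by omega) (by omega)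
  · exact c.ord_gammaTF_eq_zero_of_cusp p hr hrp hN v h0
      (gammat_cuspPair_ne hp.pos (c.cuspT p hp hpr hrp v) h0)

include hp hpr in
theorem gammat_chart'_nonneg (v : Place Qb (FF Qb (p * N1))) (hv : v.ord (c.tF Qb hr) ≤ 0) :
    0 ≤ v.ord (c.rn' (c.sF Qb hl)⁻¹) ∧ 0 ≤ v.ord (c.rn' (c.sVF Qb p hN)⁻¹) := by
  have hrp : c.r * p ∣ p * N1 := (mul_dvd_mul_right c.r_dvd_lvl p).trans hN
  have hVt : v.ord (c.tVF Qb p hrp) ≤ 0 :=
    gammat_cuspPair_nonpos hp.pos (c.cuspT p hp hpr hrp v) hv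
  have h1 := c.gammat_ord_s_nonpos v (c.gammat_sF_pow Qb hr hl) (c.gammat_tF_ne_zero Qb hr) hv
  have h2 := c.gammat_ord_s_nonpos v (c.gammat_sVF_pow p Qb hrp hN)
    (c.gammat_tVF_ne_zero p Qb hrp) hVt
  refine ⟨S24.Zeros.ord_nonneg_of_mem v (c.gammat_rn'_mem _ (S24.Zeros.mem_of_ord_nonneg v ?_)),
    S24.Zeros.ord_nonneg_of_mem v (c.gammat_rn'_mem _ (S24.Zeros.mem_of_ord_nonneg v ?_))⟩
  · rw [v.ord_inv]; omega
  · rw [v.ord_inv]; omega

theorem gammat_rn'_sF_ne_zero : c.rn' (c.sF Qb hl)⁻¹ ≠ 0 := by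
  intro h
  have := c.gammat_rn'_mul (c.gammat_sF_ne_zero Qb hl)
  rw [h, zero_mul] at this
  exact c.gammat_rn_sF_ne_zero Qb hl this.symm

theorem gammat_rn'_sVF_ne_zero : c.rn' (c.sVF Qb p hN)⁻¹ ≠ 0 := by
  intro h
  have := c.gammat_rn'_mul (c.gammat_sVF_ne_zero p Qb hN)
  rw [h, zero_mul] at this
  exact c.gammat_rn_sVF_ne_zero p Qb hN this.symm

include hp hpr hpN1 hN1 in
theorem gammat_chart'_unit (v : Place Qb (FF Qb (p * N1))) (hv : v.ord (c.tF Qb hr) ≤ 0)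
    (hg : v.ord (c.rn' (c.sF Qb hl)⁻¹ * c.rn' (c.sVF Qb p hN)⁻¹) = 0) :
    v.ord (c.gammaTF p Qb hN) = 0 := by
  have hrp : c.r * p ∣ p * N1 := (mul_dvd_mul_right c.r_dvd_lvl p).trans hN
  by_cases h0 : v.ord (c.tF Qb hr) = 0
  · obtain ⟨h1, h2⟩ := c.gammat_chart'_nonneg p hp hpr N1 hr hl hN v hv
    rw [v.ord_mul (c.gammat_rn'_sF_ne_zero p N1 hl) (c.gammat_rn'_sVF_ne_zero p N1 hN)] at hg
    have hVt : v.ord (c.tVF Qb p hrp) = 0 := gammat_cuspPair_eq (c.cuspT p hp hpr hrp v) h0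
    have hs := (c.gammat_ord_eq_zero v (c.gammat_sF_pow Qb hr hl) (c.gammat_sF_ne_zero Qb hl) h0).1
    have hVs := (c.gammat_ord_eq_zero v (c.gammat_sVF_pow p Qb hrp hN)
      (c.gammat_sVF_ne_zero p Qb hN) hVt).1
    rw [c.gammat_ord_rn' v (c.gammat_sF_ne_zero Qb hl) hs] at h1 hg
    rw [c.gammat_ord_rn' v (c.gammat_sVF_ne_zero p Qb hN) hVs] at h2 hg
    exact c.ord_gammaTF_eq_zero_of p hp hpr N1 hpN1 hN1 hr hl hN v h0 (by omega) (by omega)
  · exact c.ord_gammaTF_eq_zero_of_cusp p hr hrp hN v h0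
      (gammat_cuspPair_ne hp.pos (c.cuspT p hp hpr hrp v) h0)

include hp hpr hpN1 hN1 in
/-- (g4') over `ℚ̄` -/
theorem gammat_exists_isIntegral_Qb : ∃ k : ℕ,
    IsIntegral (Algebra.adjoin Qb ({c.tF Qb hr} : Set (FF Qb (p * N1))))
      ((c.rn (c.sF Qb hl) * c.rn (c.sVF Qb p hN)) ^ k * c.gammaTF p Qb hN) ∧
    IsIntegral (Algebra.adjoin Qb ({c.tF Qb hr} : Set (FF Qb (p * N1))))
      ((c.rn (c.sF Qb hl) * c.rn (c.sVF Qb p hN)) ^ k * (c.gammaTF p Qb hN)⁻¹) ∧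
    IsIntegral (Algebra.adjoin Qb ({(c.tF Qb hr)⁻¹} : Set (FF Qb (p * N1))))
      ((c.rn' (c.sF Qb hl)⁻¹ * c.rn' (c.sVF Qb p hN)⁻¹) ^ k * c.gammaTF p Qb hN) ∧
    IsIntegral (Algebra.adjoin Qb ({(c.tF Qb hr)⁻¹} : Set (FF Qb (p * N1))))
      ((c.rn' (c.sF Qb hl)⁻¹ * c.rn' (c.sVF Qb p hN)⁻¹) ^ k * (c.gammaTF p Qb hN)⁻¹) := by
  have ht : Transcendental Qb (c.tF Qb hr) := c.tF_transcendental Qb hr
  have ht' : Transcendental Qb (c.tF Qb hr)⁻¹ := fun h => ht (by simpa using h.inv)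
  haveI : FiniteDimensional Qb⟮c.tF Qb hr⟯ (FF Qb (p * N1)) :=
    finiteDimensional_FF_of_transcendental Qb (p * N1) ht
  haveI : FiniteDimensional Qb⟮(c.tF Qb hr)⁻¹⟯ (FF Qb (p * N1)) :=
    finiteDimensional_FF_of_transcendental Qb (p * N1) ht'
  have hg : c.rn (c.sF Qb hl) * c.rn (c.sVF Qb p hN) ≠ 0 :=
    mul_ne_zero (c.gammat_rn_sF_ne_zero Qb hl) (c.gammat_rn_sVF_ne_zero p Qb hN)
  have hg' : c.rn' (c.sF Qb hl)⁻¹ * c.rn' (c.sVF Qb p hN)⁻¹ ≠ 0 :=
    mul_ne_zero (c.gammat_rn'_sF_ne_zero p N1 hl) (c.gammat_rn'_sVF_ne_zero p N1 hN)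
  have hgx : ∀ v : Place Qb (FF Qb (p * N1)), 0 ≤ v.ord (c.tF Qb hr) →
      0 ≤ v.ord (c.rn (c.sF Qb hl) * c.rn (c.sVF Qb p hN)) := by
    intro v hv
    obtain ⟨h1, h2⟩ := c.gammat_chart_nonneg p hp hpr N1 hr hl hN v hv
    rw [v.ord_mul (c.gammat_rn_sF_ne_zero Qb hl) (c.gammat_rn_sVF_ne_zero p Qb hN)]
    omega
  have hgx' : ∀ v : Place Qb (FF Qb (p * N1)), 0 ≤ v.ord (c.tF Qb hr)⁻¹ →
      0 ≤ v.ord (c.rn' (c.sF Qb hl)⁻¹ * c.rn' (c.sVF Qb p hN)⁻¹) := by
    intro v hv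
    rw [v.ord_inv] at hv
    obtain ⟨h1, h2⟩ := c.gammat_chart'_nonneg p hp hpr N1 hr hl hN v (by omega)
    rw [v.ord_mul (c.gammat_rn'_sF_ne_zero p N1 hl) (c.gammat_rn'_sVF_ne_zero p N1 hN)]
    omega
  obtain ⟨k1, hk1⟩ := gammat_exists_pow (c.tF Qb hr) ht _ (c.gammaTF p Qb hN) hg hgx
    (fun v hv h => (c.gammat_chart_unit p hp hpr N1 hpN1 hN1 hr hl hN v hv h).ge)
  obtain ⟨k2, hk2⟩ := gammat_exists_pow (c.tF Qb hr) ht _ (c.gammaTF p Qb hN)⁻¹ hg hgx
    (fun v hv h => by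
      rw [v.ord_inv, c.gammat_chart_unit p hp hpr N1 hpN1 hN1 hr hl hN v hv h, neg_zero])
  obtain ⟨k3, hk3⟩ := gammat_exists_pow (c.tF Qb hr)⁻¹ ht' _ (c.gammaTF p Qb hN) hg' hgx'
    (fun v hv h => by
      rw [v.ord_inv] at hv
      exact (c.gammat_chart'_unit p hp hpr N1 hpN1 hN1 hr hl hN v (by omega) h).ge)
  obtain ⟨k4, hk4⟩ := gammat_exists_pow (c.tF Qb hr)⁻¹ ht' _ (c.gammaTF p Qb hN)⁻¹ hg' hgx'
    (fun v hv h => by
      rw [v.ord_inv] at hv
      rw [v.ord_inv, c.gammat_chart'_unit p hp hpr N1 hpN1 hN1 hr hl hN v (by omega) h, neg_zero])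
  exact ⟨k1 + k2 + k3 + k4, hk1 _ (by omega), hk2 _ (by omega), hk3 _ (by omega),
    hk4 _ (by omega)⟩

end Qb

/-- (g4'), integrality form on both charts, over any number field `L` -/
theorem exists_isIntegral_gammaTF (hp : p.Prime) (hpr : p ≠ c.r) (N1 : ℕ) [NeZero (p * N1)]
    (hpN1 : ¬ p ∣ N1) (hN1 : c.lvl ∣ N1) (hr : c.r ∣ p * N1) (hl : c.lvl ∣ p * N1)
    (hN : c.lvl * p ∣ p * N1) (L : IntermediateField ℚ Qb) : ∃ k : ℕ,
    IsIntegral (Algebra.adjoin L ({c.tF L hr} : Set (FF L (p * N1))))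
      ((c.rn (c.sF L hl) * c.rn (c.sVF L p hN)) ^ k * c.gammaTF p L hN) ∧
    IsIntegral (Algebra.adjoin L ({c.tF L hr} : Set (FF L (p * N1))))
      ((c.rn (c.sF L hl) * c.rn (c.sVF L p hN)) ^ k * (c.gammaTF p L hN)⁻¹) ∧
    IsIntegral (Algebra.adjoin L ({(c.tF L hr)⁻¹} : Set (FF L (p * N1))))
      ((c.rn' (c.sF L hl)⁻¹ * c.rn' (c.sVF L p hN)⁻¹) ^ k * c.gammaTF p L hN) ∧
    IsIntegral (Algebra.adjoin L ({(c.tF L hr)⁻¹} : Set (FF L (p * N1))))
      ((c.rn' (c.sF L hl)⁻¹ * c.rn' (c.sVF L p hN)⁻¹) ^ k * (c.gammaTF p L hN)⁻¹) := by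
  obtain ⟨k, h1, h2, h3, h4⟩ := c.gammat_exists_isIntegral_Qb p hp hpr N1 hpN1 hN1 hr hl hN
  refine ⟨k, ?_, ?_, ?_, ?_⟩
  · apply E.isIntegral_descent
    rw [map_mul, map_pow, map_mul, c.map_rn, c.map_rn, c.mapFF_tF, c.mapFF_sF, c.mapFF_sVF,
      c.mapFF_gammaTF]
    exact h1
  · apply E.isIntegral_descent
    rw [map_mul, map_pow, map_mul, map_inv₀, c.map_rn, c.map_rn, c.mapFF_tF, c.mapFF_sF,
      c.mapFF_sVF, c.mapFF_gammaTF]
    exact h2
  · apply E.isIntegral_descent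
    rw [map_mul, map_pow, map_mul, c.gammat_map_rn', c.gammat_map_rn', map_inv₀, map_inv₀,
      map_inv₀, c.mapFF_tF, c.mapFF_sF, c.mapFF_sVF, c.mapFF_gammaTF]
    exact h3
  · apply E.isIntegral_descent
    rw [map_mul, map_pow, map_mul, c.gammat_map_rn', c.gammat_map_rn', map_inv₀, map_inv₀,
      map_inv₀, map_inv₀, c.mapFF_tF, c.mapFF_sF, c.mapFF_sVF, c.mapFF_gammaTF]
    exact h4

end BaseCase

end

end Fermat.Agent.C36.Unit
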