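import Fermat.Agent.GR.C.PlaceDown
import Fermat.Agent.S24.Zeros

/-!
# C36-UNIT: transport of places, integrality from orders at places
-/

set_option autoImplicit false

namespace Fermat.Agent.C36.Unit

open AlgebraicCurve IntermediateField

variable {K F F' : Type*} [Field K] [Field F] [Algebra K F] [Field F'] [Algebra K F']

/-- transport of a place by an automorphism -/
theorem exists_place_comap (σ : F ≃ₐ[K] F) (v : Place K F) :
    ∃ v' : Place K F, ∀ f : F, v'.ord f = v.ord (σ f) := by
  refine ⟨σ⁻¹ • v, fun f => ?_⟩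
  have h := Place.ord_smul σ⁻¹ v (σ f)
  have h2 : σ⁻¹ (σ f) = f := σ.symm_apply_apply f
  rwa [h2] at h

/-- the orders of the elements of the image of `φ` cannot all vanish -/
private theorem placeAut_not_forall_ord_eq_zero (φ : F →ₐ[K] F')
    (halg : ∀ y : F', IsAlgebraic φ.fieldRange y) (w : Place K F')
    (h0 : ∀ f : F, w.ord (φ f) = 0) : False := by
  apply w.ne_top'
  refine SetLike.ext fun y => ⟨fun _ => ValuationSubring.mem_top y, fun _ => ?_⟩
  have hmem : ∀ a : φ.fieldRange, (a : F') ∈ w.toValuationSubring := by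
    rintro ⟨_, f, rfl⟩
    exact S24.Zeros.mem_of_ord_nonneg w (h0 f).ge
  obtain ⟨P, hP, hPy⟩ := (halg y).isIntegral
  let ψ : φ.fieldRange →+* w.toValuationSubring :=
    (algebraMap φ.fieldRange F').codRestrict w.toValuationSubring.toSubring hmem
  have hint : IsIntegral w.toValuationSubring y := by
    refine ⟨P.map ψ, hP.map ψ, ?_⟩
    rw [Polynomial.eval₂_map]
    exact hPy
  obtain ⟨z, hz⟩ := IsIntegrallyClosed.isIntegral_iff.1 hint
  rw [← hz]
  exact z.2

/-- restriction of a place along an embedding of function fields (`F'` algebraic over the image) -/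
theorem exists_place_restrict_pos (φ : F →ₐ[K] F') (halg : ∀ y : F', IsAlgebraic φ.fieldRange y)
    (w : Place K F') : ∃ (v : Place K F) (e : ℤ), 0 < e ∧ ∀ f : F, w.ord (φ f) = e * v.ord f := by
  rcases GR.C.exists_place_restrict (K := K) (K' := K) φ.toRingHom
    (fun a => ⟨a, φ.commutes a⟩) w with h0 | ⟨v, e, he⟩
  · exact (placeAut_not_forall_ord_eq_zero φ halg w h0).elim
  · have he' : ∀ f : F, w.ord (φ f) = e * v.ord f := he
    refine ⟨v, e, ?_, he'⟩
    rcases lt_trichotomy e 0 with hneg | hzero | hpos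
    · exfalso
      obtain ⟨π, hπ⟩ := IsDiscreteValuationRing.exists_irreducible v.toValuationSubring
      have h1 : v.ord (π : F) = 1 := v.ord_coe_irreducible hπ
      have hπ0 : (π : F) ≠ 0 := by
        intro h
        rw [h, v.ord_zero] at h1
        omega
      have h2 : v.ord ((1 : F) + π) = 0 := by
        rw [S24.Zeros.ord_add_eq_of_lt v (by rw [v.ord_one, h1]; omega) one_ne_zero, v.ord_one]
      have h3 : w.ord (φ ((1 : F) + π)) = 0 := by rw [he', h2, mul_zero]
      have h4 : w.ord (φ (π : F)) = e := by rw [he', h1, mul_one]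
      have h5 : w.ord (φ (π : F) + 1) = e := by
        rw [S24.Zeros.ord_add_eq_of_lt w (by rw [w.ord_one, h4]; exact hneg)
          ((map_ne_zero φ).2 hπ0), h4]
      rw [map_add, map_one, add_comm, h5] at h3
      omega
    · exfalso
      refine placeAut_not_forall_ord_eq_zero φ halg w (fun f => ?_)
      rw [he', hzero, zero_mul]
    · exact hpos

/-- an element which is regular at all places where `x` is regular is integral over `K[x]` -/
theorem isIntegral_of_forall_place [CharZero K] (x : F) (hx : Transcendental K x)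
    [FiniteDimensional K⟮x⟯ F] (f : F) (h : ∀ v : Place K F, 0 ≤ v.ord x → 0 ≤ v.ord f) :
    IsIntegral (Algebra.adjoin K ({x} : Set F)) f := by
  have hD : IsDedekindDomain (S24.Zeros.intClosure K x) := S24.Zeros.isDedekindDomain_intClosure hx
  have hFr : IsFractionRing (S24.Zeros.intClosure K x) F := S24.Zeros.isFractionRing_intClosure x
  have hxint : IsIntegral (S24.Zeros.polyRing K x) x := by
    have : x = algebraMap (S24.Zeros.polyRing K x) F ⟨x, Algebra.subset_adjoin rfl⟩ := rfl
    rw [this]
    exact isIntegral_algebraMap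
  have key : ∀ w : IsDedekindDomain.HeightOneSpectrum (S24.Zeros.intClosure K x),
      w.valuation F f ≤ 1 := by
    intro w
    have h1 : x ∈ (Place.ofHeightOneSpectrum (K := K) w).toValuationSubring :=
      S24.Zeros.algebraMap_mem_ofHeightOneSpectrum (K := K) w
        (⟨x, hxint⟩ : S24.Zeros.intClosure K x)
    have h2 := h _ (S24.Zeros.ord_nonneg_of_mem _ h1)
    have h3 := S24.Zeros.mem_of_ord_nonneg _ h2
    rw [Place.ofHeightOneSpectrum_toValuationSubring, Valuation.mem_valuationSubring_iff] at h3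
    exact h3
  obtain ⟨d, hd⟩ := IsDedekindDomain.HeightOneSpectrum.mem_integers_of_valuation_le_one F f key
  rw [← hd]
  exact d.2

/-- converse -/
theorem ord_nonneg_of_isIntegral (x : F) (f : F)
    (h : IsIntegral (Algebra.adjoin K ({x} : Set F)) f) (v : Place K F) (hv : 0 ≤ v.ord x) :
    0 ≤ v.ord f :=
  S24.Zeros.ord_nonneg_of_mem v
    (S24.Zeros.intClosure_mem v hv (⟨f, h⟩ : S24.Zeros.intClosure K x))

/-- poles only at the zeros of `g`: some `g ^ k * f` is integral over `K[x]` -/
theorem exists_pow_mul_isIntegral [IsAlgClosed K] [CharZero K] (x : F) (hx : Transcendental K x)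
    [FiniteDimensional K⟮x⟯ F] (g f : F) (hg : g ≠ 0)
    (hgx : ∀ v : Place K F, 0 ≤ v.ord x → 0 ≤ v.ord g)
    (h : ∀ v : Place K F, 0 ≤ v.ord x → v.ord g = 0 → 0 ≤ v.ord f) :
    ∃ k : ℕ, IsIntegral (Algebra.adjoin K ({x} : Set F)) (g ^ k * f) := by
  classical
  by_cases hf : f = 0
  · exact ⟨0, by rw [hf, mul_zero]; exact isIntegral_zero⟩
  have hfin : FiniteDimensional K⟮x⟯ F := inferInstance
  have hsupp := S24.Zeros.finite_support_ord hfin g
  refine ⟨∑ v ∈ hsupp.toFinset, (-(v.ord f)).toNat, ?_⟩
  set k := ∑ v ∈ hsupp.toFinset, (-(v.ord f)).toNat with hk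
  refine isIntegral_of_forall_place x hx _ (fun v hv => ?_)
  have hpow : v.ord (g ^ k) = k * v.ord g := by
    rw [← zpow_natCast, v.ord_zpow]
  rw [v.ord_mul (pow_ne_zero k hg) hf, hpow]
  by_cases h0 : v.ord g = 0
  · rw [h0, mul_zero, zero_add]
    exact h v hv h0
  · have hpos : 1 ≤ v.ord g := by
      have := hgx v hv
      omega
    have hmem : v ∈ hsupp.toFinset := by
      rw [Set.Finite.mem_toFinset]
      exact h0
    have hle : (-(v.ord f)).toNat ≤ k :=
      Finset.single_le_sum (f := fun v : Place K F => (-(v.ord f)).toNat)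
        (fun _ _ => Nat.zero_le _) hmem
    have h1 : -(v.ord f) ≤ ((-(v.ord f)).toNat : ℤ) := Int.self_le_toNat _
    have h2 : ((-(v.ord f)).toNat : ℤ) ≤ (k : ℤ) := by exact_mod_cast hle
    have h3 : (k : ℤ) * 1 ≤ (k : ℤ) * v.ord g :=
      mul_le_mul_of_nonneg_left hpos (by positivity)
    omega

end Fermat.Agent.C36.Unit
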