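import Fermat.Agent.C36.Unit.Base

/-!
# C36-UNIT: the Hauptmodul `s₄ = (η(q)/η(q⁴))⁸` of `X₀(4)`

`s₄ := (h₂(q²) - 16 h₂) / (h₂ + 16) = q⁻¹ + ⋯ ∈ ℤ((q))`, with
`s₄² = h₂ (s₄ + 16)`, `s₄ (s₄ + 16) = h₂(q²)`, `j s₄⁴ (s₄ + 16) = (s₄² + 256 s₄ + 4096)³`.
-/

set_option autoImplicit false

namespace Fermat.Agent.C36.Unit

open ModularCurve Fermat.Agent.GR Fermat.Agent.GR.D.Haupt

noncomputable section

/-- `q (h₂ + 16)` -/
def den4 : PowerSeries ℤ := hNum2 + 16 * PowerSeries.X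

theorem constantCoeff_den4 : PowerSeries.constantCoeff den4 = 1 := by
  simp [den4, constantCoeff_hNum2]

/-- the inverse of `den4` -/
def den4Inv : PowerSeries ℤ := den4.invOfUnit 1

theorem den4_mul_inv : den4 * den4Inv = 1 :=
  PowerSeries.mul_invOfUnit _ _ (by rw [constantCoeff_den4]; rfl)

theorem constantCoeff_den4Inv : PowerSeries.constantCoeff den4Inv = 1 := by
  have h := congrArg (PowerSeries.constantCoeff (R := ℤ)) den4_mul_inv
  rwa [map_mul, constantCoeff_den4, one_mul, map_one] at h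

/-- `q² (h₂(q²) - 16 h₂)` -/
def num4 : PowerSeries ℤ :=
  PowerSeries.expand 2 (by norm_num) hNum2 - 16 * PowerSeries.X * hNum2

theorem constantCoeff_num4 : PowerSeries.constantCoeff num4 = 1 := by
  simp [num4, PowerSeries.constantCoeff_expand, constantCoeff_hNum2]

/-- `q s₄` -/
def sNum4 : PowerSeries ℤ := num4 * den4Inv

theorem constantCoeff_sNum4 : PowerSeries.constantCoeff sNum4 = 1 := by
  rw [sNum4, map_mul, constantCoeff_num4, constantCoeff_den4Inv, one_mul]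

variable (R : Type*) [CommRing R]

/-- The Hauptmodul `s₄ = q⁻¹ + ⋯` of `X₀(4)`. -/
def s4 : LaurentSeries R := poleL R sNum4

variable {R} in
theorem coeffMap_s4 {S : Type*} [CommRing S] (f : R →+* S) : coeffMap f (s4 R) = s4 S :=
  coeffMap_poleL f _

theorem s4_coeff_neg_one : (s4 R).coeff (-1) = 1 := poleL_coeff_neg_one R constantCoeff_sNum4

theorem s4_coeff_of_lt {k : ℤ} (hk : k < -1) : (s4 R).coeff k = 0 := poleL_coeff_of_lt R _ hk

theorem s4_order [Nontrivial R] : (s4 R).order = -1 := poleL_order R constantCoeff_sNum4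

/-- `h₂(q²)` -/
def h2V : LaurentSeries R := qExpand R 2 (h2 R)

theorem h2V_eq : h2V R = xiL R ^ 2 * toL R (PowerSeries.expand 2 (by norm_num) hNum2) :=
  qExpand_poleL R 2 hNum2

variable {R} in
theorem coeffMap_h2V {S : Type*} [CommRing S] (f : R →+* S) : coeffMap f (h2V R) = h2V S := by
  rw [h2V, coeffMap_qExpand, coeffMap_h2, h2V]

/-- `s₄ (h₂ + 16) = h₂(q²) - 16 h₂`. -/
theorem s4_mul : s4 R * (h2 R + 16) = h2V R - 16 * h2 R := by
  have h1 := xL_mul_xiL R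
  have h2' : toL R den4 * toL R den4Inv = 1 := by rw [← map_mul, den4_mul_inv, map_one]
  rw [den4, map_add, map_mul, toL_X', map_ofNat] at h2'
  rw [h2V_eq, s4, h2, poleL_eq, poleL_eq, sNum4, map_mul, num4, map_sub, map_mul, map_mul, toL_X',
    map_ofNat]
  set x := xL R
  set xi := xiL R
  set U := toL R hNum2
  set E := toL R (PowerSeries.expand 2 (by norm_num) hNum2)
  set Di := toL R den4Inv
  linear_combination (xi ^ 2 * (E - 16 * x * U)) * h2'
    - (16 * xi * (E - 16 * x * U) * Di + 16 * xi * U) * h1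

/-- the relation between `X = h₂` and `Y = h₂(q²)`, times the parasitic factor. -/
theorem rel4_aux : (h2 R * h2V R - 4096) *
    (h2V R ^ 2 - h2 R ^ 2 * h2V R - 48 * h2 R * h2V R - 4096 * h2 R) = 0 := by
  have e1 := j2_mul_h2 R
  have e2 := congrArg (qExpand R 2) (j_mul_h2_sq R)
  simp only [map_mul, map_pow, map_add, map_ofNat] at e2
  rw [← h2V] at e2
  linear_combination -(h2 R) * e2 + h2V R ^ 2 * e1

theorem rel4_int : h2V ℤ ^ 2 - h2 ℤ ^ 2 * h2V ℤ - 48 * h2 ℤ * h2V ℤ - 4096 * h2 ℤ = 0 := by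
  refine (mul_eq_zero.mp (rel4_aux ℤ)).resolve_left ?_
  rw [sub_eq_zero, h2V_eq, h2, poleL_eq]
  have : xiL ℤ * toL ℤ hNum2 * (xiL ℤ ^ 2 * toL ℤ (PowerSeries.expand 2 (by norm_num) hNum2))
      = xiL ℤ ^ 3 * toL ℤ (hNum2 * PowerSeries.expand 2 (by norm_num) hNum2) := by
    rw [map_mul]; ring
  rw [this]
  refine xiL_pow_mul_ne_natCast ℤ 3 ?_ _ ?_
  · rw [map_mul, PowerSeries.constantCoeff_expand, constantCoeff_hNum2, one_mul]
  · have : (4096 : LaurentSeries ℤ) = HahnSeries.C (4096 : ℤ) := (map_ofNat HahnSeries.C 4096).symm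
    rw [this, HahnSeries.C_apply, HahnSeries.coeff_single_of_ne (by norm_num)]

/-- the modular equation `Y² - X² Y - 48 X Y - 4096 X = 0` of `X₀(4)`. -/
theorem rel4 : h2V R ^ 2 - h2 R ^ 2 * h2V R - 48 * h2 R * h2V R - 4096 * h2 R = 0 := by
  have := congrArg (coeffMap (Int.castRingHom R)) rel4_int
  simpa only [map_sub, map_mul, map_pow, map_ofNat, coeffMap_h2, coeffMap_h2V, map_zero] using this

theorem h2_add_ne_zero_int : h2 ℤ + 16 ≠ 0 := by
  intro h
  have h1 := congrArg (fun f => HahnSeries.coeff f (-1)) h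
  simp only [HahnSeries.coeff_add, h2_coeff_neg_one, HahnSeries.coeff_zero] at h1
  have : (16 : LaurentSeries ℤ) = HahnSeries.C (16 : ℤ) := (map_ofNat HahnSeries.C 16).symm
  rw [this, HahnSeries.C_apply, HahnSeries.coeff_single_of_ne (by norm_num)] at h1
  norm_num at h1

theorem s4_sq_int : s4 ℤ ^ 2 = h2 ℤ * (s4 ℤ + 16) := by
  have hne := pow_ne_zero 2 h2_add_ne_zero_int
  apply mul_right_cancel₀ hne
  have h1 := s4_mul ℤ
  have h2' := rel4_int
  linear_combination (s4 ℤ * (h2 ℤ + 16) + (h2V ℤ - 16 * h2 ℤ) - h2 ℤ * (h2 ℤ + 16)) * h1 + h2'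

theorem s4_mul_add_int : s4 ℤ * (s4 ℤ + 16) = h2V ℤ := by
  have hne := pow_ne_zero 2 h2_add_ne_zero_int
  apply mul_right_cancel₀ hne
  have h1 := s4_mul ℤ
  have h2' := rel4_int
  linear_combination (s4 ℤ * (h2 ℤ + 16) + (h2V ℤ - 16 * h2 ℤ) + 16 * (h2 ℤ + 16)) * h1 + h2'

/-- `s₄² = h₂ (s₄ + 16)`. -/
theorem s4_sq : s4 R ^ 2 = h2 R * (s4 R + 16) := by
  have := congrArg (coeffMap (Int.castRingHom R)) s4_sq_int
  simpa only [map_add, map_mul, map_pow, map_ofNat, coeffMap_h2, coeffMap_s4] using this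

/-- `s₄ (s₄ + 16) = h₂(q²)`. -/
theorem s4_mul_add : s4 R * (s4 R + 16) = h2V R := by
  have := congrArg (coeffMap (Int.castRingHom R)) s4_mul_add_int
  simpa only [map_add, map_mul, map_ofNat, coeffMap_h2V, coeffMap_s4] using this

/-- `j s₄⁴ (s₄ + 16) = (s₄² + 256 s₄ + 4096)³`. -/
theorem j_mul_s4 :
    jqModC R * (s4 R ^ 4 * (s4 R + 16)) = (s4 R ^ 2 + 256 * s4 R + 4096) ^ 3 := by
  have h1 := j_mul_h2_sq R
  have h2' := s4_sq R
  set s := s4 R
  set X := h2 R
  set j := jqModC R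
  have e1 : s ^ 2 + 256 * s + 4096 = (X + 256) * (s + 16) := by linear_combination h2'
  have e2 : s ^ 4 = X ^ 2 * (s + 16) ^ 2 := by linear_combination (s ^ 2 + X * (s + 16)) * h2'
  rw [e1, e2]
  linear_combination (s + 16) ^ 3 * h1

/-- `(j - 1728) s₄⁴ (s₄ + 16) = ((s₄ + 32) (s₄² - 512 s₄ - 8192))²`. -/
theorem j_sub_mul_s4 : (jqModC R - 1728) * (s4 R ^ 4 * (s4 R + 16)) =
    ((s4 R + 32) * (s4 R ^ 2 - 512 * s4 R - 8192)) ^ 2 := by
  linear_combination j_mul_s4 R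

section Field

variable (K : Type*) [Field K]

theorem s4_transcendental : Transcendental K (s4 K) :=
  poleL_transcendental K constantCoeff_sNum4

theorem s4_ne_zero : s4 K ≠ 0 := fun h => by
  have := s4_coeff_neg_one K
  rw [h] at this
  simp at this

theorem h2_add_ne_zero : h2 K + 16 ≠ 0 := by
  intro h
  have h1 := congrArg (fun f => HahnSeries.coeff f (-1)) h
  simp only [HahnSeries.coeff_add, h2_coeff_neg_one, HahnSeries.coeff_zero] at h1
  have : (16 : LaurentSeries K) = HahnSeries.C (16 : K) := (map_ofNat HahnSeries.C 16).symm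
  rw [this, HahnSeries.C_apply, HahnSeries.coeff_single_of_ne (by norm_num)] at h1
  norm_num at h1

theorem h2V_mem_FF {N : ℕ} [NeZero N] (hN : 4 ∣ N) : h2V K ∈ FF K N :=
  qExpand_mem_FF K 2 (M := 2) (by simpa using hN) (h2_mem_FF K dvd_rfl)

theorem s4_mem_FF {N : ℕ} [NeZero N] (hN : 4 ∣ N) : s4 K ∈ FF K N := by
  have e : s4 K = (h2V K - 16 * h2 K) / (h2 K + 16) := by
    rw [eq_div_iff (h2_add_ne_zero K)]
    exact s4_mul K
  have h2m : h2 K ∈ FF K N := h2_mem_FF K (Dvd.dvd.trans (by norm_num) hN)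
  rw [e]
  refine div_mem (sub_mem (h2V_mem_FF K hN) (mul_mem ?_ h2m)) (add_mem h2m ?_)
  · exact_mod_cast (FF K N).natCast_mem 16
  · exact_mod_cast (FF K N).natCast_mem 16

end Field

end

end Fermat.Agent.C36.Unit
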