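import Fermat.Agent.C36.Unit.Case
import Fermat.Agent.S24.LaurentDeriv

/-!
# C36-UNIT: the derivation `θ = q d/dq` on Laurent series over an arbitrary commutative ring
-/

set_option autoImplicit false

namespace Fermat.Agent.C36.Unit

open ModularCurve Fermat.Agent.GR Fermat.Agent.GR.D.Haupt

noncomputable section

variable (R : Type*) [CommRing R]

/-- `θ (∑ aₙ qⁿ) = ∑ n aₙ qⁿ` -/
def theta : LaurentSeries R →ₗ[R] LaurentSeries R where
  toFun f :=
    { coeff := fun n => (n : R) * f.coeff n
      isPWO_support' := f.isPWO_support.mono (by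
        intro n hn
        simp only [Function.mem_support, ne_eq] at hn
        exact fun h => hn (by rw [h, mul_zero])) }
  map_add' f g := by
    ext n
    simp [mul_add]
  map_smul' a f := by
    ext n
    simp [mul_left_comm]

variable {R}

@[simp] theorem theta_coeff (f : LaurentSeries R) (n : ℤ) :
    (theta R f).coeff n = (n : R) * f.coeff n := rfl

theorem theta_support_subset (f : LaurentSeries R) : (theta R f).support ⊆ f.support := by
  intro n hn
  simp only [HahnSeries.mem_support, theta_coeff, ne_eq] at hn ⊢
  exact fun h => hn (by rw [h, mul_zero])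

/-- Leibniz rule -/
theorem theta_mul (f g : LaurentSeries R) :
    theta R (f * g) = f * theta R g + g * theta R f := by
  ext n
  rw [theta_coeff, HahnSeries.coeff_add, mul_comm g (theta R f), HahnSeries.coeff_mul,
    HahnSeries.coeff_mul_right' g.isPWO_support (theta_support_subset g),
    HahnSeries.coeff_mul_left' f.isPWO_support (theta_support_subset f),
    Finset.mul_sum, ← Finset.sum_add_distrib]
  refine Finset.sum_congr rfl ?_
  intro ij hij
  have h : ij.1 + ij.2 = n := (Finset.mem_antidiagonal.mp hij).2.2
  rw [theta_coeff, theta_coeff, ← h]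
  push_cast
  ring

theorem theta_single (k : ℤ) (a : R) :
    theta R (HahnSeries.single k a) = HahnSeries.single k ((k : R) * a) := by
  ext n
  rw [theta_coeff]
  by_cases h : n = k
  · subst h
    rw [HahnSeries.coeff_single_same, HahnSeries.coeff_single_same]
  · rw [HahnSeries.coeff_single_of_ne h, HahnSeries.coeff_single_of_ne h, mul_zero]

theorem theta_C (a : R) : theta R (HahnSeries.C a) = 0 := by
  rw [HahnSeries.C_apply, theta_single]
  simp

theorem theta_one : theta R (1 : LaurentSeries R) = 0 := by
  rw [← map_one (HahnSeries.C : R →+* LaurentSeries R), theta_C]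

theorem theta_natCast (n : ℕ) : theta R (n : LaurentSeries R) = 0 := by
  rw [← map_natCast (HahnSeries.C : R →+* LaurentSeries R), theta_C]

theorem theta_ofNat (n : ℕ) [n.AtLeastTwo] : theta R (OfNat.ofNat n : LaurentSeries R) = 0 := by
  rw [← Nat.cast_ofNat (R := LaurentSeries R), theta_natCast]

theorem theta_pow (f : LaurentSeries R) (n : ℕ) :
    theta R (f ^ n) = (n : LaurentSeries R) * f ^ (n - 1) * theta R f := by
  induction n with
  | zero => simp [theta_one]
  | succ n ih =>
    rw [pow_succ, theta_mul, ih]
    rcases n with _ | n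
    · simp
    · simp only [Nat.add_sub_cancel]
      push_cast
      ring

theorem coeffMap_theta {S : Type*} [CommRing S] (φ : R →+* S) (f : LaurentSeries R) :
    coeffMap φ (theta R f) = theta S (coeffMap φ f) := by
  ext n
  rw [coeffMap_coeff, theta_coeff, theta_coeff, coeffMap_coeff, map_mul, map_intCast]

theorem theta_qExpand (q : ℕ) [NeZero q] (f : LaurentSeries R) :
    theta R (qExpand R q f) = (q : LaurentSeries R) * qExpand R q (theta R f) := by
  ext k
  rw [← map_natCast (HahnSeries.C : R →+* LaurentSeries R), HahnSeries.C_mul_eq_smul,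
    HahnSeries.coeff_smul, smul_eq_mul, theta_coeff]
  by_cases hk : (q : ℤ) ∣ k
  · obtain ⟨m, rfl⟩ := hk
    rw [qExpand_coeff_mul, qExpand_coeff_mul, theta_coeff]
    push_cast
    ring
  · rw [qExpand_coeff_of_not_dvd _ _ hk, qExpand_coeff_of_not_dvd _ _ hk, mul_zero, mul_zero]

theorem theta_scaleHom (c : Rˣ) (f : LaurentSeries R) :
    theta R (scaleHom c f) = scaleHom c (theta R f) := by
  ext n
  rw [theta_coeff, scaleHom_coeff, scaleHom_coeff, theta_coeff]
  ring

theorem theta_toL (u : PowerSeries ℤ) :
    theta R (toL R u) = toL R (PowerSeries.X * PowerSeries.derivative ℤ u) := by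
  ext k
  rw [theta_coeff]
  rcases le_or_gt 0 k with hk | hk
  · lift k to ℕ using hk
    rw [toL_coeff_nat, toL_coeff_nat]
    rcases k with _ | k
    · simp
    · rw [PowerSeries.coeff_succ_X_mul, PowerSeries.coeff_derivative]
      push_cast
      ring
  · rw [toL_coeff_neg _ _ hk, toL_coeff_neg _ _ hk, mul_zero]

theorem theta_poleL (u : PowerSeries ℤ) :
    theta R (poleL R u) = poleL R (PowerSeries.X * PowerSeries.derivative ℤ u - u) := by
  rw [poleL, poleL, theta_mul, theta_single, theta_toL, map_sub]
  have : HahnSeries.single (-1 : ℤ) (((-1 : ℤ) : R) * 1)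
      = - HahnSeries.single (-1 : ℤ) (1 : R) := by
    rw [← HahnSeries.single_neg]
    simp
  rw [this]
  ring

section Field

variable {K : Type*} [Field K]

theorem theta_eq_ld (f : LaurentSeries K) :
    theta K f = HahnSeries.single (1 : ℤ) 1 * Fermat.Agent.S24.ld f := by
  ext n
  rw [theta_coeff, HahnSeries.coeff_single_mul, Fermat.Agent.S24.ld_coeff, one_mul,
    sub_add_cancel]

theorem theta_inv (f : LaurentSeries K) : theta K f⁻¹ = - theta K f / f ^ 2 := by
  by_cases hf : f = 0
  · subst hf
    simp
  have h1 : theta K (f * f⁻¹) = 0 := by rw [mul_inv_cancel₀ hf, theta_one]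
  rw [theta_mul] at h1
  rw [eq_div_iff (pow_ne_zero 2 hf)]
  have h2 : f⁻¹ * f = 1 := inv_mul_cancel₀ hf
  linear_combination f * h1 - theta K f * h2

theorem theta_div (f g : LaurentSeries K) (hg : g ≠ 0) :
    theta K (f / g) = (g * theta K f - f * theta K g) / g ^ 2 := by
  rw [div_eq_mul_inv, theta_mul, theta_inv]
  field_simp
  ring

theorem theta_eq_zero_iff [CharZero K] (f : LaurentSeries K) :
    theta K f = 0 ↔ ∃ a : K, f = HahnSeries.C a := by
  constructor
  · intro h
    refine ⟨f.coeff 0, ?_⟩
    ext n
    rw [HahnSeries.C_apply]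
    by_cases hn : n = 0
    · subst hn
      rw [HahnSeries.coeff_single_same]
    · rw [HahnSeries.coeff_single_of_ne hn]
      have h1 : (theta K f).coeff n = 0 := by rw [h]; rfl
      rw [theta_coeff] at h1
      rcases mul_eq_zero.mp h1 with h2 | h2
      · exact absurd (by exact_mod_cast h2) hn
      · exact h2
  · rintro ⟨a, rfl⟩
    exact theta_C a

theorem theta_ne_zero_of_order_ne_zero [CharZero K] {f : LaurentSeries K} (hf : f.order ≠ 0) :
    theta K f ≠ 0 := by
  intro h
  obtain ⟨a, rfl⟩ := (theta_eq_zero_iff f).1 h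
  exact hf HahnSeries.order_C

theorem order_theta [CharZero K] {f : LaurentSeries K} (hf : f.order ≠ 0) :
    (theta K f).order = f.order := by
  have hf0 : f ≠ 0 := by
    rintro rfl
    exact hf HahnSeries.order_zero
  apply le_antisymm
  · apply HahnSeries.order_le_of_coeff_ne_zero
    rw [theta_coeff]
    exact mul_ne_zero (by exact_mod_cast hf) (fun h => hf0 (HahnSeries.coeff_order_eq_zero.mp h))
  · rw [HahnSeries.le_order_iff_forall (theta_ne_zero_of_order_ne_zero hf)]
    intro j hj
    rw [theta_coeff, HahnSeries.coeff_eq_zero_of_lt_order hj, mul_zero]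

end Field

end

end Fermat.Agent.C36.Unit
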